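import Fermat.Agent.Corollaries.PF.CasselsPfister

/-!
# `1 + X_1 ^ 2 + … + X_m ^ 2` is not a sum of `m` squares

`F` is a formally real field (`-1` is not a sum of squares), for example `ℚ` or `ℝ`.

* `mv_real`: `F(X_1, …, X_m)` is formally real;
* `one_add_sum_sq_not_sum_sq`: `1 + X_1 ^ 2 + … + X_m ^ 2` is not a sum of `m` squares in
  `F(X_1, …, X_m)` (Cassels 1964);
* `sum_sq_X_not_sum_sq`: `X_1 ^ 2 + … + X_{m+1} ^ 2` is not a sum of `m` squares in
  `F(X_1, …, X_{m+1})`.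
-/

set_option autoImplicit false

namespace Fermat.Agent.Cor.PF

variable (F : Type*) [Field F]

/-- `F(X_1, …, X_m)`. -/
abbrev MvRat (m : ℕ) : Type _ := FractionRing (MvPolynomial (Fin m) F)

/-- `F[X_1, …, X_{m+1}] → F(X_1, …, X_m)(X)`. -/
noncomputable def mvEmb (m : ℕ) : MvPolynomial (Fin (m + 1)) F →+* RatFunc (MvRat F m) :=
  (algebraMap (Polynomial (MvRat F m)) (RatFunc (MvRat F m))).comp
    ((Polynomial.mapRingHom (algebraMap (MvPolynomial (Fin m) F) (MvRat F m))).comp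
      ((MvPolynomial.finSuccEquiv F m).toRingEquiv : _ →+* _))

theorem mvEmb_injective (m : ℕ) : Function.Injective (mvEmb F m) := by
  have h1 := IsFractionRing.injective (Polynomial (MvRat F m)) (RatFunc (MvRat F m))
  have h2 := Polynomial.map_injective _ (IsFractionRing.injective (MvPolynomial (Fin m) F)
    (MvRat F m))
  exact h1.comp (h2.comp (MvPolynomial.finSuccEquiv F m).injective)

/-- `F(X_1, …, X_{m+1}) → F(X_1, …, X_m)(X)`. -/
noncomputable def mvEmbK (m : ℕ) : MvRat F (m + 1) →+* RatFunc (MvRat F m) :=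
  IsFractionRing.lift (mvEmb_injective F m)

theorem mvEmbK_algebraMap (m : ℕ) (x : MvPolynomial (Fin (m + 1)) F) :
    mvEmbK F m (algebraMap _ _ x) = mvEmb F m x :=
  IsFractionRing.lift_algebraMap _ _

variable {F}

theorem two_ne_zero_of_real (hF : ∀ (n : ℕ) (x : Fin n → F), ∑ i, x i ^ 2 ≠ -1) :
    (2 : F) ≠ 0 := by
  intro h
  apply hF 1 (fun _ => 1)
  rw [Fin.sum_univ_one]
  linear_combination h

/-- `F(X_1, …, X_m)` is formally real. -/
theorem mv_real (hF : ∀ (n : ℕ) (x : Fin n → F), ∑ i, x i ^ 2 ≠ -1) (m : ℕ) :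
    ∀ (n : ℕ) (x : Fin n → MvRat F m), ∑ i, x i ^ 2 ≠ -1 := by
  induction m with
  | zero =>
    intro n x hx
    let e : MvRat F 0 →+* F := IsFractionRing.lift (g := ((MvPolynomial.isEmptyAlgEquiv F
      (Fin 0)).toRingEquiv : MvPolynomial (Fin 0) F →+* F))
      (MvPolynomial.isEmptyAlgEquiv F (Fin 0)).injective
    apply hF n fun i => e (x i)
    have h1 := congrArg e hx
    simpa only [map_sum, map_pow, map_neg, map_one] using h1
  | succ m ih =>
    intro n x hx
    have h2 := two_ne_zero_of_real ih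
    obtain ⟨y, hy⟩ := (neg_one_sum_sq_ratFunc_iff (RatFunc (MvRat F m)) h2 n).mp
      ⟨fun i => mvEmbK F m (x i), by
        have h1 := congrArg (mvEmbK F m) hx
        simpa only [map_sum, map_pow, map_neg, map_one] using h1⟩
    exact ih n y hy

/-- The induction step. -/
theorem not_sum_sq_step (hF : ∀ (n : ℕ) (x : Fin n → F), ∑ i, x i ^ 2 ≠ -1) (m n : ℕ) (c : F)
    (h : ¬ ∃ g : Fin n → MvRat F m, ∑ i, g i ^ 2 =
      algebraMap _ _ (MvPolynomial.C c + ∑ i, (MvPolynomial.X i : MvPolynomial (Fin m) F) ^ 2)) :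
    ¬ ∃ g : Fin (n + 1) → MvRat F (m + 1), ∑ i, g i ^ 2 = algebraMap _ _
      (MvPolynomial.C c + ∑ i, (MvPolynomial.X i : MvPolynomial (Fin (m + 1)) F) ^ 2) := by
  rintro ⟨g, hg⟩
  have hr := mv_real hF m
  have h2 := two_ne_zero_of_real hr
  have h1 := congrArg (mvEmbK F m) hg
  rw [mvEmbK_algebraMap] at h1
  have h3 : mvEmb F m (MvPolynomial.C c +
      ∑ i, (MvPolynomial.X i : MvPolynomial (Fin (m + 1)) F) ^ 2) =
      algebraMap (Polynomial (MvRat F m)) (RatFunc (MvRat F m)) (Polynomial.X ^ 2 +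
        Polynomial.C (algebraMap _ _ (MvPolynomial.C c +
          ∑ i, (MvPolynomial.X i : MvPolynomial (Fin m) F) ^ 2))) := by
    rw [mvEmb, RingHom.comp_apply, RingHom.comp_apply]
    congr 1
    have e0 : MvPolynomial.finSuccEquiv F m (MvPolynomial.X 0) = Polynomial.X :=
      MvPolynomial.finSuccEquiv_X_zero
    have e1 : ∀ j : Fin m, MvPolynomial.finSuccEquiv F m (MvPolynomial.X j.succ) =
        Polynomial.C (MvPolynomial.X j) := fun j => MvPolynomial.finSuccEquiv_X_succ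
    have eC : MvPolynomial.finSuccEquiv F m (MvPolynomial.C c) =
        Polynomial.C (MvPolynomial.C c) := by
      rw [MvPolynomial.finSuccEquiv_apply, MvPolynomial.eval₂Hom_C, RingHom.comp_apply]
    rw [Fin.sum_univ_succ]
    simp only [RingHom.coe_coe, map_add, map_sum, map_pow, AlgEquiv.coe_ringEquiv, e0, e1, eC,
      Polynomial.coe_mapRingHom, Polynomial.map_X, Polynomial.map_C]
    ring
  rw [h3] at h1
  have h4 := (cassels_sq_add (RatFunc (MvRat F m)) h2 n _).mp
    ⟨fun i => mvEmbK F m (g i), by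
      rw [← h1, map_sum]
      exact Finset.sum_congr rfl fun i _ => (map_pow _ _ _).symm⟩
  rcases h4 with ⟨x, hx⟩ | h4
  · exact hr n x hx
  · exact h h4

/-- **Cassels**: `1 + X_1 ^ 2 + … + X_m ^ 2` is not a sum of `m` squares in `F(X_1, …, X_m)`, for a
formally real field `F`. -/
theorem one_add_sum_sq_not_sum_sq (hF : ∀ (n : ℕ) (x : Fin n → F), ∑ i, x i ^ 2 ≠ -1) (m : ℕ) :
    ¬ ∃ g : Fin m → FractionRing (MvPolynomial (Fin m) F), ∑ i, g i ^ 2 =
      algebraMap _ _ (1 + ∑ i, (MvPolynomial.X i : MvPolynomial (Fin m) F) ^ 2) := by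
  have key : ∀ m : ℕ, ¬ ∃ g : Fin m → MvRat F m, ∑ i, g i ^ 2 =
      algebraMap _ _ (MvPolynomial.C 1 +
        ∑ i, (MvPolynomial.X i : MvPolynomial (Fin m) F) ^ 2) := by
    intro m
    induction m with
    | zero =>
      rintro ⟨g, hg⟩
      simp at hg
    | succ m ih => exact not_sum_sq_step hF m m 1 ih
  simpa only [map_one] using key m

/-- `X_1 ^ 2 + … + X_{m+1} ^ 2` is not a sum of `m` squares in `F(X_1, …, X_{m+1})`, for a formally
real field `F`. -/
theorem sum_sq_X_not_sum_sq (hF : ∀ (n : ℕ) (x : Fin n → F), ∑ i, x i ^ 2 ≠ -1) (m : ℕ) :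
    ¬ ∃ g : Fin m → FractionRing (MvPolynomial (Fin (m + 1)) F), ∑ i, g i ^ 2 =
      algebraMap _ _ (∑ i, (MvPolynomial.X i : MvPolynomial (Fin (m + 1)) F) ^ 2) := by
  have key : ∀ m : ℕ, ¬ ∃ g : Fin m → MvRat F (m + 1), ∑ i, g i ^ 2 =
      algebraMap _ _ (MvPolynomial.C 0 +
        ∑ i, (MvPolynomial.X i : MvPolynomial (Fin (m + 1)) F) ^ 2) := by
    intro m
    induction m with
    | zero =>
      rintro ⟨g, hg⟩
      rw [Fin.sum_univ_zero, Fin.sum_univ_one] at hg
      have h1 := (map_eq_zero_iff _ (IsFractionRing.injective (MvPolynomial (Fin (0 + 1)) F)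
        (MvRat F (0 + 1)))).mp hg.symm
      simp at h1
    | succ m ih => exact not_sum_sq_step hF (m + 1) m 0 ih
  simpa only [map_zero, zero_add] using key m

/-- The case of an ordered field. -/
theorem real_of_ordered {k : Type*} [Field k] [LinearOrder k] [IsStrictOrderedRing k] (n : ℕ)
    (x : Fin n → k) : ∑ i, x i ^ 2 ≠ -1 := by
  intro h
  have h1 : 0 ≤ ∑ i, x i ^ 2 := Finset.sum_nonneg fun i _ => sq_nonneg (x i)
  rw [h] at h1
  linarith

/-- `1 + X_1 ^ 2 + … + X_m ^ 2` is not a sum of `m` squares in `ℝ(X_1, …, X_m)`. -/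
theorem one_add_sum_sq_real (m : ℕ) :
    ¬ ∃ g : Fin m → FractionRing (MvPolynomial (Fin m) ℝ), ∑ i, g i ^ 2 =
      algebraMap _ _ (1 + ∑ i, (MvPolynomial.X i : MvPolynomial (Fin m) ℝ) ^ 2) :=
  one_add_sum_sq_not_sum_sq (fun n x => real_of_ordered n x) m

end Fermat.Agent.Cor.PF
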