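import Mathlib

/-!
# The theorem of Cassels and Pfister

`F` is a field of characteristic not two, `q = ∑ a i x_i ^ 2` a diagonal quadratic form over `F`.

* `cassels_pfister`: a polynomial `f ∈ F[X]` which is a value of `q` over `F(X)` is a value of `q`
  over `F[X]` (Cassels 1964, Pfister 1965);
* `value_const_iff`: `c ∈ F` is a value of `q` over `F(X)` iff it is a value of `q` over `F`;
* `sum_sq_poly_iff`, `sum_sq_const_iff`, `neg_one_sum_sq_ratFunc_iff`: the case of sums of `n` squares;
* `cassels_sq_add`: `X ^ 2 + d`, `d ∈ F`, is a sum of `n + 1` squares in `F(X)` iff `-1` or `d` is a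
  sum of `n` squares in `F` (Cassels 1964).
-/

set_option autoImplicit false

namespace Fermat.Agent.Cor.PF

open Polynomial

variable {F : Type*} [Field F] {ι : Type*} [Fintype ι]

/-- An anisotropic form over `F` remains anisotropic over `F[X]`. -/
theorem anisotropic_poly {a : ι → F} (ha : ∀ x : ι → F, ∑ i, a i * x i ^ 2 = 0 → x = 0)
    {r : ι → F[X]} (hr : ∑ i, C (a i) * r i ^ 2 = 0) : r = 0 := by
  classical
  by_contra hne
  set D := Finset.univ.sup fun i => (r i).natDegree with hD
  have hle : ∀ i, (r i).natDegree ≤ D := fun i =>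
    Finset.le_sup (f := fun i => (r i).natDegree) (Finset.mem_univ i)
  have h1 : ∑ i, a i * (r i).coeff D ^ 2 = 0 := by
    have h2 := congrArg (fun p : F[X] => p.coeff (2 * D)) hr
    simp only [finsetSum_coeff, coeff_C_mul, coeff_zero] at h2
    rw [← h2]
    exact Finset.sum_congr rfl fun i _ => by rw [coeff_pow_of_natDegree_le (hle i)]
  have h2 := ha _ h1
  have h3 : ∀ i, (r i).coeff D = 0 := fun i => congrFun h2 i
  obtain ⟨i, hi⟩ : ∃ i, r i ≠ 0 := by
    by_contra! hcon
    exact hne (funext hcon)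
  obtain ⟨j, -, hj⟩ := Finset.exists_mem_eq_sup Finset.univ ⟨i, Finset.mem_univ i⟩
    (fun i => (r i).natDegree)
  have hj' : r j = 0 := by
    rw [← leadingCoeff_eq_zero, leadingCoeff, ← hj]
    exact h3 j
  have hD0 : D = 0 := by rw [hD, hj, hj', natDegree_zero]
  have h4 := h3 i
  have h5 := hle i
  rw [hD0] at h4 h5
  apply hi
  rw [eq_C_of_natDegree_le_zero h5, h4, C_0]

/-- The descent of Cassels. -/
theorem cassels_descent {a : ι → F}
    (ha : ∀ x : ι → F, ∑ i, a i * x i ^ 2 = 0 → x = 0) (f : F[X]) (n : ℕ) :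
    ∀ (h : F[X]) (g : ι → F[X]), h ≠ 0 → h.natDegree ≤ n → ∑ i, C (a i) * g i ^ 2 = f * h ^ 2 →
      ∃ g' : ι → F[X], ∑ i, C (a i) * g' i ^ 2 = f := by
  induction n with
  | zero =>
    intro h g h0 hn hg
    obtain ⟨c, rfl⟩ : ∃ c, h = C c := ⟨h.coeff 0, eq_C_of_natDegree_le_zero hn⟩
    have hc : c ≠ 0 := fun hc => h0 (by rw [hc, C_0])
    refine ⟨fun i => C c⁻¹ * g i, ?_⟩
    have h1 : C c⁻¹ * C c = (1 : F[X]) := by rw [← C_mul, inv_mul_cancel₀ hc, C_1]
    calc ∑ i, C (a i) * (C c⁻¹ * g i) ^ 2 = C c⁻¹ ^ 2 * ∑ i, C (a i) * g i ^ 2 := by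
          rw [Finset.mul_sum]
          exact Finset.sum_congr rfl fun i _ => by ring
      _ = f * (C c⁻¹ * C c) ^ 2 := by rw [hg]; ring
      _ = f := by rw [h1, one_pow, mul_one]
  | succ n ih =>
    intro h g h0 hn hg
    by_cases hlt : h.natDegree ≤ n
    · exact ih h g h0 hlt hg
    have hdeg : h.natDegree = n + 1 := by omega
    set u : ι → F[X] := fun i => g i / h with hu
    set r : ι → F[X] := fun i => g i % h with hr
    have hgr : ∀ i, g i = h * u i + r i := fun i => (EuclideanDomain.div_add_mod (g i) h).symm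
    by_cases hr0 : r = 0
    · refine ⟨u, ?_⟩
      have h1 : h ^ 2 * ∑ i, C (a i) * u i ^ 2 = h ^ 2 * f := by
        rw [mul_comm (h ^ 2) f, ← hg, Finset.mul_sum]
        refine Finset.sum_congr rfl fun i _ => ?_
        have h3 := congrFun hr0 i
        rw [hgr i, h3]
        simp only [Pi.zero_apply]
        ring
      exact mul_left_cancel₀ (pow_ne_zero 2 h0) h1
    · -- `s = q(r)`, `φ(y) = q(u) - f`, `φ(x, y) = b(g, u) - f h`
      set s := ∑ i, C (a i) * r i ^ 2 with hs
      have hs0 : s ≠ 0 := fun h' => hr0 (anisotropic_poly ha h')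
      set A := ∑ i, C (a i) * u i ^ 2 - f with hA
      set B := ∑ i, C (a i) * (g i * u i) - f * h with hB
      -- `h (A h - 2 B) = s`
      have key : h * (A * h - 2 * B) = s := by
        have e1 : s = ∑ i, C (a i) * (g i - h * u i) ^ 2 :=
          Finset.sum_congr rfl fun i _ => by rw [hgr i]; ring
        have e2 : ∑ i, C (a i) * (g i - h * u i) ^ 2 = ∑ i, C (a i) * g i ^ 2 -
            2 * h * ∑ i, C (a i) * (g i * u i) + h ^ 2 * ∑ i, C (a i) * u i ^ 2 := by
          rw [Finset.mul_sum, Finset.mul_sum, ← Finset.sum_sub_distrib, ← Finset.sum_add_distrib]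
          exact Finset.sum_congr rfl fun i _ => by ring
        rw [e1, e2, hg, hA, hB]
        ring
      have hne : A * h - 2 * B ≠ 0 := fun h' => hs0 (by rw [← key, h', mul_zero])
      have hdr : ∀ i, (r i).natDegree ≤ n := by
        intro i
        have h3 : (r i).natDegree < h.natDegree := natDegree_mod_lt _ (by omega)
        omega
      have hds : s.natDegree ≤ 2 * n := by
        refine natDegree_sum_le_of_forall_le _ _ fun i _ => ?_
        refine (natDegree_C_mul_le _ _).trans ?_
        exact natDegree_pow_le_of_le 2 (hdr i)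
      refine ih (A * h - 2 * B) (fun i => A * g i - 2 * B * u i) hne ?_ ?_
      · have h3 := congrArg natDegree key
        rw [natDegree_mul h0 hne] at h3
        omega
      · have e3 : ∑ i, C (a i) * (A * g i - 2 * B * u i) ^ 2 = A ^ 2 * ∑ i, C (a i) * g i ^ 2 -
            4 * A * B * ∑ i, C (a i) * (g i * u i) + 4 * B ^ 2 * ∑ i, C (a i) * u i ^ 2 := by
          rw [Finset.mul_sum, Finset.mul_sum, Finset.mul_sum, ← Finset.sum_sub_distrib,
            ← Finset.sum_add_distrib]
          exact Finset.sum_congr rfl fun i _ => by ring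
        have e4 : ∑ i, C (a i) * (g i * u i) = B + f * h := by rw [hB]; ring
        have e5 : ∑ i, C (a i) * u i ^ 2 = A + f := by rw [hA]; ring
        rw [e3, hg, e4, e5]
        ring

/-- Isotropic forms with non-zero coefficients represent every polynomial. -/
theorem exists_value_poly_of_isotropic (h2 : (2 : F) ≠ 0) {a : ι → F} (ha : ∀ i, a i ≠ 0)
    {v : ι → F} (hv : v ≠ 0) (h : ∑ i, a i * v i ^ 2 = 0) (f : F[X]) :
    ∃ g : ι → F[X], ∑ i, C (a i) * g i ^ 2 = f := by
  classical
  obtain ⟨j, hj⟩ : ∃ j, v j ≠ 0 := by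
    by_contra! hcon
    exact hv (funext hcon)
  have hc : 2 * a j * v j ≠ 0 := mul_ne_zero (mul_ne_zero h2 (ha j)) hj
  set t : F[X] := C (2 * a j * v j)⁻¹ * (f - C (a j)) with ht
  refine ⟨fun i => t * C (v i) + if i = j then 1 else 0, ?_⟩
  have h1 : ∀ i, C (a i) * (t * C (v i) + if i = j then 1 else 0) ^ 2 =
      t ^ 2 * C (a i * v i ^ 2) + if i = j then C (2 * a j * v j) * t + C (a j) else 0 := by
    intro i
    split_ifs with hi
    · subst hi
      simp only [C_mul, C_pow, C_ofNat]
      ring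
    · simp only [C_mul, C_pow, add_zero]
      ring
  rw [Finset.sum_congr rfl fun i _ => h1 i, Finset.sum_add_distrib, ← Finset.mul_sum,
    ← map_sum, h, C_0, mul_zero, zero_add, Finset.sum_ite_eq' Finset.univ j]
  rw [if_pos (Finset.mem_univ j), ht, ← mul_assoc, ← C_mul, mul_inv_cancel₀ hc, C_1, one_mul]
  ring

variable (L : Type*) [Field L] [Algebra F[X] L] [IsFractionRing F[X] L]

/-- **The theorem of Cassels and Pfister**: a polynomial which is a value of the quadratic form
`∑ a i x_i ^ 2` over the rational function field is a value of this form over the polynomial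
ring. -/
theorem cassels_pfister (h2 : (2 : F) ≠ 0) (a : ι → F) (f : F[X]) :
    (∃ g : ι → L, ∑ i, algebraMap F[X] L (C (a i)) * g i ^ 2 = algebraMap F[X] L f) ↔
      ∃ g : ι → F[X], ∑ i, C (a i) * g i ^ 2 = f := by
  classical
  constructor
  · rintro ⟨g, hg⟩
    -- the non-zero coefficients
    obtain ⟨b, hb⟩ := IsLocalization.exist_integer_multiples_of_finite (nonZeroDivisors F[X]) g
    choose g' hg' using hb
    have hb0 : (b : F[X]) ≠ 0 := nonZeroDivisors.ne_zero b.2
    have hg'' : ∑ i, C (a i) * g' i ^ 2 = f * (b : F[X]) ^ 2 := by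
      apply IsFractionRing.injective F[X] L
      rw [map_sum, map_mul, map_pow, ← hg, Finset.sum_mul]
      refine Finset.sum_congr rfl fun i _ => ?_
      rw [map_mul, map_pow, hg' i, Algebra.smul_def]
      ring
    -- restriction to the non-zero coefficients
    have hsum : ∀ w : ι → F[X], ∑ i, C (a i) * w i ^ 2 =
        ∑ i : {i // a i ≠ 0}, C (a i) * w i ^ 2 := by
      intro w
      rw [← Finset.sum_subtype (Finset.univ.filter fun i => a i ≠ 0) (by simp)
        (fun i => C (a i) * w i ^ 2)]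
      refine (Finset.sum_filter_of_ne (p := fun i => a i ≠ 0)
        fun i _ hi (hai : a i = 0) => hi ?_).symm
      rw [hai, C_0, zero_mul]
    by_cases hiso : ∃ v : {i // a i ≠ 0} → F, v ≠ 0 ∧
        ∑ i : {i // a i ≠ 0}, a i * v i ^ 2 = 0
    · obtain ⟨v, hv, h⟩ := hiso
      obtain ⟨w, hw⟩ := exists_value_poly_of_isotropic h2 (a := fun i : {i // a i ≠ 0} => a i)
        (fun i => i.2) hv h f
      refine ⟨fun i => if hi : a i ≠ 0 then w ⟨i, hi⟩ else 0, ?_⟩
      rw [hsum, ← hw]
      refine Finset.sum_congr rfl fun i _ => ?_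
      rw [dif_pos i.2]
    · push Not at hiso
      rw [hsum] at hg''
      obtain ⟨w, hw⟩ := cassels_descent (a := fun i : {i // a i ≠ 0} => a i)
        (fun x hx => by
          by_contra hx0
          exact hiso x hx0 hx) f (b : F[X]).natDegree b (fun i => g' i) hb0 le_rfl hg''
      refine ⟨fun i => if hi : a i ≠ 0 then w ⟨i, hi⟩ else 0, ?_⟩
      rw [hsum, ← hw]
      refine Finset.sum_congr rfl fun i _ => ?_
      rw [dif_pos i.2]
  · rintro ⟨g, hg⟩
    refine ⟨fun i => algebraMap F[X] L (g i), ?_⟩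
    rw [← hg, map_sum]
    exact Finset.sum_congr rfl fun i _ => by rw [map_mul, map_pow]

/-- A constant which is a value of a quadratic form over the rational function field is a value of
this form. -/
theorem value_const_iff (h2 : (2 : F) ≠ 0) (a : ι → F) (c : F) :
    (∃ g : ι → L, ∑ i, algebraMap F[X] L (C (a i)) * g i ^ 2 = algebraMap F[X] L (C c)) ↔
      ∃ x : ι → F, ∑ i, a i * x i ^ 2 = c := by
  rw [cassels_pfister L h2]
  constructor
  · rintro ⟨g, hg⟩
    refine ⟨fun i => (g i).eval 0, ?_⟩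
    have h1 := congrArg (Polynomial.eval 0) hg
    rw [eval_finsetSum, eval_C] at h1
    rw [← h1]
    exact Finset.sum_congr rfl fun i _ => by rw [eval_mul, eval_C, eval_pow]
  · rintro ⟨x, hx⟩
    refine ⟨fun i => C (x i), ?_⟩
    rw [← hx, map_sum]
    exact Finset.sum_congr rfl fun i _ => by rw [C_mul, C_pow]

/-- A polynomial is a sum of `n` squares of rational functions iff it is a sum of `n` squares of
polynomials. -/
theorem sum_sq_poly_iff (h2 : (2 : F) ≠ 0) (n : ℕ) (f : F[X]) :
    (∃ g : Fin n → L, ∑ i, g i ^ 2 = algebraMap F[X] L f) ↔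
      ∃ g : Fin n → F[X], ∑ i, g i ^ 2 = f := by
  have h := cassels_pfister L h2 (fun _ : Fin n => (1 : F)) f
  simpa only [C_1, map_one, one_mul] using h

/-- A constant is a sum of `n` squares of rational functions iff it is a sum of `n` squares of
constants. -/
theorem sum_sq_const_iff (h2 : (2 : F) ≠ 0) (n : ℕ) (c : F) :
    (∃ g : Fin n → L, ∑ i, g i ^ 2 = algebraMap F[X] L (C c)) ↔
      ∃ x : Fin n → F, ∑ i, x i ^ 2 = c := by
  have h := value_const_iff L h2 (fun _ : Fin n => (1 : F)) c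
  simpa only [C_1, map_one, one_mul] using h

/-- The fields `F` and `F(X)` have the same level. -/
theorem neg_one_sum_sq_ratFunc_iff (h2 : (2 : F) ≠ 0) (n : ℕ) :
    (∃ g : Fin n → L, ∑ i, g i ^ 2 = -1) ↔ ∃ x : Fin n → F, ∑ i, x i ^ 2 = -1 := by
  have h := sum_sq_const_iff L h2 n (-1)
  simpa only [C_neg, C_1, map_neg, map_one] using h

omit [Fintype ι] in
theorem anisotropic_sum_sq {n : ℕ} (h : ¬ ∃ x : Fin n → F, ∑ i, x i ^ 2 = -1) (x : Fin (n + 1) → F)
    (hx : ∑ i, 1 * x i ^ 2 = 0) : x = 0 := by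
  by_contra hne
  obtain ⟨j, hj⟩ : ∃ j, x j ≠ 0 := by
    by_contra! hcon
    exact hne (funext hcon)
  simp only [one_mul] at hx
  rw [Fin.sum_univ_succAbove _ j] at hx
  refine h ⟨fun i => x (j.succAbove i) / x j, ?_⟩
  simp only [div_pow]
  rw [← Finset.sum_div, div_eq_iff (pow_ne_zero 2 hj)]
  linear_combination hx

/-- No cancellation of the leading terms. -/
theorem natDegree_le_of_anisotropic {a : ι → F}
    (ha : ∀ x : ι → F, ∑ i, a i * x i ^ 2 = 0 → x = 0) {g : ι → F[X]} {f : F[X]}
    (h : ∑ i, C (a i) * g i ^ 2 = f) {m : ℕ} (hf : f.natDegree ≤ 2 * m) (i : ι) :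
    (g i).natDegree ≤ m := by
  classical
  set D := Finset.univ.sup fun i => (g i).natDegree with hD
  have hle : ∀ i, (g i).natDegree ≤ D := fun i =>
    Finset.le_sup (f := fun i => (g i).natDegree) (Finset.mem_univ i)
  by_cases hDm : D ≤ m
  · exact (hle i).trans hDm
  exfalso
  push Not at hDm
  have h1 : ∑ i, a i * (g i).coeff D ^ 2 = 0 := by
    have h2 := congrArg (fun p : F[X] => p.coeff (2 * D)) h
    simp only [finsetSum_coeff, coeff_C_mul] at h2
    rw [coeff_eq_zero_of_natDegree_lt (by omega : f.natDegree < 2 * D)] at h2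
    rw [← h2]
    exact Finset.sum_congr rfl fun i _ => by rw [coeff_pow_of_natDegree_le (hle i)]
  have h3 : ∀ i, (g i).coeff D = 0 := fun i => congrFun (ha _ h1) i
  obtain ⟨j, -, hj⟩ := Finset.exists_mem_eq_sup Finset.univ ⟨i, Finset.mem_univ i⟩
    (fun i => (g i).natDegree)
  have hj' : g j = 0 := by
    rw [← leadingCoeff_eq_zero, leadingCoeff, ← hj]
    exact h3 j
  have hD0 : D = 0 := by rw [hD, hj, hj', natDegree_zero]
  omega

/-- **Cassels**: `X ^ 2 + d`, `d ∈ F`, is a sum of `n + 1` squares in `F(X)` iff `-1` or `d` is a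
sum of `n` squares in `F`. -/
theorem cassels_sq_add (h2 : (2 : F) ≠ 0) (n : ℕ) (d : F) :
    (∃ g : Fin (n + 1) → L, ∑ i, g i ^ 2 = algebraMap F[X] L (X ^ 2 + C d)) ↔
      (∃ x : Fin n → F, ∑ i, x i ^ 2 = -1) ∨ ∃ x : Fin n → F, ∑ i, x i ^ 2 = d := by
  rw [sum_sq_poly_iff L h2]
  constructor
  · rintro ⟨g, hg⟩
    by_cases h : ∃ x : Fin n → F, ∑ i, x i ^ 2 = -1
    · exact Or.inl h
    right
    have hdeg : (g 0).natDegree ≤ 1 :=
      natDegree_le_of_anisotropic (a := fun _ : Fin (n + 1) => (1 : F)) (m := 1)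
        (anisotropic_sum_sq h) (by simpa only [C_1, one_mul] using hg) (by
        refine (natDegree_add_le _ _).trans (max_le ?_ ?_)
        · rw [natDegree_X_pow]
        · rw [natDegree_C]
          omega) 0
    obtain ⟨α, β, hαβ⟩ := exists_eq_X_add_C_of_natDegree_le_one hdeg
    obtain ⟨c, hc⟩ : ∃ c : F, (α * c + β) ^ 2 = c ^ 2 := by
      by_cases hα : α = 1
      · refine ⟨-β / 2, ?_⟩
        rw [hα]
        field_simp
        ring
      · have h1 : 1 - α ≠ 0 := sub_ne_zero.mpr (Ne.symm hα)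
        refine ⟨β / (1 - α), ?_⟩
        have h3 : α * (β / (1 - α)) + β = β / (1 - α) := by
          field_simp
          ring
        rw [h3]
    refine ⟨fun i => (g i.succ).eval c, ?_⟩
    have h1 := congrArg (Polynomial.eval c) hg
    rw [eval_finsetSum, Fin.sum_univ_succ] at h1
    simp only [eval_pow, eval_add, eval_X, eval_C] at h1
    rw [hαβ] at h1
    simp only [eval_add, eval_mul, eval_X, eval_C] at h1
    rw [hc] at h1
    exact add_left_cancel h1
  · rintro (⟨x, hx⟩ | ⟨x, hx⟩)
    · obtain ⟨g, hg⟩ := exists_value_poly_of_isotropic h2 (a := fun _ : Fin (n + 1) => (1 : F))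
        (fun _ => one_ne_zero) (v := Fin.cons 1 x) (fun h => one_ne_zero (congrFun h 0)) (by
        rw [Fin.sum_univ_succ]
        simp [hx]) (X ^ 2 + C d)
      exact ⟨g, by simpa only [C_1, one_mul] using hg⟩
    · refine ⟨Fin.cons X fun i => C (x i), ?_⟩
      rw [Fin.sum_univ_succ]
      simp only [Fin.cons_zero, Fin.cons_succ]
      rw [← hx, map_sum]
      simp only [C_pow]

end Fermat.Agent.Cor.PF
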