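import Fermat.Agent.Corollaries.PF.Pfister
import Fermat.Agent.Corollaries.PF.CasselsMv

/-!
# Sums of `n` squares are closed under multiplication in every field iff `n` is a power of two

Pfister (1965).
-/

set_option autoImplicit false
set_option maxHeartbeats 400000

namespace Fermat.Agent.Cor.PF

/-- If, in every field of characteristic zero, the product of two sums of `n ≥ 1` squares is a sum of
`n` squares, then `n` is a power of two. -/
theorem exists_pow_two_of_mul {n : ℕ} (hn : 0 < n)
    (h : ∀ (F : Type) [Field F] [CharZero F] (c d : F), SumSq n c → SumSq n d → SumSq n (c * d)) :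
    ∃ k : ℕ, n = 2 ^ k := by
  by_contra hcon
  push Not at hcon
  set k := Nat.log 2 n with hk
  have h1 : 2 ^ k ≤ n := Nat.pow_log_le_self 2 hn.ne'
  have h2 : n < 2 ^ (k + 1) := Nat.lt_pow_succ_log_self one_lt_two n
  have h1' : 2 ^ k < n := lt_of_le_of_ne h1 (Ne.symm (hcon k))
  rw [pow_succ, mul_two] at h2
  obtain ⟨m, hm⟩ : ∃ m : ℕ, m + 1 = 2 ^ k + 2 ^ k := ⟨2 ^ k + 2 ^ k - 1, by omega⟩
  have hX : SumSq (2 ^ k + 2 ^ k) (algebraMap _ (FractionRing (MvPolynomial (Fin (m + 1)) ℚ))
      (∑ i, (MvPolynomial.X i : MvPolynomial (Fin (m + 1)) ℚ) ^ 2)) := by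
    rw [← hm]
    exact ⟨fun i => algebraMap (MvPolynomial (Fin (m + 1)) ℚ) _ (MvPolynomial.X i), by
      rw [map_sum]
      simp only [map_pow]⟩
  obtain ⟨a, b, ha, hb, hab⟩ := hX.split
  refine sum_sq_X_not_sum_sq (F := ℚ) (fun n x => real_of_ordered n x) m ?_
  change SumSq m _
  have : CharZero (FractionRing (MvPolynomial (Fin (m + 1)) ℚ)) :=
    charZero_of_injective_algebraMap (R := MvPolynomial (Fin (m + 1)) ℚ)
      (IsFractionRing.injective _ _)
  by_cases ha0 : a = 0
  · rw [← hab, ha0, zero_add]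
    exact hb.mono (by omega)
  · have e : a + b = a * (1 ^ 2 + b / a) := by field_simp
    rw [← hab, e]
    exact (h _ _ _ (ha.mono h1) (((sumSq_one 1).add (sumSq_div k hb ha)).mono
      (by omega))).mono (by omega)

/-- **Pfister (1965)**: the sums of `n ≥ 1` squares are closed under multiplication in every field iff
`n` is a power of two. -/
theorem sumSq_mul_iff {n : ℕ} (hn : 0 < n) :
    (∀ (F : Type) [Field F] (c d : F), SumSq n c → SumSq n d → SumSq n (c * d)) ↔
      ∃ k : ℕ, n = 2 ^ k := by
  constructor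
  · intro h
    exact exists_pow_two_of_mul hn fun F _ _ => h F
  · rintro ⟨k, rfl⟩ F _ c d hc hd
    exact sumSq_mul k hc hd

end Fermat.Agent.Cor.PF
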