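import Fermat.Agent.Corollaries.HM.Square
import Fermat.Agent.Corollaries.QA.Level

/-!
# Local estimates at the places above `2` where `-1` is not a sum of two squares
-/

set_option autoImplicit false
set_option maxHeartbeats 400000

namespace Fermat.Agent.Cor.PF

open Polynomial IsDedekindDomain NumberField
open Fermat.Agent.Cor.HM Fermat.Agent.Cor.QA Fermat.Agent.LT.Ext

variable {F : Type} [Field F] [NumberField F] {W : HeightOneSpectrum (𝓞 F)}

lemma v_nat_le (n : ℕ) : Valued.v (n : W.adicCompletion F) ≤ 1 := by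
  have h2 : (n : W.adicCompletion F) = algebraMap F _ (algebraMap (𝓞 F) F n) := by
    rw [map_natCast, map_natCast]
  rw [h2, v_algebraMap, HeightOneSpectrum.valuation_of_algebraMap]
  exact W.intValuation_le_one _

lemma v_two_lt (hW : ((2 : ℕ) : 𝓞 F) ∈ W.asIdeal) : Valued.v (2 : W.adicCompletion F) < 1 := by
  have h2 : (2 : W.adicCompletion F) = algebraMap F _ (algebraMap (𝓞 F) F 2) := by
    rw [map_ofNat, map_ofNat]
  rw [h2, v_algebraMap, HeightOneSpectrum.valuation_of_algebraMap,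
    HeightOneSpectrum.intValuation_lt_one_iff_mem]
  exact_mod_cast hW

lemma v_two_ne : Valued.v (2 : W.adicCompletion F) ≠ 0 := by
  rw [Ne, map_eq_zero]
  exact two_ne_zero'

lemma v_odd (hW : ((2 : ℕ) : 𝓞 F) ∈ W.asIdeal) (t : ℕ) :
    Valued.v ((1 + 2 * t : ℕ) : W.adicCompletion F) = 1 := by
  push_cast
  refine Valuation.map_one_add_of_lt _ ?_
  rw [map_mul]
  exact lt_of_le_of_lt (mul_le_of_le_one_right' (v_nat_le t)) (v_two_lt hW)

lemma v_int {c : F} (hc : IsIntegral ℤ c) :
    Valued.v (algebraMap F (W.adicCompletion F) c) ≤ 1 := by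
  rw [v_algebraMap]
  exact W.valuation_le_one (⟨c, hc⟩ : 𝓞 F)

/-- `|x ^ 2 + x + 1| = max(1, |x|) ^ 2` if `-1` is not a sum of two squares. -/
lemma v_quad (hW : ((2 : ℕ) : 𝓞 F) ∈ W.asIdeal)
    (hns : ¬ ∃ u v : W.adicCompletion F, u ^ 2 + v ^ 2 = -1) (x : W.adicCompletion F) :
    Valued.v (x ^ 2 + x + 1) = max 1 (Valued.v x) ^ 2 := by
  rcases le_or_gt (Valued.v x) 1 with hx | hx
  · rw [max_eq_left hx, one_pow]
    refine le_antisymm ?_ ?_
    · refine (Valuation.map_add _ _ _).trans (max_le ((Valuation.map_add _ _ _).trans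
        (max_le ?_ hx)) (by rw [map_one]))
      rw [map_pow]
      exact pow_le_one₀ zero_le hx
    · by_contra hlt
      push Not at hlt
      -- Hensel
      let y : W.adicCompletionIntegers F := ⟨x, hx⟩
      let f : (W.adicCompletionIntegers F)[X] := X ^ 2 + X + 1
      have hf : f.Monic := by
        have h1 : f = X ^ 2 + (X + 1) := by ring
        rw [h1]
        exact monic_X_pow_add (by
          rw [show (X + 1 : (W.adicCompletionIntegers F)[X]) = X + C 1 by simp, degree_X_add_C]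
          norm_num)
      have h0 : f.eval y = y ^ 2 + y + 1 := by simp [f]
      have h1 : f.derivative.eval y = 2 * y + 1 := by
        simp [f]
        exact Or.inl one_add_one_eq_two
      obtain ⟨t, ht, -⟩ := HenselianLocalRing.is_henselian f hf y
        (by
          rw [h0]
          exact (mem_maximalIdeal _).mpr hlt)
        (by
          rw [h1]
          have h2 : (2 * y : W.adicCompletionIntegers F) ∈
              IsLocalRing.maximalIdeal (W.adicCompletionIntegers F) := by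
            refine Ideal.mul_mem_right _ _ ((mem_maximalIdeal _).mpr ?_)
            exact v_two_lt hW
          by_contra hu
          have h3 := (IsLocalRing.mem_maximalIdeal _).mpr hu
          have h4 := sub_mem h3 h2
          rw [add_sub_cancel_left] at h4
          exact (Ideal.ne_top_iff_one _).mp (IsLocalRing.maximalIdeal.isMaximal _).ne_top h4)
      have ht' : f.eval t = 0 := ht
      have ht2 : t ^ 2 + t + 1 = 0 := by simpa [f] using ht'
      have ht3 := congrArg (Subtype.val) ht2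
      have ht4 : (t : W.adicCompletion F) ^ 2 + t + 1 = 0 := ht3
      refine hns ⟨t, t ^ 2, ?_⟩
      linear_combination ((t : W.adicCompletion F) ^ 2 - t + 1) * ht4
  · rw [max_eq_right hx.le]
    have h1 : Valued.v (x + 1) = Valued.v x := by
      refine Valuation.map_add_eq_of_lt_left _ ?_
      rwa [map_one]
    have h2 : Valued.v (x + 1) < Valued.v (x ^ 2) := by
      rw [h1, map_pow]
      exact lt_self_pow₀ hx one_lt_two
    rw [add_assoc, Valuation.map_add_eq_of_lt_left _ h2, map_pow]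

/-- The size of the values of a polynomial. -/
lemma v_eval_le {f : (W.adicCompletion F)[X]} {n : ℕ} (hn : f.natDegree ≤ n) {B : WithZero (Multiplicative ℤ)}
    (hB : ∀ i, Valued.v (f.coeff i) ≤ B) (x : W.adicCompletion F) :
    Valued.v (f.eval x) ≤ B * max 1 (Valued.v x) ^ n := by
  rw [eval_eq_sum_range]
  refine Valuation.map_sum_le _ fun i hi => ?_
  rw [map_mul, map_pow]
  have hi' : i ≤ n := by
    rw [Finset.mem_range] at hi
    omega
  refine mul_le_mul' (hB i) ?_
  calc Valued.v x ^ i ≤ max 1 (Valued.v x) ^ i := pow_le_pow_left₀ zero_le (le_max_right _ _) i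
    _ ≤ max 1 (Valued.v x) ^ n := pow_le_pow_right₀ (le_max_left _ _) hi'

lemma one_le_max_pow (x : W.adicCompletion F) (n : ℕ) : 1 ≤ max 1 (Valued.v x) ^ n :=
  one_le_pow₀ (le_max_left _ _)

/-- `f(x) = (β (x ^ 2 + x + 1) ^ k) ^ 2` is impossible for large `β`. -/
lemma false_even (hW : ((2 : ℕ) : 𝓞 F) ∈ W.asIdeal)
    (hns : ¬ ∃ u v : W.adicCompletion F, u ^ 2 + v ^ 2 = -1) {k : ℕ}
    {P : (W.adicCompletion F)[X]} (hP : P.natDegree ≤ 4 * k)
    {B : WithZero (Multiplicative ℤ)} (hB : ∀ i, Valued.v (P.coeff i) ≤ B)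
    {β x : W.adicCompletion F} (hβ : B < Valued.v β ^ 2)
    (h : P.eval x = (β * (x ^ 2 + x + 1) ^ k) ^ 2) : False := by
  have h1 := v_eval_le hP hB x
  have h2 : Valued.v (P.eval x) = Valued.v β ^ 2 * max 1 (Valued.v x) ^ (4 * k) := by
    rw [h, map_pow, map_mul, map_pow, v_quad hW hns, mul_pow, ← pow_mul, ← pow_mul]
    congr 2
    ring
  rw [h2] at h1
  have h3 : 0 < max 1 (Valued.v x) ^ (4 * k) := lt_of_lt_of_le zero_lt_one (one_le_max_pow x _)
  exact absurd h1 (not_le_of_gt (mul_lt_mul_of_pos_right hβ h3))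

/-- `f(x) = γ ^ 2 + (β x (x ^ 2 + x + 1) ^ k) ^ 2` is impossible for large `γ`, `β`. -/
lemma false_odd (hW : ((2 : ℕ) : 𝓞 F) ∈ W.asIdeal)
    (hns : ¬ ∃ u v : W.adicCompletion F, u ^ 2 + v ^ 2 = -1) {k : ℕ}
    {P : (W.adicCompletion F)[X]} (hP : P.natDegree ≤ 4 * k + 2)
    {B : WithZero (Multiplicative ℤ)} (hB : ∀ i, Valued.v (P.coeff i) ≤ B)
    {β γ x : W.adicCompletion F} (hγ : γ ≠ 0)
    (hBγ : B < Valued.v γ ^ 2 * Valued.v (4 : W.adicCompletion F))
    (hγβ : Valued.v γ < Valued.v β)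
    (h : P.eval x = γ ^ 2 + (β * x * (x ^ 2 + x + 1) ^ k) ^ 2) : False := by
  have h1 := v_eval_le hP hB x
  have h4 : Valued.v (4 : W.adicCompletion F) ≤ 1 := by
    have := v_nat_le (W := W) 4
    exact_mod_cast this
  have hBγ' : B < Valued.v γ ^ 2 := lt_of_lt_of_le hBγ (mul_le_of_le_one_right' h4)
  have hγ0 : Valued.v γ ≠ 0 := by rwa [Ne, map_eq_zero]
  rcases le_or_gt (Valued.v x) 1 with hx | hx
  · rw [max_eq_left hx, one_pow, mul_one] at h1
    have h2 : IsSquare (1 - P.eval x / γ ^ 2) := by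
      apply isSquare_of_near
      have e : 1 - P.eval x / γ ^ 2 - 1 = -(P.eval x / γ ^ 2) := by ring
      rw [e, Valuation.map_neg, map_div₀, map_pow,
        div_lt_iff₀ (zero_lt_iff.mpr (pow_ne_zero 2 hγ0)), mul_comm]
      exact lt_of_le_of_lt h1 hBγ
    obtain ⟨z, hz⟩ := h2
    have hz1 : Valued.v (P.eval x / γ ^ 2) < 1 := by
      rw [map_div₀, map_pow, div_lt_one₀ (zero_lt_iff.mpr (pow_ne_zero 2 hγ0))]
      exact lt_of_le_of_lt h1 hBγ'
    have hz0 : z ≠ 0 := by
      rintro rfl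
      rw [mul_zero, sub_eq_zero] at hz
      rw [← hz, map_one] at hz1
      exact lt_irrefl _ hz1
    have h5 : γ ^ 2 * (z * z) = -(β * x * (x ^ 2 + x + 1) ^ k) ^ 2 := by
      rw [← hz, mul_sub, mul_one, mul_div_cancel₀ _ (pow_ne_zero 2 hγ), h]
      ring
    refine hns ⟨β * x * (x ^ 2 + x + 1) ^ k / (γ * z), 0, ?_⟩
    rw [div_pow, zero_pow two_ne_zero, add_zero, div_eq_iff (pow_ne_zero 2 (mul_ne_zero hγ hz0))]
    linear_combination h5
  · have hM : max 1 (Valued.v x) = Valued.v x := max_eq_right hx.le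
    rw [hM] at h1
    have h3 : 0 < Valued.v x ^ (4 * k + 2) := pow_pos (lt_trans zero_lt_one hx) _
    have h2 : Valued.v ((β * x * (x ^ 2 + x + 1) ^ k) ^ 2) =
        Valued.v β ^ 2 * Valued.v x ^ (4 * k + 2) := by
      rw [map_pow, map_mul, map_mul, map_pow, v_quad hW hns, hM, mul_pow, mul_pow, ← pow_mul,
        ← pow_mul, mul_assoc, ← pow_add]
      congr 2
      ring
    have h5 : (β * x * (x ^ 2 + x + 1) ^ k) ^ 2 = P.eval x - γ ^ 2 := by
      rw [h]
      ring
    have h6 : Valued.v ((β * x * (x ^ 2 + x + 1) ^ k) ^ 2) ≤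
        Valued.v γ ^ 2 * Valued.v x ^ (4 * k + 2) := by
      rw [h5]
      refine (Valuation.map_sub _ _ _).trans (max_le (h1.trans ?_) ?_)
      · exact mul_le_mul' hBγ'.le le_rfl
      · rw [map_pow]
        exact le_mul_of_one_le_right' (one_le_pow₀ hx.le)
    rw [h2] at h6
    refine absurd h6 (not_le_of_gt (mul_lt_mul_of_pos_right ?_ h3))
    exact pow_lt_pow_left₀ hγβ zero_le two_ne_zero

end Fermat.Agent.Cor.PF
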