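import Mathlib

/-!
# A lower bound for a strictly positive real polynomial
-/

set_option autoImplicit false
set_option maxHeartbeats 400000

namespace Fermat.Agent.Cor.PF

open Polynomial Filter Topology

/-- The homogeneous form of a polynomial. -/
noncomputable def homog (f : ℝ[X]) (t s : ℝ) : ℝ :=
  ∑ i ∈ Finset.range (f.natDegree + 1), f.coeff i * t ^ i * s ^ (f.natDegree - i)

lemma homog_of_ne (f : ℝ[X]) (t : ℝ) {s : ℝ} (hs : s ≠ 0) :
    homog f t s = s ^ f.natDegree * f.eval (t / s) := by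
  rw [homog, eval_eq_sum_range, Finset.mul_sum]
  refine Finset.sum_congr rfl fun i hi => ?_
  have hi' : i ≤ f.natDegree := by
    rw [Finset.mem_range] at hi
    omega
  have e : s ^ f.natDegree = s ^ i * s ^ (f.natDegree - i) := by
    rw [← pow_add]
    congr 1
    omega
  rw [div_pow, e]
  field_simp

lemma homog_zero (f : ℝ[X]) (t : ℝ) : homog f t 0 = f.leadingCoeff * t ^ f.natDegree := by
  rw [homog, Finset.sum_range_succ, Finset.sum_eq_zero, zero_add, Nat.sub_self, pow_zero, mul_one]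
  · rfl
  · intro i hi
    rw [Finset.mem_range] at hi
    rw [zero_pow (by omega), mul_zero]

lemma continuous_homog (f : ℝ[X]) : Continuous fun x : ℝ × ℝ => homog f x.1 x.2 := by
  unfold homog
  fun_prop

lemma exists_pos_bound {f : ℝ[X]} (hpos : ∀ t, 0 < f.eval t) :
    Even f.natDegree ∧ ∀ m, f.natDegree = 2 * m → ∃ c : ℝ, 0 < c ∧
      ∀ t, c * (1 + t ^ 2) ^ m ≤ f.eval t := by
  have hf0 : f ≠ 0 := by
    rintro rfl
    have := hpos 0
    simp at this
  have hc : Continuous fun s => homog f 1 s :=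
    (continuous_homog f).comp (by fun_prop : Continuous fun s : ℝ => ((1 : ℝ), s))
  have h0 : homog f 1 0 = f.leadingCoeff := by rw [homog_zero, one_pow, mul_one]
  have hlc : 0 ≤ f.leadingCoeff := by
    rw [← h0]
    have ht : Tendsto (fun s => homog f 1 s) (𝓝[>] (0 : ℝ)) (𝓝 (homog f 1 0)) :=
      hc.continuousWithinAt
    refine ge_of_tendsto ht ?_
    refine eventually_nhdsWithin_of_forall fun s hs => ?_
    have hs' : 0 < s := hs
    rw [homog_of_ne f 1 hs'.ne']
    exact (mul_pos (pow_pos hs' _) (hpos _)).le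
  have hlc' : 0 < f.leadingCoeff :=
    lt_of_le_of_ne hlc (leadingCoeff_ne_zero.mpr hf0).symm
  have heven : Even f.natDegree := by
    by_contra hodd
    rw [Nat.not_even_iff_odd] at hodd
    have hle : f.leadingCoeff ≤ 0 := by
      rw [← h0]
      have ht : Tendsto (fun s => homog f 1 s) (𝓝[<] (0 : ℝ)) (𝓝 (homog f 1 0)) :=
        hc.continuousWithinAt
      refine le_of_tendsto ht ?_
      refine eventually_nhdsWithin_of_forall fun s hs => ?_
      have hs' : s < 0 := hs
      rw [homog_of_ne f 1 hs'.ne]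
      exact (mul_neg_of_neg_of_pos (hodd.pow_neg hs') (hpos _)).le
    linarith
  refine ⟨heven, fun m hm => ?_⟩
  have hcc : Continuous fun θ : ℝ => homog f (Real.cos θ) (Real.sin θ) :=
    (continuous_homog f).comp (Real.continuous_cos.prodMk Real.continuous_sin)
  obtain ⟨θ₀, hθ₀, hmin⟩ := (isCompact_Icc (a := (0 : ℝ)) (b := Real.pi)).exists_isMinOn
    ⟨0, by simp [Real.pi_pos.le]⟩ hcc.continuousOn
  refine ⟨homog f (Real.cos θ₀) (Real.sin θ₀), ?_, fun t => ?_⟩
  · by_cases hs : Real.sin θ₀ = 0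
    · rw [hs, homog_zero, hm, pow_mul, Real.cos_sq', hs]
      simpa using hlc'
    · rw [homog_of_ne f _ hs, hm, pow_mul]
      exact mul_pos (pow_pos (by positivity) _) (hpos _)
  · set r := Real.sqrt (1 + t ^ 2) with hr
    have hr0 : 0 < 1 + t ^ 2 := by positivity
    have hr1 : 0 < r := Real.sqrt_pos.mpr hr0
    have hr2 : r ^ 2 = 1 + t ^ 2 := Real.sq_sqrt hr0.le
    have hu1 : -1 ≤ t / r := by
      rw [le_div_iff₀ hr1]
      nlinarith [sq_nonneg (t + r), abs_le_of_sq_le_sq' (show t ^ 2 ≤ r ^ 2 by linarith) hr1.le]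
    have hu2 : t / r ≤ 1 := by
      rw [div_le_one₀ hr1]
      exact (abs_le_of_sq_le_sq' (show t ^ 2 ≤ r ^ 2 by linarith) hr1.le).2
    have hcos := Real.cos_arccos hu1 hu2
    have hsin : Real.sin (Real.arccos (t / r)) = 1 / r := by
      rw [Real.sin_arccos, Real.sqrt_eq_iff_mul_self_eq_of_pos (by positivity)]
      field_simp
      linarith
    have h1 := hmin (show Real.arccos (t / r) ∈ Set.Icc 0 Real.pi from
      ⟨Real.arccos_nonneg _, Real.arccos_le_pi _⟩)
    have h1' : homog f (Real.cos θ₀) (Real.sin θ₀) ≤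
        homog f (Real.cos (Real.arccos (t / r))) (Real.sin (Real.arccos (t / r))) := h1
    rw [hcos, hsin, homog_of_ne f _ (by positivity : (1 / r : ℝ) ≠ 0), hm, pow_mul] at h1'
    have e1 : t / r / (1 / r) = t := by field_simp
    have e2 : ((1 / r) ^ 2) ^ m = ((1 + t ^ 2) ^ m)⁻¹ := by
      rw [one_div, inv_pow, hr2, inv_pow]
    rw [e1, e2, ← div_eq_inv_mul, le_div_iff₀ (pow_pos hr0 m)] at h1'
    exact h1'

end Fermat.Agent.Cor.PF
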