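import Fermat.Agent.Corollaries.PF.FourSq
import Fermat.Agent.Corollaries.PF.FiveLoc
import Fermat.Agent.Corollaries.PF.FiveReal

/-!
# Sums of five and six squares of polynomials over a number field

`K` is a number field and `f ∈ K[X]` satisfies `f^σ(t) ≥ 0` for all `σ : K →+* ℝ`, `t : ℝ`.

* `five_squares`: if `f^σ(t) > 0` and the degree of `f` is divisible by `4`, then `f` is a sum of five
  squares in `K[X]`;
* `six_squares`: `f` is a sum of six squares in `K[X]`.

(Landau: eight; Pourchet: five in all cases.)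
-/

set_option autoImplicit false
set_option maxHeartbeats 400000

namespace Fermat.Agent.Cor.PF

open Polynomial IsDedekindDomain NumberField
open Fermat.Agent.Cor.HM Fermat.Agent.Cor.QA Fermat.Agent.LT.Ext

variable {K : Type} [Field K] [NumberField K]

/-- A common bound for all real embeddings. -/
lemma exists_bound {f : K[X]} (hreal : Nonempty (K →+* ℝ))
    (hpos : ∀ (σ : K →+* ℝ) (t : ℝ), 0 < (f.map σ).eval t) :
    ∃ m N : ℕ, f.natDegree = 2 * m ∧
      ∀ (σ : K →+* ℝ) (t : ℝ), (1 + t ^ 2) ^ m ≤ N * (f.map σ).eval t := by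
  obtain ⟨σ₀⟩ := hreal
  have hdeg : ∀ σ : K →+* ℝ, (f.map σ).natDegree = f.natDegree := fun σ => natDegree_map σ
  obtain ⟨m, hm⟩ := (exists_pos_bound (hpos σ₀)).1
  rw [hdeg, ← two_mul] at hm
  have h1 : ∀ σ : K →+* ℝ, ∃ c : ℝ, 0 < c ∧ ∀ t, c * (1 + t ^ 2) ^ m ≤ (f.map σ).eval t :=
    fun σ => (exists_pos_bound (hpos σ)).2 m (by rw [hdeg, hm])
  choose c hc0 hc using h1
  obtain ⟨M, hM⟩ := (Set.finite_range fun σ : K →+* ℝ => (c σ)⁻¹).bddAbove
  obtain ⟨N, hN⟩ := exists_nat_ge M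
  refine ⟨m, N, hm, fun σ t => ?_⟩
  have h2 : (c σ)⁻¹ ≤ N := (hM ⟨σ, rfl⟩).trans hN
  have h3 : 0 < (f.map σ).eval t := hpos σ t
  calc (1 + t ^ 2) ^ m = (c σ)⁻¹ * (c σ * (1 + t ^ 2) ^ m) := by
        rw [← mul_assoc, inv_mul_cancel₀ (hc0 σ).ne', one_mul]
    _ ≤ (c σ)⁻¹ * (f.map σ).eval t :=
        mul_le_mul_of_nonneg_left (hc σ t) (inv_nonneg.mpr (hc0 σ).le)
    _ ≤ N * (f.map σ).eval t := mul_le_mul_of_nonneg_right h2 h3.le

/-- A common denominator. -/
lemma exists_den (f : K[X]) : ∃ D : ℕ, D ≠ 0 ∧ ∀ i, IsIntegral ℤ ((D : K) * f.coeff i) := by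
  classical
  have h1 : ∀ i, ∃ y : ℤ, y ≠ 0 ∧ IsIntegral ℤ ((y : K) * f.coeff i) := by
    intro i
    have h2 : IsAlgebraic ℤ (f.coeff i) :=
      (IsFractionRing.isAlgebraic_iff ℤ ℚ K).mpr (Algebra.IsAlgebraic.isAlgebraic (f.coeff i))
    obtain ⟨y, hy, h⟩ := h2.exists_integral_multiple
    exact ⟨y, hy, by rwa [zsmul_eq_mul] at h⟩
  choose y hy0 hy using h1
  set Y : ℤ := ∏ i ∈ Finset.range (f.natDegree + 1), y i with hY
  have hY0 : Y ≠ 0 := Finset.prod_ne_zero_iff.mpr fun i _ => hy0 i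
  refine ⟨Y.natAbs ^ 2, pow_ne_zero 2 (Int.natAbs_ne_zero.mpr hY0), fun i => ?_⟩
  have e : ((Y.natAbs ^ 2 : ℕ) : K) = ((Y ^ 2 : ℤ) : K) := by
    rw [← Int.natAbs_sq Y, Int.cast_pow, Int.cast_natCast, Nat.cast_pow]
  rw [e]
  by_cases hi : i ≤ f.natDegree
  · have hd : y i ∣ Y ^ 2 :=
      (Finset.dvd_prod_of_mem _ (Finset.mem_range.mpr (by omega))).trans (dvd_pow_self _ two_ne_zero)
    obtain ⟨k, hk⟩ := hd
    rw [hk, Int.cast_mul, mul_comm (y i : K), mul_assoc]
    exact (isIntegral_intCast k).mul (hy i)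
  · rw [coeff_eq_zero_of_natDegree_lt (by omega), mul_zero]
    exact isIntegral_zero

/-- The local sizes. -/
lemma local_sizes {F : Type} [Field F] [NumberField F] {W : HeightOneSpectrum (𝓞 F)}
    (hW : ((2 : ℕ) : 𝓞 F) ∈ W.asIdeal) {D : ℕ} (hD : D ≠ 0) (t : ℕ) :
    let β : W.adicCompletion F := (8 * D * (1 + 2 * t : ℕ))⁻¹
    (Valued.v (D : W.adicCompletion F))⁻¹ < Valued.v (2 * β) ^ 2 * Valued.v (4 : W.adicCompletion F) ∧
      Valued.v (2 * β) < Valued.v β ∧ (Valued.v (D : W.adicCompletion F))⁻¹ < Valued.v β ^ 2 ∧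
      2 * β ≠ 0 := by
  intro β
  have hD0 : (D : W.adicCompletion F) ≠ 0 := by
    have h2 : (D : W.adicCompletion F) = algebraMap F _ D := by rw [map_natCast]
    rw [h2, Ne, map_eq_zero]
    exact_mod_cast hD
  set δ := Valued.v (D : W.adicCompletion F) with hδ
  set τ := Valued.v (2 : W.adicCompletion F) with hτ
  have hδ0 : δ ≠ 0 := by rwa [hδ, Ne, map_eq_zero]
  have hδ1 : δ ≤ 1 := v_nat_le D
  have hτ0 : τ ≠ 0 := v_two_ne
  have hτ1 : τ < 1 := v_two_lt hW
  have h8 : (8 : W.adicCompletion F) = 2 ^ 3 := by norm_num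
  have h4 : Valued.v (4 : W.adicCompletion F) = τ ^ 2 := by
    rw [show (4 : W.adicCompletion F) = 2 ^ 2 by norm_num, map_pow]
  have hβ : Valued.v β = (τ ^ 3 * δ)⁻¹ := by
    change Valued.v ((8 * D * (1 + 2 * t : ℕ))⁻¹ : W.adicCompletion F) = _
    rw [map_inv₀, map_mul, v_odd hW, mul_one, map_mul, h8, map_pow]
  have hβ0 : β ≠ 0 := by
    intro h
    rw [h, map_zero] at hβ
    exact inv_ne_zero (mul_ne_zero (pow_ne_zero 3 hτ0) hδ0) hβ.symm
  have h2β : Valued.v (2 * β) = (τ ^ 2 * δ)⁻¹ := by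
    rw [map_mul, hβ, ← hτ]
    field_simp
  have hpos : 0 < δ := zero_lt_iff.mpr hδ0
  have hτpos : 0 < τ := zero_lt_iff.mpr hτ0
  have key : δ⁻¹ < Valued.v (2 * β) ^ 2 * Valued.v (4 : W.adicCompletion F) := by
    have e : Valued.v (2 * β) ^ 2 * Valued.v (4 : W.adicCompletion F) = (τ ^ 2 * δ ^ 2)⁻¹ := by
      rw [h2β, h4]
      field_simp
    rw [e, inv_lt_inv₀ hpos (mul_pos (pow_pos hτpos 2) (pow_pos hpos 2))]
    calc τ ^ 2 * δ ^ 2 ≤ τ ^ 2 * δ := mul_le_mul' le_rfl (by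
          rw [sq]
          exact mul_le_of_le_one_right' hδ1)
      _ < 1 * δ := mul_lt_mul_of_pos_right (pow_lt_one₀ zero_le hτ1 two_ne_zero) hpos
      _ = δ := one_mul δ
  have hlt : Valued.v (2 * β) < Valued.v β := by
    rw [map_mul, ← hτ]
    calc τ * Valued.v β < 1 * Valued.v β :=
          mul_lt_mul_of_pos_right hτ1 (zero_lt_iff.mpr (by rwa [Ne, map_eq_zero]))
      _ = Valued.v β := one_mul _
  refine ⟨key, hlt, ?_, mul_ne_zero two_ne_zero' hβ0⟩
  have h41 : Valued.v (4 : W.adicCompletion F) ≤ 1 := by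
    have := v_nat_le (W := W) 4
    exact_mod_cast this
  exact lt_of_lt_of_le key ((mul_le_of_le_one_right' h41).trans
    (pow_le_pow_left₀ zero_le hlt.le 2))

/-- The coefficients in a completion. -/
lemma v_coeff_le {F : Type} [Field F] [NumberField F] {W : HeightOneSpectrum (𝓞 F)} (φ : K →+* F)
    {f : K[X]} {D : ℕ} (hD : D ≠ 0) (hf : ∀ i, IsIntegral ℤ ((D : K) * f.coeff i)) (i : ℕ) :
    Valued.v (((f.map φ).map (algebraMap F (W.adicCompletion F))).coeff i) ≤
      (Valued.v (D : W.adicCompletion F))⁻¹ := by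
  have hD0 : (D : W.adicCompletion F) ≠ 0 := by
    have h2 : (D : W.adicCompletion F) = algebraMap F _ D := by rw [map_natCast]
    rw [h2, Ne, map_eq_zero]
    exact_mod_cast hD
  have hδ0 : Valued.v (D : W.adicCompletion F) ≠ 0 := by rwa [Ne, map_eq_zero]
  have h1 := v_int (W := W) (map_isIntegral_int φ (hf i))
  rw [map_mul, map_natCast, map_mul, map_natCast, map_mul] at h1
  rw [coeff_map, coeff_map, ← one_mul (Valued.v (D : W.adicCompletion F))⁻¹,
    le_mul_inv_iff₀ (zero_lt_iff.mpr hδ0), mul_comm]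
  exact h1

lemma theta_small {D : ℕ} (hD : D ≠ 0) (t : ℕ) :
    ((8 * (D : ℝ) * ((1 + 2 * t : ℕ) : ℝ))⁻¹) ^ 2 * t < 1 := by
  have hD1 : (1 : ℝ) ≤ D := by exact_mod_cast Nat.one_le_iff_ne_zero.mpr hD
  have ht : (0 : ℝ) ≤ t := Nat.cast_nonneg t
  push_cast
  rw [inv_pow, inv_mul_lt_iff₀ (by positivity), mul_one]
  have h1 : (1 + 2 * (t : ℝ)) ≤ 8 * D * (1 + 2 * t) := by nlinarith
  nlinarith

/-- **Five squares**: a polynomial `f ∈ K[X]` of degree `4 k` with `f^σ(t) > 0` for all `σ`, `t` is a sum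
of five squares in `K[X]`. -/
theorem five_of_pos (hreal : Nonempty (K →+* ℝ)) {f : K[X]}
    (hpos : ∀ (σ : K →+* ℝ) (t : ℝ), 0 < (f.map σ).eval t) {k : ℕ} (hk : f.natDegree = 4 * k) :
    SumSq 5 (algebraMap K[X] (RatFunc K) f) := by
  obtain ⟨m, N, hm, hN⟩ := exists_bound hreal hpos
  obtain ⟨D, hD, hint⟩ := exists_den f
  obtain rfl : m = 2 * k := by omega
  set t : ℕ := 2 ^ (2 * k) * N with ht
  set θ : K := (8 * (D : K) * ((1 + 2 * t : ℕ) : K))⁻¹ with hθ
  set g : K[X] := C θ * (X ^ 2 + X + 1) ^ k with hg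
  have h4 : SumSq 4 (algebraMap K[X] (RatFunc K) (f - g ^ 2)) := by
    refine sumSq_four_of_local hreal (fun σ x => ?_) ?_
    · have hσθ : σ θ = (8 * (D : ℝ) * ((1 + 2 * t : ℕ) : ℝ))⁻¹ := by
        rw [hθ, map_inv₀, map_mul, map_mul, map_natCast, map_natCast, map_ofNat]
      have hev : ((f - g ^ 2).map σ).eval x =
          (f.map σ).eval x - (σ θ * (x ^ 2 + x + 1) ^ k) ^ 2 := by
        simp [hg]
      rw [hev, sub_pos]
      have h1 := hN σ x
      have h2 := theta_small hD t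
      rw [← hσθ] at h2
      have h3 := hpos σ x
      have hq : x ^ 2 + x + 1 ≤ 2 * (1 + x ^ 2) := by nlinarith [sq_nonneg (x - 1)]
      have hq0 : 0 ≤ x ^ 2 + x + 1 := by nlinarith [sq_nonneg (x + 1), sq_nonneg x]
      have h5 : (x ^ 2 + x + 1) ^ (2 * k) ≤ t * (f.map σ).eval x := by
        calc (x ^ 2 + x + 1) ^ (2 * k) ≤ (2 * (1 + x ^ 2)) ^ (2 * k) :=
              pow_le_pow_left₀ hq0 hq _
          _ = 2 ^ (2 * k) * (1 + x ^ 2) ^ (2 * k) := mul_pow _ _ _
          _ ≤ 2 ^ (2 * k) * (N * (f.map σ).eval x) :=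
              mul_le_mul_of_nonneg_left h1 (by positivity)
          _ = t * (f.map σ).eval x := by
              rw [ht]
              push_cast
              ring
      calc (σ θ * (x ^ 2 + x + 1) ^ k) ^ 2 = σ θ ^ 2 * (x ^ 2 + x + 1) ^ (2 * k) := by
            rw [mul_pow, ← pow_mul, mul_comm k 2]
        _ ≤ σ θ ^ 2 * (t * (f.map σ).eval x) := mul_le_mul_of_nonneg_left h5 (sq_nonneg _)
        _ = (σ θ ^ 2 * t) * (f.map σ).eval x := by ring
        _ < 1 * (f.map σ).eval x := mul_lt_mul_of_pos_right h2 h3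
        _ = (f.map σ).eval x := one_mul _
    · intro F _ _ φ x W hW hx
      by_contra hns
      obtain ⟨-, -, h3, -⟩ := local_sizes hW hD t
      refine false_even hW hns (k := k) (P := (f.map φ).map (algebraMap F (W.adicCompletion F)))
        ((natDegree_map_le.trans natDegree_map_le).trans hk.le) (v_coeff_le φ hD hint) h3
        (x := algebraMap F _ x) ?_
      rw [eval_map_apply]
      have hev : ((f - g ^ 2).map φ).eval x =
          (f.map φ).eval x - (φ θ * (x ^ 2 + x + 1) ^ k) ^ 2 := by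
        simp [hg]
      rw [hev, sub_eq_zero] at hx
      have h22 : φ 2 = 2 := map_ofNat φ 2
      have h28 : φ 8 = 8 := map_ofNat φ 8
      have h32 : algebraMap F (W.adicCompletion F) 2 = 2 := map_ofNat _ 2
      have h38 : algebraMap F (W.adicCompletion F) 8 = 8 := map_ofNat _ 8
      rw [hx, hθ]
      simp [h22, h28, h32, h38]
  have h5 := (sumSq_one (algebraMap K[X] (RatFunc K) g)).add h4
  rw [← map_pow, ← map_add, add_sub_cancel] at h5
  exact h5

/-- A polynomial `f ∈ K[X]` of degree `4 k + 2` with `f^σ(t) > 0` for all `σ`, `t` is a sum of six squares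
in `K[X]`. -/
theorem six_of_pos (hreal : Nonempty (K →+* ℝ)) {f : K[X]}
    (hpos : ∀ (σ : K →+* ℝ) (t : ℝ), 0 < (f.map σ).eval t) {k : ℕ} (hk : f.natDegree = 4 * k + 2) :
    SumSq 6 (algebraMap K[X] (RatFunc K) f) := by
  obtain ⟨m, N, hm, hN⟩ := exists_bound hreal hpos
  obtain ⟨D, hD, hint⟩ := exists_den f
  obtain rfl : m = 2 * k + 1 := by omega
  set t : ℕ := (4 + 2 ^ (2 * k)) * N with ht
  set θ : K := (8 * (D : K) * ((1 + 2 * t : ℕ) : K))⁻¹ with hθ
  set g : K[X] := C θ * X * (X ^ 2 + X + 1) ^ k with hg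
  have h4 : SumSq 4 (algebraMap K[X] (RatFunc K) (f - C (2 * θ) ^ 2 - g ^ 2)) := by
    refine sumSq_four_of_local hreal (fun σ x => ?_) ?_
    · have hσθ : σ θ = (8 * (D : ℝ) * ((1 + 2 * t : ℕ) : ℝ))⁻¹ := by
        rw [hθ, map_inv₀, map_mul, map_mul, map_natCast, map_natCast, map_ofNat]
      have hev : ((f - C (2 * θ) ^ 2 - g ^ 2).map σ).eval x =
          (f.map σ).eval x - ((2 * σ θ) ^ 2 + (σ θ * x * (x ^ 2 + x + 1) ^ k) ^ 2) := by
        have h22 : σ 2 = 2 := map_ofNat σ 2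
        simp [hg, h22]
        ring
      rw [hev, sub_pos]
      have h1 := hN σ x
      have h2 := theta_small hD t
      rw [← hσθ] at h2
      have h3 := hpos σ x
      have hq : x ^ 2 + x + 1 ≤ 2 * (1 + x ^ 2) := by nlinarith [sq_nonneg (x - 1)]
      have hq0 : 0 ≤ x ^ 2 + x + 1 := by nlinarith [sq_nonneg (x + 1), sq_nonneg x]
      have h5 : 4 + x ^ 2 * (x ^ 2 + x + 1) ^ (2 * k) ≤ t * (f.map σ).eval x := by
        have h6 : x ^ 2 * (x ^ 2 + x + 1) ^ (2 * k) ≤ 2 ^ (2 * k) * (1 + x ^ 2) ^ (2 * k + 1) := by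
          calc x ^ 2 * (x ^ 2 + x + 1) ^ (2 * k) ≤ (1 + x ^ 2) * (2 * (1 + x ^ 2)) ^ (2 * k) :=
                mul_le_mul (by linarith) (pow_le_pow_left₀ hq0 hq _) (by positivity) (by positivity)
            _ = 2 ^ (2 * k) * (1 + x ^ 2) ^ (2 * k + 1) := by
                rw [mul_pow]
                ring
        have h7 : (4 : ℝ) ≤ 4 * (1 + x ^ 2) ^ (2 * k + 1) := by
          have : (1 : ℝ) ≤ (1 + x ^ 2) ^ (2 * k + 1) := one_le_pow₀ (by nlinarith [sq_nonneg x])
          linarith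
        calc 4 + x ^ 2 * (x ^ 2 + x + 1) ^ (2 * k)
            ≤ (4 + 2 ^ (2 * k)) * (1 + x ^ 2) ^ (2 * k + 1) := by linarith
          _ ≤ (4 + 2 ^ (2 * k)) * (N * (f.map σ).eval x) :=
              mul_le_mul_of_nonneg_left h1 (by positivity)
          _ = t * (f.map σ).eval x := by
              rw [ht]
              push_cast
              ring
      calc (2 * σ θ) ^ 2 + (σ θ * x * (x ^ 2 + x + 1) ^ k) ^ 2
          = σ θ ^ 2 * (4 + x ^ 2 * (x ^ 2 + x + 1) ^ (2 * k)) := by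
            ring
        _ ≤ σ θ ^ 2 * (t * (f.map σ).eval x) := mul_le_mul_of_nonneg_left h5 (sq_nonneg _)
        _ = (σ θ ^ 2 * t) * (f.map σ).eval x := by ring
        _ < 1 * (f.map σ).eval x := mul_lt_mul_of_pos_right h2 h3
        _ = (f.map σ).eval x := one_mul _
    · intro F _ _ φ x W hW hx
      by_contra hns
      obtain ⟨h3, h4, -, h5⟩ := local_sizes hW hD t
      refine false_odd hW hns (k := k) (P := (f.map φ).map (algebraMap F (W.adicCompletion F)))
        ((natDegree_map_le.trans natDegree_map_le).trans hk.le) (v_coeff_le φ hD hint) h5 h3 h4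
        (x := algebraMap F _ x) ?_
      rw [eval_map_apply]
      have hev : ((f - C (2 * θ) ^ 2 - g ^ 2).map φ).eval x =
          (f.map φ).eval x - ((2 * φ θ) ^ 2 + (φ θ * x * (x ^ 2 + x + 1) ^ k) ^ 2) := by
        have h22 : φ 2 = 2 := map_ofNat φ 2
        simp [hg, h22]
        ring
      rw [hev, sub_eq_zero] at hx
      have h22 : φ 2 = 2 := map_ofNat φ 2
      have h28 : φ 8 = 8 := map_ofNat φ 8
      have h32 : algebraMap F (W.adicCompletion F) 2 = 2 := map_ofNat _ 2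
      have h38 : algebraMap F (W.adicCompletion F) 8 = 8 := map_ofNat _ 8
      rw [hx, hθ]
      simp [h22, h28, h32, h38]
  have h5 := ((sumSq_one (algebraMap K[X] (RatFunc K) g)).add
    (sumSq_one (algebraMap K[X] (RatFunc K) (C (2 * θ))))).add h4
  rw [← map_pow, ← map_pow, ← map_add, ← map_add] at h5
  have e : g ^ 2 + C (2 * θ) ^ 2 + (f - C (2 * θ) ^ 2 - g ^ 2) = f := by ring
  rw [e] at h5
  exact h5

/-- A nonnegative polynomial without multiple factors is strictly positive. -/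
lemma pos_of_squarefree {f : K[X]} (hf0 : f ≠ 0) (hsq : Squarefree f) (hpsd : Psd f)
    (σ : K →+* ℝ) (t : ℝ) : 0 < (f.map σ).eval t := by
  refine lt_of_le_of_ne (hpsd σ t) (Ne.symm fun h0 => ?_)
  have hsep : f.Separable := (PerfectField.separable_iff_squarefree).mpr hsq
  obtain ⟨a, b, hab⟩ := hsep
  have hmin : IsLocalMin (fun x => (f.map σ).eval x) t := by
    refine Filter.Eventually.of_forall fun x => ?_
    change (f.map σ).eval t ≤ (f.map σ).eval x
    rw [h0]
    exact hpsd σ x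
  have hder := hmin.deriv_eq_zero
  rw [Polynomial.deriv, derivative_map] at hder
  have h1 := congrArg (fun q => (q.map σ).eval t) hab
  simp only [Polynomial.map_add, Polynomial.map_mul, eval_add, eval_mul, h0, hder, mul_zero,
    add_zero, Polynomial.map_one, eval_one] at h1
  exact zero_ne_one h1

theorem sumSq_six (hreal : Nonempty (K →+* ℝ)) (n : ℕ) : ∀ f : K[X], f.natDegree < n →
    Psd f → SumSq 6 (algebraMap K[X] (RatFunc K) f) := by
  induction n with
  | zero => exact fun f h => absurd h (Nat.not_lt_zero _)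
  | succ n ih =>
    intro f hn hpsd
    by_cases hf0 : f = 0
    · rw [hf0, map_zero]
      exact sumSq_zero 6
    by_cases hsq : Squarefree f
    · have hpos := pos_of_squarefree hf0 hsq hpsd
      obtain ⟨m, N, hm, -⟩ := exists_bound hreal hpos
      rcases Nat.even_or_odd' m with ⟨k, hk | hk⟩
      · exact (five_of_pos hreal hpos (k := k) (by omega)).mono (by norm_num)
      · exact six_of_pos hreal hpos (k := k) (by omega)
    · obtain ⟨p, hp, g, rfl⟩ : ∃ p : K[X], Irreducible p ∧ p * p ∣ f := by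
        rw [squarefree_iff_irreducible_sq_not_dvd_of_ne_zero hf0] at hsq
        push Not at hsq
        exact hsq
      have hg0 : g ≠ 0 := right_ne_zero_of_mul hf0
      rw [natDegree_mul (mul_ne_zero hp.ne_zero hp.ne_zero) hg0,
        natDegree_mul hp.ne_zero hp.ne_zero] at hn
      rw [← sq] at hpsd ⊢
      have hpd := hp.natDegree_pos
      have h1 := (ih g (by omega) (psd_of_sq_mul hp.ne_zero hpsd)).mul_sq
        (algebraMap K[X] (RatFunc K) p)
      rw [map_mul, map_pow, mul_comm]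
      exact h1

lemma sumSq_of_no_real (hE : IsEmpty (K →+* ℝ)) (f : K[X]) :
    SumSq 5 (algebraMap K[X] (RatFunc K) f) := by
  obtain ⟨u, hu⟩ := neg_one_sum_four hE
  rw [Fin.sum_univ_four] at hu
  have h2 : (C (1 / 2) : K[X]) * 2 = 1 := by
    have : (2 : K[X]) = C 2 := by rw [map_ofNat]
    rw [this, ← C_mul]
    norm_num
  have h3 : C (u 0) ^ 2 + C (u 1) ^ 2 + C (u 2) ^ 2 + C (u 3) ^ 2 = (-1 : K[X]) := by
    rw [← C_pow, ← C_pow, ← C_pow, ← C_pow, ← C_add, ← C_add, ← C_add, hu, C_neg, C_1]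
  have h4 := sumSq_algebraMap (L := RatFunc K) ![C (1 / 2) * (f + 1),
    C (u 0) * (C (1 / 2) * (f - 1)), C (u 1) * (C (1 / 2) * (f - 1)),
    C (u 2) * (C (1 / 2) * (f - 1)), C (u 3) * (C (1 / 2) * (f - 1))]
  have e : (∑ i, (![C (1 / 2) * (f + 1),
    C (u 0) * (C (1 / 2) * (f - 1)), C (u 1) * (C (1 / 2) * (f - 1)),
    C (u 2) * (C (1 / 2) * (f - 1)), C (u 3) * (C (1 / 2) * (f - 1))] :
      Fin 5 → K[X]) i ^ 2) = f := by
    rw [Fin.sum_univ_five]
    change (C (1 / 2) * (f + 1)) ^ 2 + (C (u 0) * (C (1 / 2) * (f - 1))) ^ 2 +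
      (C (u 1) * (C (1 / 2) * (f - 1))) ^ 2 + (C (u 2) * (C (1 / 2) * (f - 1))) ^ 2 +
      (C (u 3) * (C (1 / 2) * (f - 1))) ^ 2 = f
    linear_combination (C (1 / 2) * (f - 1)) ^ 2 * h3 + f * (C (1 / 2) * 2 + 1) * h2
  rw [e] at h4
  exact h4

/-- **Six squares**: for every number field `K`, a polynomial `f ∈ K[X]` is a sum of six squares in
`K[X]` iff `f^σ(t) ≥ 0` for all real embeddings `σ` of `K` and all real `t`. -/
theorem six_squares (f : K[X]) : (∃ g : Fin 6 → K[X], ∑ i, g i ^ 2 = f) ↔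
    ∀ (σ : K →+* ℝ) (t : ℝ), 0 ≤ (f.map σ).eval t := by
  constructor
  · rintro ⟨g, rfl⟩ σ t
    rw [Polynomial.map_sum, eval_finsetSum]
    refine Finset.sum_nonneg fun i _ => ?_
    rw [Polynomial.map_pow, eval_pow]
    exact sq_nonneg _
  · intro h
    rw [← sum_sq_poly_iff (RatFunc K) two_ne_zero]
    rcases isEmpty_or_nonempty (K →+* ℝ) with hE | hE
    · exact (sumSq_of_no_real hE f).mono (by norm_num)
    · exact sumSq_six hE _ f (Nat.lt_succ_self _) h

/-- **Five squares**: for every number field `K`, a polynomial `f ∈ K[X]` of degree divisible by `4`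
with `f^σ(t) > 0` for all real embeddings `σ` of `K` and all real `t` is a sum of five squares. -/
theorem five_squares {f : K[X]} (h4 : 4 ∣ f.natDegree)
    (hpos : ∀ (σ : K →+* ℝ) (t : ℝ), 0 < (f.map σ).eval t) :
    ∃ g : Fin 5 → K[X], ∑ i, g i ^ 2 = f := by
  rw [← sum_sq_poly_iff (RatFunc K) two_ne_zero]
  obtain ⟨k, hk⟩ := h4
  rcases isEmpty_or_nonempty (K →+* ℝ) with hE | hE
  · exact sumSq_of_no_real hE f
  · exact five_of_pos hE hpos hk

/-- A polynomial with rational coefficients which is nonnegative at the rational numbers is a sum of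
six squares of polynomials with rational coefficients. -/
theorem six_squares_rat (f : ℚ[X]) : (∃ g : Fin 6 → ℚ[X], ∑ i, g i ^ 2 = f) ↔
    ∀ t : ℚ, 0 ≤ f.eval t := by
  rw [six_squares, ← landau, landau_rat]

end Fermat.Agent.Cor.PF
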