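import Fermat.Agent.Corollaries.PF.Landau

/-!
# Sums of four squares of polynomials over a number field

`sumSq_four_of_two`: a nonnegative polynomial `f` over a number field such that `-1` is a sum of two
squares modulo every irreducible factor of `f` is a sum of four squares of rational functions.
-/

set_option autoImplicit false
set_option maxHeartbeats 400000

namespace Fermat.Agent.Cor.PF

open Polynomial
open Fermat.Agent.Cor.HM Fermat.Agent.Cor.QA

variable {K : Type} [Field K] [NumberField K]

/-- `-1` is a sum of two squares modulo every irreducible factor of `f`. -/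
def Two (f : K[X]) : Prop :=
  ∀ p : K[X], Irreducible p → p ∣ f → ∃ g : Fin 2 → K[X], p ∣ 1 + ∑ i, g i ^ 2

theorem sumSq_four_of_two (hreal : Nonempty (K →+* ℝ)) (n : ℕ) : ∀ f : K[X], f.natDegree < n →
    Psd f → Two f → SumSq 4 (algebraMap K[X] (RatFunc K) f) := by
  induction n with
  | zero => exact fun f h => absurd h (Nat.not_lt_zero _)
  | succ n ih =>
    intro f hn hpsd htwo
    by_cases hf0 : f = 0
    · rw [hf0, map_zero]
      exact sumSq_zero 4
    rcases Nat.eq_zero_or_pos f.natDegree with hd | hd
    · obtain ⟨c, rfl⟩ := natDegree_eq_zero.mp hd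
      obtain ⟨x, y, z, t, h4⟩ := (sum_four_squares_nf c).mpr fun σ => by
        have := hpsd σ 0
        rwa [Polynomial.map_C, eval_C] at this
      have h5 := sumSq_algebraMap (L := RatFunc K) ![C x, C y, C z, C t]
      have e : (∑ i, (![C x, C y, C z, C t] : Fin 4 → K[X]) i ^ 2) = C c := by
        rw [Fin.sum_univ_four, h4]
        simp
      rwa [e] at h5
    · obtain ⟨p, hp, g₁, rfl⟩ := exists_irreducible_of_natDegree_pos hd
      have hg₁ : g₁ ≠ 0 := right_ne_zero_of_mul hf0
      have hpd : 0 < p.natDegree := hp.natDegree_pos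
      obtain ⟨g', hg'⟩ := htwo p hp (dvd_mul_right _ _)
      set g : Fin 2 → K[X] := fun i => g' i % p with hgdef
      have hgd : ∀ i, (g i).degree < p.degree := fun i => degree_mod_lt _ hp.ne_zero
      have hpg : p ∣ 1 + ∑ i, g i ^ 2 := by
        have h1 : ∀ i, p ∣ g' i ^ 2 - g i ^ 2 := by
          intro i
          have h2 : p ∣ g' i - g i := by
            refine ⟨g' i / p, ?_⟩
            have := EuclideanDomain.div_add_mod (g' i) p
            rw [hgdef]
            linear_combination -this
          have e : g' i ^ 2 - g i ^ 2 = (g' i - g i) * (g' i + g i) := by ring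
          rw [e]
          exact h2.mul_right _
        have h3 : 1 + ∑ i, g i ^ 2 = (1 + ∑ i, g' i ^ 2) - ∑ i, (g' i ^ 2 - g i ^ 2) := by
          rw [Finset.sum_sub_distrib]
          ring
        rw [h3]
        exact dvd_sub hg' (Finset.dvd_sum fun i _ => h1 i)
      obtain ⟨h, hh⟩ := hpg
      set G : K[X] := 1 + ∑ i, g i ^ 2 with hG
      obtain ⟨σ₀⟩ := hreal
      have hG0 : G ≠ 0 := by
        intro h0
        have h1 := congrArg (fun q : K[X] => (q.map σ₀).eval 0) h0
        simp only [hG, Polynomial.map_add, Polynomial.map_one, Polynomial.map_sum,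
          Polynomial.map_pow, eval_add, eval_one, eval_finsetSum, eval_pow,
          Polynomial.map_zero, eval_zero] at h1
        have h2 : 0 ≤ ∑ i, eval 0 (Polynomial.map σ₀ (g i)) ^ 2 :=
          Finset.sum_nonneg fun i _ => sq_nonneg _
        linarith
      have hh0 : h ≠ 0 := by
        rintro rfl
        exact hG0 (by rw [hh, mul_zero])
      have hGd : G.natDegree ≤ 2 * (p.natDegree - 1) := by
        refine natDegree_add_le_of_degree_le (by rw [natDegree_one]; omega) ?_
        refine natDegree_sum_le_of_forall_le _ _ fun i _ => ?_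
        refine natDegree_pow_le.trans ?_
        have h1 : (g i).natDegree < p.natDegree := by
          by_cases h0 : g i = 0
          · rw [h0, natDegree_zero]
            exact hpd
          · exact natDegree_lt_natDegree h0 (hgd i)
        exact Nat.mul_le_mul_left _ (by omega)
      have hGd' : G.natDegree = p.natDegree + h.natDegree := by
        rw [hh, natDegree_mul hp.ne_zero hh0]
      have hpsd' : Psd (g₁ * h) := by
        refine psd_of_sq_mul hp.ne_zero ?_
        have e : p ^ 2 * (g₁ * h) = p * g₁ * G := by
          rw [hh]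
          ring
        rw [e]
        intro σ t
        rw [Polynomial.map_mul, eval_mul]
        refine mul_nonneg (hpsd σ t) ?_
        simp only [hG, Polynomial.map_add, Polynomial.map_one, Polynomial.map_sum,
          Polynomial.map_pow, eval_add, eval_one, eval_finsetSum, eval_pow]
        have h2 : 0 ≤ ∑ i, eval t (Polynomial.map σ (g i)) ^ 2 :=
          Finset.sum_nonneg fun i _ => sq_nonneg _
        linarith
      have htwo' : Two (g₁ * h) := by
        intro q hq hqd
        rcases hq.prime.dvd_or_dvd hqd with h1 | h1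
        · exact htwo q hq (h1.mul_left _)
        · refine ⟨g, ?_⟩
          change q ∣ G
          rw [hh]
          exact h1.mul_left p
      rw [natDegree_mul hp.ne_zero hg₁] at hn
      have h1 := ih (g₁ * h) (by rw [natDegree_mul hg₁ hh0]; omega) hpsd' htwo'
      have h2 : SumSq 4 (algebraMap K[X] (RatFunc K) G) := by
        have h3 := (sumSq_one (1 : RatFunc K)).add (sumSq_algebraMap (L := RatFunc K) g)
        rw [one_pow, ← map_one (algebraMap K[X] (RatFunc K)), ← map_add, ← hG] at h3
        exact h3.mono (by norm_num)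
      have h3 := (sumSq_div 2 h1 h2).mul_sq (algebraMap K[X] (RatFunc K) p)
      have hG0' : algebraMap K[X] (RatFunc K) G ≠ 0 := by
        rwa [Ne, map_eq_zero_iff _ (IsFractionRing.injective K[X] (RatFunc K))]
      have e : algebraMap K[X] (RatFunc K) (p * g₁) =
          algebraMap K[X] (RatFunc K) (g₁ * h) / algebraMap K[X] (RatFunc K) G *
            algebraMap K[X] (RatFunc K) p ^ 2 := by
        rw [div_mul_eq_mul_div, eq_div_iff hG0', ← map_pow, ← map_mul, ← map_mul, hh]
        congr 1
        ring
      rw [e]
      exact h3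

/-- **A criterion for sums of four squares**: `h ∈ K[X]` is strictly positive at all real places, and
`-1` is a sum of two squares in every completion `F_W`, `W ∣ 2`, of a number field `F / K` which
contains a root of `h`. Then `h` is a sum of four squares. -/
theorem sumSq_four_of_local (hreal : Nonempty (K →+* ℝ)) {h : K[X]}
    (hpos : ∀ (σ : K →+* ℝ) (t : ℝ), 0 < (h.map σ).eval t)
    (hloc : ∀ (F : Type) [Field F] [NumberField F] (φ : K →+* F) (x : F)
      (W : IsDedekindDomain.HeightOneSpectrum (NumberField.RingOfIntegers F)),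
      ((2 : ℕ) : NumberField.RingOfIntegers F) ∈ W.asIdeal → (h.map φ).eval x = 0 →
      ∃ u v : W.adicCompletion F, u ^ 2 + v ^ 2 = -1) :
    SumSq 4 (algebraMap K[X] (RatFunc K) h) := by
  refine sumSq_four_of_two hreal _ h (Nat.lt_succ_self _) (fun σ t => (hpos σ t).le) ?_
  intro p hp hpd
  have : Fact (Irreducible p) := ⟨hp⟩
  have : Module.Finite K (AdjoinRoot p) := (AdjoinRoot.powerBasis hp.ne_zero).finite
  have : NumberField (AdjoinRoot p) := NumberField.of_module_finite K _
  have hroot : ∀ {R : Type} [CommRing R] (τ : AdjoinRoot p →+* R),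
      (h.map (τ.comp (AdjoinRoot.of p))).eval (τ (AdjoinRoot.root p)) = 0 := by
    intro R _ τ
    obtain ⟨q, rfl⟩ := hpd
    rw [Polynomial.map_mul, eval_mul, eval_map, ← hom_eval₂, AdjoinRoot.eval₂_root, map_zero,
      zero_mul]
  have hE : IsEmpty (AdjoinRoot p →+* ℝ) := ⟨fun τ => (hpos _ _).ne' (hroot τ)⟩
  have hl : level (AdjoinRoot p) ≤ 2 := by
    rw [level_le_two_iff hE]
    intro W hW
    exact hloc _ (AdjoinRoot.of p) (AdjoinRoot.root p) W hW (hroot (RingHom.id _))
  obtain ⟨u, hu⟩ := level_le_iff.mp ⟨hl, 4, neg_one_sum_four hE⟩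
  choose G hG using fun i => AdjoinRoot.mk_surjective (u i)
  refine ⟨G, ?_⟩
  rw [← AdjoinRoot.mk_eq_zero, map_add, map_one, map_sum]
  simp only [map_pow, hG, hu]
  ring

end Fermat.Agent.Cor.PF
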