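import Mathlib

/-!
# Hurwitz's theorem on the composition of sums of squares

`hurwitz`: over a field of characteristic zero there is a bilinear map `B` with
`(∑ x_i ^ 2) (∑ y_i ^ 2) = ∑ (B x y)_i ^ 2` on `F ^ n`, `n ≥ 1`, iff `n = 1, 2, 4, 8` (Hurwitz 1898).
-/

set_option autoImplicit false
set_option maxHeartbeats 400000

namespace Fermat.Agent.Cor.PF

open Matrix

variable {F : Type*} [Field F] [CharZero F] {n : ℕ}

/-- A matrix which anticommutes with an invertible matrix has trace zero. -/
lemma trace_eq_zero_of_anti {X C : Matrix (Fin n) (Fin n) F} (hC : C * C = -1)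
    (h : C * X = -(X * C)) : X.trace = 0 := by
  have h1 : X = C * (X * C) := by
    have h2 : C * (X * C) = -(X * C) * C := by rw [← h, mul_assoc]
    rw [h2, neg_mul, mul_assoc, hC]
    simp
  have h2 : X.trace = (X * C * C).trace := by
    conv_lhs => rw [h1]
    rw [trace_mul_comm]
  rw [mul_assoc, hC, mul_neg, mul_one, trace_neg] at h2
  have h3 : (2 : F) * X.trace = 0 := by linear_combination h2
  exact (mul_eq_zero.mp h3).resolve_left two_ne_zero

/-- Two anticommuting operators with square `-1` live on a space of even dimension. -/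
lemma even_finrank_of_anti {V : Type*} [AddCommGroup V] [Module F V] [Module.Finite F V]
    {a b : Module.End F V} (ha : a * a = -1) (hb : b * b = -1) (h : a * b = -(b * a)) :
    Even (Module.finrank F V) := by
  by_contra hodd
  rw [Nat.not_even_iff_odd] at hodd
  have hdet : ∀ c : Module.End F V, c * c = -1 → LinearMap.det c ≠ 0 := by
    intro c hc h0
    have h1 := congrArg LinearMap.det hc
    rw [map_mul, h0, zero_mul] at h1
    have h2 : LinearMap.det (-1 : Module.End F V) = (-1) ^ Module.finrank F V := by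
      have : (-1 : Module.End F V) = (-1 : F) • (1 : Module.End F V) := by simp
      rw [this, LinearMap.det_smul, map_one, mul_one]
    rw [h2] at h1
    exact pow_ne_zero _ (neg_ne_zero.mpr one_ne_zero) h1.symm
  have h1 := congrArg LinearMap.det h
  have h2 : LinearMap.det (-(b * a)) = (-1) ^ Module.finrank F V * LinearMap.det (b * a) := by
    have : -(b * a) = (-1 : F) • (b * a) := by simp
    rw [this, LinearMap.det_smul]
  rw [h2, hodd.neg_one_pow, map_mul, map_mul] at h1
  have h3 : (2 : F) * (LinearMap.det a * LinearMap.det b) = 0 := by linear_combination h1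
  exact mul_ne_zero two_ne_zero (mul_ne_zero (hdet a ha) (hdet b hb)) h3

section Family

variable {m : ℕ} {C : Fin m → Matrix (Fin n) (Fin n) F}

/-- The products of the matrices of a list. -/
lemma comm_list (hanti : ∀ i j, i ≠ j → C i * C j = -(C j * C i)) (i : Fin m)
    (l : List (Fin m)) :
    C i * (l.map C).prod =
      ((l.map fun j => if j = i then (1 : F) else -1).prod) • ((l.map C).prod * C i) := by
  induction l with
  | nil => simp
  | cons j l ih =>
    rw [List.map_cons, List.prod_cons, List.map_cons, List.prod_cons]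
    by_cases hj : j = i
    · subst hj
      rw [if_pos rfl, one_mul]
      conv_lhs => rw [ih, mul_smul_comm, ← mul_assoc]
    · rw [if_neg hj, ← mul_assoc, hanti i j (Ne.symm hj), neg_mul, mul_assoc, ih,
        mul_smul_comm, neg_mul, one_mul, neg_smul, mul_assoc]

/-- The product of the matrices `C i`, `i ∈ U`. -/
noncomputable def PU (C : Fin m → Matrix (Fin n) (Fin n) F) (U : Finset (Fin m)) :
    Matrix (Fin n) (Fin n) F :=
  (U.toList.map C).prod

lemma comm_PU (hanti : ∀ i j, i ≠ j → C i * C j = -(C j * C i)) (i : Fin m)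
    (U : Finset (Fin m)) :
    C i * PU C U = (∏ j ∈ U, if j = i then (1 : F) else -1) • (PU C U * C i) := by
  rw [PU, comm_list hanti, Finset.prod_map_toList]

omit [CharZero F] in
/-- A left inverse of `PU`. -/
lemma exists_inv_PU (hsq : ∀ i, C i * C i = -1) (U : Finset (Fin m)) :
    ∃ Q : Matrix (Fin n) (Fin n) F, Q * PU C U = 1 ∧ PU C U * Q = 1 := by
  have hu : IsUnit (PU C U) := by
    have : ∀ l : List (Fin m), IsUnit (l.map C).prod := by
      intro l
      induction l with
      | nil => simp
      | cons j l ih =>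
        rw [List.map_cons, List.prod_cons]
        refine IsUnit.mul ?_ ih
        exact ⟨⟨C j, -C j, by rw [mul_neg, hsq, neg_neg], by rw [neg_mul, hsq, neg_neg]⟩, rfl⟩
    exact this _
  obtain ⟨u, hu⟩ := hu
  exact ⟨((u⁻¹ : _ˣ) : Matrix (Fin n) (Fin n) F), by rw [← hu]; exact u.inv_mul, by
    rw [← hu]; exact u.mul_inv⟩

/-- Trace orthogonality. -/
lemma trace_inv_mul (hsq : ∀ i, C i * C i = -1) (hanti : ∀ i j, i ≠ j → C i * C j = -(C j * C i))
    {U T : Finset (Fin m)} {Q : Matrix (Fin n) (Fin n) F} (hQ : Q * PU C U = 1)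
    (hQ' : PU C U * Q = 1) {i : Fin m}
    (hi : (∏ j ∈ U, if j = i then (1 : F) else -1) * (∏ j ∈ T, if j = i then (1 : F) else -1) =
      -1) : (Q * PU C T).trace = 0 := by
  have hU := comm_PU hanti i U
  have hT := comm_PU hanti i T
  set εU : F := ∏ j ∈ U, if j = i then (1 : F) else -1 with hεU
  set εT : F := ∏ j ∈ T, if j = i then (1 : F) else -1 with hεT
  refine trace_eq_zero_of_anti (hsq i) ?_
  have h1 : Q * C i = εU • (C i * Q) := by
    have h2 : Q * (C i * PU C U) * Q = Q * (εU • (PU C U * C i)) * Q := by rw [hU]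
    rw [mul_smul_comm, smul_mul_assoc, ← mul_assoc Q (PU C U) (C i), hQ, one_mul,
      ← mul_assoc Q (C i), mul_assoc (Q * C i), hQ', mul_one] at h2
    exact h2
  have hε : εU * εU = 1 := by
    rw [hεU, ← Finset.prod_mul_distrib]
    refine Finset.prod_eq_one fun j _ => ?_
    split_ifs <;> simp
  have h3 : C i * Q = εU • (Q * C i) := by
    rw [h1, smul_smul, hε, one_smul]
  rw [← mul_assoc, h3, smul_mul_assoc, mul_assoc, hT, mul_smul_comm, smul_smul, hi, neg_smul,
    one_smul, mul_assoc]

/-- `k + 1` anticommuting matrices of size `n ≥ 1` with square `-1`: `2 ^ k ≤ n ^ 2`. -/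
theorem two_pow_le {k : ℕ} {C : Fin (k + 1) → Matrix (Fin n) (Fin n) F} (hn : 0 < n)
    (hsq : ∀ i, C i * C i = -1) (hanti : ∀ i j, i ≠ j → C i * C j = -(C j * C i)) :
    2 ^ k ≤ n ^ 2 := by
  classical
  let S : Finset (Fin k) → Finset (Fin (k + 1)) := fun U => U.map Fin.castSuccEmb
  have hlast : ∀ U : Finset (Fin k), (∏ j ∈ S U, if j = Fin.last k then (1 : F) else -1) =
      (-1) ^ U.card := by
    intro U
    rw [Finset.prod_map, ← Finset.prod_const]
    exact Finset.prod_congr rfl fun j _ => if_neg (Fin.castSucc_lt_last j).ne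
  have hcast : ∀ (U : Finset (Fin k)) (i : Fin k),
      (∏ j ∈ S U, if j = i.castSucc then (1 : F) else -1) =
        (-1) ^ U.card * (if i ∈ U then -1 else 1) := by
    intro U i
    rw [Finset.prod_map]
    have h1 : ∀ j : Fin k, (if Fin.castSuccEmb j = i.castSucc then (1 : F) else -1) =
        (-1) * (if j = i then -1 else 1) := by
      intro j
      change (if j.castSucc = i.castSucc then (1 : F) else -1) = (-1) * (if j = i then -1 else 1)
      by_cases hj : j = i
      · rw [hj, if_pos rfl, if_pos rfl]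
        norm_num
      · rw [if_neg hj, if_neg fun h => hj (Fin.castSucc_injective k h), mul_one]
    rw [Finset.prod_congr rfl fun j _ => h1 j, Finset.prod_mul_distrib, Finset.prod_const]
    congr 1
    rw [Finset.prod_ite_eq' U i]
  have hlin : LinearIndependent F fun U : Finset (Fin k) => PU C (S U) := by
    rw [Fintype.linearIndependent_iff]
    intro g hg T
    obtain ⟨Q, hQ, hQ'⟩ := exists_inv_PU hsq (S T)
    have h1 := congrArg (fun X => (Q * X).trace) hg
    simp only [Finset.mul_sum, mul_smul_comm, trace_sum, trace_smul, mul_zero, trace_zero] at h1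
    rw [Finset.sum_eq_single T, hQ, trace_one, Fintype.card_fin, smul_eq_mul] at h1
    · exact (mul_eq_zero.mp h1).resolve_right (by exact_mod_cast hn.ne')
    · intro U _ hUT
      rw [smul_eq_mul]
      refine mul_eq_zero_of_right _ ?_
      have hne : (-1 : F) ≠ 1 := by
        intro h
        have : (2 : F) = 0 := by linear_combination -h
        exact two_ne_zero this
      have hpm : ∀ V : Finset (Fin k), ((-1 : F) ^ V.card = 1 ∨ (-1 : F) ^ V.card = -1) :=
        fun V => neg_one_pow_eq_or F _
      by_cases hs : (-1 : F) ^ T.card = (-1) ^ U.card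
      · -- an index in exactly one of the two sets
        obtain ⟨i, hi⟩ : ∃ i, ¬ (i ∈ T ↔ i ∈ U) := by
          by_contra hcon
          push Not at hcon
          exact hUT (Finset.ext fun i => (hcon i).symm)
        refine trace_inv_mul hsq hanti hQ hQ' (i := i.castSucc) ?_
        rw [hcast, hcast, hs]
        have hsqU : (-1 : F) ^ U.card * (-1) ^ U.card = 1 := by
          rcases hpm U with h | h <;> rw [h] <;> norm_num
        by_cases hT : i ∈ T <;> by_cases hU : i ∈ U
        · exact absurd (iff_of_true hT hU) hi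
        · rw [if_pos hT, if_neg hU]
          linear_combination -hsqU
        · rw [if_neg hT, if_pos hU]
          linear_combination -hsqU
        · exact absurd (iff_of_false hT hU) hi
      · refine trace_inv_mul hsq hanti hQ hQ' (i := Fin.last k) ?_
        rw [hlast, hlast]
        rcases hpm T with h | h <;> rcases hpm U with h' | h' <;> rw [h, h'] at hs ⊢
        · exact absurd rfl hs
        · norm_num
        · norm_num
        · exact absurd rfl hs
    · exact fun h => absurd (Finset.mem_univ T) h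
  have h2 := hlin.fintype_card_le_finrank
  rw [Fintype.card_finset, Fintype.card_fin, Module.finrank_matrix, Module.finrank_self,
    Fintype.card_fin] at h2
  rw [sq]
  simpa using h2

/-- Two anticommuting matrices of size `n` with square `-1`: `n` is even. -/
lemma even_of_anti {a b : Matrix (Fin n) (Fin n) F} (ha : a * a = -1) (hb : b * b = -1)
    (hab : a * b = -(b * a)) : Even n := by
  have h1 : ∀ c : Matrix (Fin n) (Fin n) F, c * c = -1 →
      (Matrix.toLinAlgEquiv' c : Module.End F (Fin n → F)) * Matrix.toLinAlgEquiv' c = -1 := by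
    intro c hc
    rw [← map_mul, hc, map_neg, map_one]
  have h2 := even_finrank_of_anti (h1 a ha) (h1 b hb) (by rw [← map_mul, hab, map_neg, map_mul])
  rwa [Module.finrank_fin_fun] at h2

/-- Four anticommuting matrices of size `n` with square `-1`: `n` is divisible by `4`. -/
lemma four_dvd_of_anti {a b c d : Matrix (Fin n) (Fin n) F} (ha : a * a = -1) (hb : b * b = -1)
    (hc : c * c = -1) (hd : d * d = -1) (hba : b * a = -(a * b)) (hca : c * a = -(a * c))
    (hcb : c * b = -(b * c)) (hda : d * a = -(a * d)) (hdb : d * b = -(b * d))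
    (hdc : d * c = -(c * d)) : 4 ∣ n := by
  set T := a * b * c with hT
  have sw : ∀ u v : Matrix (Fin n) (Fin n) F, u * v = -(v * u) → ∀ x, u * (v * x) = -(v * (u * x)) :=
    fun u v h x => by rw [← mul_assoc, h, neg_mul, mul_assoc]
  have ss : ∀ u : Matrix (Fin n) (Fin n) F, u * u = -1 → ∀ x, u * (u * x) = -x :=
    fun u h x => by rw [← mul_assoc, h, neg_one_mul]
  have hba' := sw _ _ hba
  have hca' := sw _ _ hca
  have hcb' := sw _ _ hcb
  have hda' := sw _ _ hda
  have hdb' := sw _ _ hdb
  have hdc' := sw _ _ hdc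
  have ha' := ss _ ha
  have hb' := ss _ hb
  have hc' := ss _ hc
  have haT : a * T = T * a := by
    simp only [hT, mul_assoc, hba, hba', hca, hca', hcb, hcb', ha, ha', hb, hb', hc, hc',
      neg_mul, mul_neg, neg_neg, mul_one]
  have hbT : b * T = T * b := by
    simp only [hT, mul_assoc, hba, hba', hca, hca', hcb, hcb', ha, ha', hb, hb', hc, hc',
      neg_mul, mul_neg, neg_neg, mul_one]
  have hTT : T * T = 1 := by
    simp only [hT, mul_assoc, hba, hba', hca, hca', hcb, hcb', ha, ha', hb, hb', hc, hc',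
      neg_mul, mul_neg, neg_neg, mul_one]
  have hdT : d * T = -(T * d) := by
    simp only [hT, mul_assoc, hda, hda', hdb, hdb', hdc, hdc', neg_mul, mul_neg, neg_neg]
  have htr := trace_eq_zero_of_anti hd hdT
  set E : Matrix (Fin n) (Fin n) F := (1 / 2 : F) • (1 + T) with hE
  have hEE : E * E = E := by
    rw [hE, smul_mul_smul_comm, add_mul, mul_add, mul_add, one_mul, mul_one, one_mul, hTT]
    rw [show (1 : Matrix (Fin n) (Fin n) F) + T + (T + 1) = (2 : F) • (1 + T) by
      rw [two_smul]
      abel, smul_smul]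
    norm_num
  have hcomm : ∀ u : Matrix (Fin n) (Fin n) F, u * T = T * u → u * E = E * u := by
    intro u hu
    rw [hE, mul_smul_comm, smul_mul_assoc, mul_add, add_mul, mul_one, one_mul, hu]
  let f : Module.End F (Fin n → F) := Matrix.toLinAlgEquiv' E
  have hf : IsIdempotentElem f := by
    change f * f = f
    rw [← map_mul, hEE]
  have hmem : ∀ u : Matrix (Fin n) (Fin n) F, u * T = T * u → ∀ x ∈ LinearMap.range f,
      Matrix.toLinAlgEquiv' u x ∈ LinearMap.range f := by
    rintro u hu _ ⟨y, rfl⟩
    refine ⟨Matrix.toLinAlgEquiv' u y, ?_⟩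
    change (f * Matrix.toLinAlgEquiv' u) y = (Matrix.toLinAlgEquiv' u * f) y
    rw [← map_mul, ← map_mul, hcomm u hu]
  have hsq' : ∀ (u : Matrix (Fin n) (Fin n) F) (hu : u * T = T * u), u * u = -1 →
      ((Matrix.toLinAlgEquiv' u : Module.End F (Fin n → F)).restrict (hmem u hu)) *
        ((Matrix.toLinAlgEquiv' u : Module.End F (Fin n → F)).restrict (hmem u hu)) = -1 := by
    intro u hu h
    ext1 x
    apply Subtype.ext
    change (Matrix.toLinAlgEquiv' u * Matrix.toLinAlgEquiv' u : Module.End F (Fin n → F)) x.1 = -x.1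
    rw [← map_mul, h, map_neg, map_one]
    rfl
  have heven := even_finrank_of_anti (hsq' a haT ha) (hsq' b hbT hb) (by
    ext1 x
    apply Subtype.ext
    change (Matrix.toLinAlgEquiv' a * Matrix.toLinAlgEquiv' b : Module.End F (Fin n → F)) x.1 =
      -((Matrix.toLinAlgEquiv' b * Matrix.toLinAlgEquiv' a : Module.End F (Fin n → F)) x.1)
    rw [← map_mul, ← map_mul, hba, map_neg]
    simp)
  have htrace := (LinearMap.IsIdempotentElem.isProj_range f hf).trace
  have h1 : LinearMap.trace F (Fin n → F) f = E.trace := Matrix.trace_toLin'_eq E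
  rw [h1, hE, trace_smul, trace_add, htr, trace_one, Fintype.card_fin, add_zero, smul_eq_mul]
    at htrace
  have h2 : (n : F) = ((2 * Module.finrank F (LinearMap.range f) : ℕ) : F) := by
    push_cast
    rw [← htrace]
    ring
  have h3 : n = 2 * Module.finrank F (LinearMap.range f) := by exact_mod_cast h2
  obtain ⟨k, hk⟩ := heven
  exact ⟨k, by omega⟩

end Family

/-- A symmetric matrix whose quadratic form vanishes is zero. -/
lemma eq_zero_of_quad {S : Matrix (Fin n) (Fin n) F} (hS : Sᵀ = S)
    (h : ∀ y, y ⬝ᵥ S *ᵥ y = 0) : S = 0 := by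
  ext i j
  have hii := h (Pi.single i 1)
  have hjj := h (Pi.single j 1)
  have hij := h (Pi.single i 1 + Pi.single j 1)
  rw [mulVec_add, add_dotProduct, dotProduct_add, dotProduct_add, hii, hjj] at hij
  simp only [mulVec_single_one, single_one_dotProduct, col_apply, zero_add, add_zero] at hij
  have hs : S j i = S i j := by
    conv_rhs => rw [← hS]
    rfl
  rw [hs] at hij
  have h2 : (2 : F) * S i j = 0 := by linear_combination hij
  rw [(mul_eq_zero.mp h2).resolve_left two_ne_zero]
  rfl

/-- The necessary condition. -/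
theorem hurwitz_only {n : ℕ} (hn : 0 < n)
    (B : (Fin n → F) →ₗ[F] (Fin n → F) →ₗ[F] (Fin n → F))
    (hB : ∀ x y, (∑ i, x i ^ 2) * ∑ i, y i ^ 2 = ∑ i, B x y i ^ 2) :
    n = 1 ∨ n = 2 ∨ n = 4 ∨ n = 8 := by
  have hB' : ∀ x y, (x ⬝ᵥ x) * (y ⬝ᵥ y) = B x y ⬝ᵥ B x y := by
    intro x y
    have h := hB x y
    simp only [sq] at h
    exact h
  let M : (Fin n → F) → Matrix (Fin n) (Fin n) F := fun x => LinearMap.toMatrix' (B x)
  have hMadd : ∀ x x', M (x + x') = M x + M x' := fun x x' => by
    change LinearMap.toMatrix' (B (x + x')) = _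
    rw [map_add, map_add]
  have hM : ∀ x, (M x)ᵀ * M x = (x ⬝ᵥ x) • (1 : Matrix (Fin n) (Fin n) F) := by
    intro x
    rw [← sub_eq_zero]
    refine eq_zero_of_quad ?_ fun y => ?_
    · rw [transpose_sub, transpose_mul, transpose_transpose, transpose_smul, transpose_one]
    · rw [sub_mulVec, dotProduct_sub, ← mulVec_mulVec, dotProduct_mulVec, vecMul_transpose,
        smul_mulVec, one_mulVec, dotProduct_smul, smul_eq_mul]
      have e : M x *ᵥ y = B x y := LinearMap.toMatrix'_mulVec (B x) y
      rw [e, ← hB', sub_self]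
  have hpol : ∀ x x', (M x)ᵀ * M x' + (M x')ᵀ * M x =
      (2 * (x ⬝ᵥ x')) • (1 : Matrix (Fin n) (Fin n) F) := by
    intro x x'
    have h := hM (x + x')
    rw [hMadd, transpose_add, add_mul, mul_add, mul_add, hM x, hM x', add_dotProduct,
      dotProduct_add, dotProduct_add, dotProduct_comm x' x] at h
    have e : (M x)ᵀ * M x' + (M x')ᵀ * M x =
        ((x ⬝ᵥ x) • (1 : Matrix (Fin n) (Fin n) F) + (M x)ᵀ * M x' +
          ((M x')ᵀ * M x + (x' ⬝ᵥ x') • (1 : Matrix (Fin n) (Fin n) F))) -
          (x ⬝ᵥ x) • (1 : Matrix (Fin n) (Fin n) F) -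
          (x' ⬝ᵥ x') • (1 : Matrix (Fin n) (Fin n) F) := by abel
    rw [e, h, ← sub_smul, ← sub_smul]
    congr 1
    ring
  obtain ⟨m, rfl⟩ : ∃ m, n = m + 1 := ⟨n - 1, by omega⟩
  set A := M (Pi.single 0 1) with hA
  let A' : Fin m → Matrix (Fin (m + 1)) (Fin (m + 1)) F := fun i => M (Pi.single i.succ 1)
  have hAA : Aᵀ * A = 1 := by
    rw [hA, hM, single_one_dotProduct, Pi.single_eq_same, one_smul]
  have hAA' : A * Aᵀ = 1 := mul_eq_one_comm.mp hAA
  have hAi : ∀ i, Aᵀ * A' i = -((A' i)ᵀ * A) := by
    intro i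
    have h := hpol (Pi.single 0 1) (Pi.single i.succ 1)
    rw [single_one_dotProduct, Pi.single_eq_of_ne (Fin.succ_ne_zero i).symm, mul_zero,
      zero_smul] at h
    exact eq_neg_of_add_eq_zero_left h
  let C : Fin m → Matrix (Fin (m + 1)) (Fin (m + 1)) F := fun i => Aᵀ * A' i
  have hCC : ∀ i j, C i * C j = -((A' i)ᵀ * A' j) := by
    intro i j
    change Aᵀ * A' i * (Aᵀ * A' j) = _
    rw [hAi i, neg_mul, mul_assoc, ← mul_assoc A, hAA', one_mul]
  have hsq : ∀ i, C i * C i = -1 := by
    intro i
    rw [hCC]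
    change -((M (Pi.single i.succ 1))ᵀ * M (Pi.single i.succ 1)) = -1
    rw [hM, single_one_dotProduct, Pi.single_eq_same, one_smul]
  have hanti : ∀ i j, i ≠ j → C i * C j = -(C j * C i) := by
    intro i j hij
    rw [hCC, hCC, neg_neg]
    have h := hpol (Pi.single i.succ 1) (Pi.single j.succ 1)
    rw [single_one_dotProduct, Pi.single_eq_of_ne fun h => hij (Fin.succ_injective _ h), mul_zero,
      zero_smul] at h
    exact (eq_neg_of_add_eq_zero_right h).symm
  have hev : 2 ≤ m → Even (m + 1) := fun h =>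
    even_of_anti (hsq ⟨0, by omega⟩) (hsq ⟨1, by omega⟩) (hanti _ _ (by simp))
  have h4 : 4 ≤ m → 4 ∣ m + 1 := fun h =>
    four_dvd_of_anti (hsq ⟨0, by omega⟩) (hsq ⟨1, by omega⟩) (hsq ⟨2, by omega⟩)
      (hsq ⟨3, by omega⟩) (hanti _ _ (by simp)) (hanti _ _ (by simp)) (hanti _ _ (by simp))
      (hanti _ _ (by simp)) (hanti _ _ (by simp)) (hanti _ _ (by simp))
  have h8 : m ≤ 7 := by
    by_contra hm
    push Not at hm
    obtain ⟨k, rfl⟩ : ∃ k, m = k + 8 := ⟨m - 8, by omega⟩
    have h5 := two_pow_le (k := k + 7) (C := C) hn hsq hanti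
    have h6 : ∀ k : ℕ, (k + 8 + 1) ^ 2 < 2 ^ (k + 7) := by
      intro k
      induction k with
      | zero => norm_num
      | succ k ih =>
        have e : 2 ^ (k + 1 + 7) = 2 * 2 ^ (k + 7) := by ring
        have h7 : (k + 1 + 8 + 1) ^ 2 + (k ^ 2 + 16 * k + 62) = 2 * (k + 8 + 1) ^ 2 := by ring
        rw [e]
        omega
    have := h6 k
    omega
  interval_cases m
  · simp
  · simp
  · exact absurd (hev (by norm_num)) (by decide)
  · simp
  · exact absurd (hev (by norm_num)) (by decide)
  · exact absurd (h4 (by norm_num)) (by decide)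
  · exact absurd (hev (by norm_num)) (by decide)
  · simp

/-- **Hurwitz's theorem (1898)**: over a field `F` of characteristic zero there is an identity
`(x_1 ^ 2 + … + x_n ^ 2) (y_1 ^ 2 + … + y_n ^ 2) = z_1 ^ 2 + … + z_n ^ 2` with bilinear forms `z_i` in
`x` and `y` iff `n = 1, 2, 4, 8`. -/
theorem hurwitz (F : Type*) [Field F] [CharZero F] {n : ℕ} (hn : 0 < n) :
    (∃ B : (Fin n → F) →ₗ[F] (Fin n → F) →ₗ[F] (Fin n → F),
      ∀ x y, (∑ i, x i ^ 2) * ∑ i, y i ^ 2 = ∑ i, B x y i ^ 2) ↔
    n = 1 ∨ n = 2 ∨ n = 4 ∨ n = 8 := by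
  constructor
  · rintro ⟨B, hB⟩
    exact hurwitz_only hn B hB
  · rintro (rfl | rfl | rfl | rfl)
    · refine ⟨LinearMap.mk₂ F (fun x y => ![x 0 * y 0]) ?_ ?_ ?_ ?_, fun x y => ?_⟩
      · intro x x' y
        ext i
        fin_cases i
        simp
        ring
      · intro c x y
        ext i
        fin_cases i
        simp
        ring
      · intro x y y'
        ext i
        fin_cases i
        simp
        ring
      · intro c x y
        ext i
        fin_cases i
        simp
        ring
      · simp only [Fin.sum_univ_one, LinearMap.mk₂_apply]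
        simp
        ring
    · refine ⟨LinearMap.mk₂ F (fun x y => ![x 0 * y 0 - x 1 * y 1, x 0 * y 1 + x 1 * y 0])
        ?_ ?_ ?_ ?_, fun x y => ?_⟩
      · intro x x' y
        ext i
        fin_cases i <;> simp <;> ring
      · intro c x y
        ext i
        fin_cases i <;> simp <;> ring
      · intro x y y'
        ext i
        fin_cases i <;> simp <;> ring
      · intro c x y
        ext i
        fin_cases i <;> simp <;> ring
      · simp only [Fin.sum_univ_two, LinearMap.mk₂_apply]
        simp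
        ring
    · refine ⟨LinearMap.mk₂ F (fun x y => ![
          x 0 * y 0 - x 1 * y 1 - x 2 * y 2 - x 3 * y 3,
          x 0 * y 1 + x 1 * y 0 + x 2 * y 3 - x 3 * y 2,
          x 0 * y 2 - x 1 * y 3 + x 2 * y 0 + x 3 * y 1,
          x 0 * y 3 + x 1 * y 2 - x 2 * y 1 + x 3 * y 0])
        ?_ ?_ ?_ ?_, fun x y => ?_⟩
      · intro x x' y
        ext i
        fin_cases i <;> simp <;> ring
      · intro c x y
        ext i
        fin_cases i <;> simp <;> ring
      · intro x y y'
        ext i
        fin_cases i <;> simp <;> ring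
      · intro c x y
        ext i
        fin_cases i <;> simp <;> ring
      · simp only [Fin.sum_univ_four, LinearMap.mk₂_apply]
        simp
        ring
    · refine ⟨LinearMap.mk₂ F (fun x y => ![
          x 0 * y 0 - x 1 * y 1 - x 2 * y 2 - x 3 * y 3 - x 4 * y 4 - x 5 * y 5 - x 6 * y 6 - x 7 * y 7,
          x 0 * y 1 + x 1 * y 0 + x 2 * y 3 - x 3 * y 2 + x 4 * y 5 - x 5 * y 4 - x 6 * y 7 + x 7 * y 6,
          x 0 * y 2 - x 1 * y 3 + x 2 * y 0 + x 3 * y 1 + x 4 * y 6 + x 5 * y 7 - x 6 * y 4 - x 7 * y 5,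
          x 0 * y 3 + x 1 * y 2 - x 2 * y 1 + x 3 * y 0 + x 4 * y 7 - x 5 * y 6 + x 6 * y 5 - x 7 * y 4,
          x 0 * y 4 - x 1 * y 5 - x 2 * y 6 - x 3 * y 7 + x 4 * y 0 + x 5 * y 1 + x 6 * y 2 + x 7 * y 3,
          x 0 * y 5 + x 1 * y 4 - x 2 * y 7 + x 3 * y 6 - x 4 * y 1 + x 5 * y 0 - x 6 * y 3 + x 7 * y 2,
          x 0 * y 6 + x 1 * y 7 + x 2 * y 4 - x 3 * y 5 - x 4 * y 2 + x 5 * y 3 + x 6 * y 0 - x 7 * y 1,
          x 0 * y 7 - x 1 * y 6 + x 2 * y 5 + x 3 * y 4 - x 4 * y 3 - x 5 * y 2 + x 6 * y 1 + x 7 * y 0])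
        ?_ ?_ ?_ ?_, fun x y => ?_⟩
      · intro x x' y
        ext i
        fin_cases i <;> simp <;> ring
      · intro c x y
        ext i
        fin_cases i <;> simp <;> ring
      · intro x y y'
        ext i
        fin_cases i <;> simp <;> ring
      · intro c x y
        ext i
        fin_cases i <;> simp <;> ring
      · simp only [Fin.sum_univ_eight, LinearMap.mk₂_apply]
        simp
        ring

end Fermat.Agent.Cor.PF
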