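import Fermat.Agent.Corollaries.PF.Pfister
import Fermat.Agent.Corollaries.PF.CasselsPfister
import Fermat.Agent.Corollaries.QA.Level

/-!
# Landau's theorem: positive polynomials in one variable over a number field

`landau`: for every number field `K`, a polynomial `f ∈ K[X]` with `f^σ(t) ≥ 0` for all `σ : K →+* ℝ` and
`t : ℝ` is a sum of eight squares in `K[X]` (`K = ℚ`: Landau 1906).
-/

set_option autoImplicit false
set_option maxHeartbeats 400000

namespace Fermat.Agent.Cor.PF

open Polynomial
open Fermat.Agent.Cor.HM Fermat.Agent.Cor.QA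

variable {K : Type} [Field K] [NumberField K]

/-- `f` takes only nonnegative values at the real numbers, for every real embedding of `K`. -/
def Psd (f : K[X]) : Prop := ∀ (σ : K →+* ℝ) (t : ℝ), 0 ≤ (f.map σ).eval t

lemma psd_of_sq_mul {q g : K[X]} (hq : q ≠ 0) (h : Psd (q ^ 2 * g)) : Psd g := by
  intro σ t
  by_contra hneg
  push Not at hneg
  have hopen : IsOpen {x : ℝ | (g.map σ).eval x < 0} :=
    isOpen_lt (g.map σ).continuous continuous_const
  have hinf : {x : ℝ | (g.map σ).eval x < 0}.Infinite :=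
    infinite_of_mem_nhds t (hopen.mem_nhds hneg)
  have hq' : q.map σ ≠ 0 := (Polynomial.map_ne_zero_iff σ.injective).mpr hq
  obtain ⟨x, hx, hx'⟩ := hinf.exists_notMem_finite (finite_setOf_isRoot hq')
  have h1 := h σ x
  rw [Polynomial.map_mul, Polynomial.map_pow, eval_mul, eval_pow] at h1
  have h2 : 0 < (q.map σ).eval x ^ 2 := by
    have : (q.map σ).eval x ≠ 0 := hx'
    positivity
  have h3 : (g.map σ).eval x < 0 := hx
  nlinarith

/-- At an irreducible factor of multiplicity one a nonnegative polynomial has no real root. -/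
lemma isEmpty_real_adjoinRoot {f p g : K[X]} (hp : Irreducible p) (hf : f = p * g)
    (hpg : ¬ p ∣ g) (hpsd : Psd f) : IsEmpty (AdjoinRoot p →+* ℝ) := by
  refine ⟨fun τ => ?_⟩
  set σ : K →+* ℝ := τ.comp (AdjoinRoot.of p) with hσ
  set r := τ (AdjoinRoot.root p) with hr0
  have hr : (p.map σ).eval r = 0 := by
    rw [eval_map, hσ, hr0, ← hom_eval₂, AdjoinRoot.eval₂_root, map_zero]
  have hcop : ∀ q : K[X], IsCoprime p q → (q.map σ).eval r ≠ 0 := by
    rintro q ⟨a, b, hab⟩ h0
    have h1 := congrArg (fun q => (q.map σ).eval r) hab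
    simp only [Polynomial.map_add, Polynomial.map_mul, eval_add, eval_mul, hr, h0, mul_zero,
      add_zero, Polynomial.map_one, eval_one] at h1
    exact zero_ne_one h1
  have hg := hcop g ((Irreducible.coprime_iff_not_dvd hp).mpr hpg)
  have hd := hcop _ hp.separable
  have hfr : (f.map σ).eval r = 0 := by rw [hf, Polynomial.map_mul, eval_mul, hr, zero_mul]
  have hmin : IsLocalMin (fun x => (f.map σ).eval x) r := by
    refine Filter.Eventually.of_forall fun x => ?_
    change (f.map σ).eval r ≤ (f.map σ).eval x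
    rw [hfr]
    exact hpsd σ x
  have hder := hmin.deriv_eq_zero
  rw [Polynomial.deriv, derivative_map, hf, derivative_mul, Polynomial.map_add,
    Polynomial.map_mul, Polynomial.map_mul, eval_add, eval_mul, eval_mul, hr, zero_mul,
    add_zero] at hder
  exact mul_ne_zero hd hg hder

/-- Level: an irreducible polynomial without real roots divides a sum of five squares. -/
lemma exists_dvd_one_add {p : K[X]} (hp : Irreducible p) (hE : IsEmpty (AdjoinRoot p →+* ℝ)) :
    ∃ g : Fin 4 → K[X], (∀ i, (g i).degree < p.degree) ∧ p ∣ 1 + ∑ i, g i ^ 2 := by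
  have : Fact (Irreducible p) := ⟨hp⟩
  have : Module.Finite K (AdjoinRoot p) := (AdjoinRoot.powerBasis hp.ne_zero).finite
  have : NumberField (AdjoinRoot p) := NumberField.of_module_finite K _
  obtain ⟨u, hu⟩ := neg_one_sum_four hE
  choose G hG using fun i => AdjoinRoot.mk_surjective (u i)
  refine ⟨fun i => G i % p, fun i => degree_mod_lt _ hp.ne_zero, ?_⟩
  rw [← AdjoinRoot.mk_eq_zero, map_add, map_one, map_sum]
  have h1 : ∀ i, AdjoinRoot.mk p ((G i % p) ^ 2) = u i ^ 2 := by
    intro i
    rw [map_pow, ← hG i]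
    congr 1
    rw [AdjoinRoot.mk_eq_mk]
    refine ⟨-(G i / p), ?_⟩
    have := EuclideanDomain.div_add_mod (G i) p
    linear_combination this
  simp only [h1, hu]
  ring

omit [NumberField K] in
lemma sumSq_algebraMap {L : Type*} [Field L] [Algebra K[X] L] {n : ℕ} (g : Fin n → K[X]) :
    SumSq n (algebraMap K[X] L (∑ i, g i ^ 2)) :=
  ⟨fun i => algebraMap K[X] L (g i), by rw [map_sum]; simp only [map_pow]⟩

theorem sumSq_eight_of_psd (hreal : Nonempty (K →+* ℝ)) (n : ℕ) : ∀ f : K[X], f.natDegree < n →
    Psd f → SumSq 8 (algebraMap K[X] (RatFunc K) f) := by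
  induction n with
  | zero => exact fun f h => absurd h (Nat.not_lt_zero _)
  | succ n ih =>
    intro f hn hpsd
    by_cases hf0 : f = 0
    · rw [hf0, map_zero]
      exact sumSq_zero 8
    rcases Nat.eq_zero_or_pos f.natDegree with hd | hd
    · obtain ⟨c, rfl⟩ := natDegree_eq_zero.mp hd
      obtain ⟨x, y, z, t, h4⟩ := (sum_four_squares_nf c).mpr fun σ => by
        have := hpsd σ 0
        rwa [Polynomial.map_C, eval_C] at this
      have h5 := (sumSq_algebraMap (L := RatFunc K) ![C x, C y, C z, C t]).mono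
        (show 4 ≤ 8 by norm_num)
      have e : (∑ i, (![C x, C y, C z, C t] : Fin 4 → K[X]) i ^ 2) = C c := by
        rw [Fin.sum_univ_four, h4]
        simp
      rwa [e] at h5
    · obtain ⟨p, hp, g₁, rfl⟩ := exists_irreducible_of_natDegree_pos hd
      have hg₁ : g₁ ≠ 0 := right_ne_zero_of_mul hf0
      have hpd : 0 < p.natDegree := hp.natDegree_pos
      by_cases hpg : p ∣ g₁
      · obtain ⟨g₂, rfl⟩ := hpg
        have hg₂ : g₂ ≠ 0 := right_ne_zero_of_mul hg₁
        have e : p * (p * g₂) = p ^ 2 * g₂ := by ring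
        rw [natDegree_mul hp.ne_zero hg₁, natDegree_mul hp.ne_zero hg₂] at hn
        rw [e] at hpsd ⊢
        have h1 := ih g₂ (by omega) (psd_of_sq_mul hp.ne_zero hpsd)
        have h2 := h1.mul_sq (algebraMap K[X] (RatFunc K) p)
        rw [map_mul, map_pow, mul_comm]
        exact h2
      · have hE := isEmpty_real_adjoinRoot hp rfl hpg hpsd
        obtain ⟨g, hgd, h, hh⟩ := exists_dvd_one_add hp hE
        set G : K[X] := 1 + ∑ i, g i ^ 2 with hG
        obtain ⟨σ₀⟩ := hreal
        have hG0 : G ≠ 0 := by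
          intro h0
          have h1 := congrArg (fun q : K[X] => (q.map σ₀).eval 0) h0
          simp only [hG, Polynomial.map_add, Polynomial.map_one, Polynomial.map_sum,
            Polynomial.map_pow, eval_add, eval_one, eval_finsetSum, eval_pow,
            Polynomial.map_zero, eval_zero] at h1
          have h2 : 0 ≤ ∑ i, eval 0 (Polynomial.map σ₀ (g i)) ^ 2 :=
            Finset.sum_nonneg fun i _ => sq_nonneg _
          linarith
        have hh0 : h ≠ 0 := by
          rintro rfl
          exact hG0 (by rw [hh, mul_zero])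
        have hGd : G.natDegree ≤ 2 * (p.natDegree - 1) := by
          refine natDegree_add_le_of_degree_le (by rw [natDegree_one]; omega) ?_
          refine natDegree_sum_le_of_forall_le _ _ fun i _ => ?_
          refine natDegree_pow_le.trans ?_
          have h1 : (g i).natDegree < p.natDegree := by
            by_cases h0 : g i = 0
            · rw [h0, natDegree_zero]
              exact hpd
            · exact natDegree_lt_natDegree h0 (hgd i)
          exact Nat.mul_le_mul_left _ (by omega)
        have hGd' : G.natDegree = p.natDegree + h.natDegree := by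
          rw [hh, natDegree_mul hp.ne_zero hh0]
        have hpsd' : Psd (g₁ * h) := by
          refine psd_of_sq_mul hp.ne_zero ?_
          have e : p ^ 2 * (g₁ * h) = p * g₁ * G := by
            rw [hh]
            ring
          rw [e]
          intro σ t
          rw [Polynomial.map_mul, eval_mul]
          refine mul_nonneg (hpsd σ t) ?_
          simp only [hG, Polynomial.map_add, Polynomial.map_one, Polynomial.map_sum,
            Polynomial.map_pow, eval_add, eval_one, eval_finsetSum, eval_pow]
          have h2 : 0 ≤ ∑ i, eval t (Polynomial.map σ (g i)) ^ 2 :=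
            Finset.sum_nonneg fun i _ => sq_nonneg _
          linarith
        rw [natDegree_mul hp.ne_zero hg₁] at hn
        have h1 := ih (g₁ * h) (by rw [natDegree_mul hg₁ hh0]; omega) hpsd'
        have h2 : SumSq 8 (algebraMap K[X] (RatFunc K) G) := by
          have h3 := (sumSq_one (1 : RatFunc K)).add (sumSq_algebraMap (L := RatFunc K) g)
          rw [one_pow, ← map_one (algebraMap K[X] (RatFunc K)), ← map_add, ← hG] at h3
          exact h3.mono (by norm_num)
        have h3 := (sumSq_div 3 h1 h2).mul_sq (algebraMap K[X] (RatFunc K) p)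
        have hG0' : algebraMap K[X] (RatFunc K) G ≠ 0 := by
          rwa [Ne, map_eq_zero_iff _ (IsFractionRing.injective K[X] (RatFunc K))]
        have e : algebraMap K[X] (RatFunc K) (p * g₁) =
            algebraMap K[X] (RatFunc K) (g₁ * h) / algebraMap K[X] (RatFunc K) G *
              algebraMap K[X] (RatFunc K) p ^ 2 := by
          rw [div_mul_eq_mul_div, eq_div_iff hG0', ← map_pow, ← map_mul, ← map_mul, hh]
          congr 1
          ring
        rw [e]
        exact h3

/-- **Landau's theorem over a number field** `K`: a polynomial `f ∈ K[X]` is a sum of eight squares in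
`K[X]` iff `f^σ(t) ≥ 0` for all real embeddings `σ` of `K` and all real `t`. -/
theorem landau (f : K[X]) : (∃ g : Fin 8 → K[X], ∑ i, g i ^ 2 = f) ↔
    ∀ (σ : K →+* ℝ) (t : ℝ), 0 ≤ (f.map σ).eval t := by
  constructor
  · rintro ⟨g, rfl⟩ σ t
    rw [Polynomial.map_sum, eval_finsetSum]
    refine Finset.sum_nonneg fun i _ => ?_
    rw [Polynomial.map_pow, eval_pow]
    exact sq_nonneg _
  · intro h
    rw [← sum_sq_poly_iff (RatFunc K) two_ne_zero]
    rcases isEmpty_or_nonempty (K →+* ℝ) with hE | hE
    · obtain ⟨u, hu⟩ := neg_one_sum_four hE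
      rw [Fin.sum_univ_four] at hu
      have h2 : (C (1 / 2) : K[X]) * 2 = 1 := by
        have : (2 : K[X]) = C 2 := by rw [map_ofNat]
        rw [this, ← C_mul]
        norm_num
      have h3 : C (u 0) ^ 2 + C (u 1) ^ 2 + C (u 2) ^ 2 + C (u 3) ^ 2 = (-1 : K[X]) := by
        rw [← C_pow, ← C_pow, ← C_pow, ← C_pow, ← C_add, ← C_add, ← C_add, hu, C_neg, C_1]
      have h4 := (sumSq_algebraMap (L := RatFunc K) ![C (1 / 2) * (f + 1),
        C (u 0) * (C (1 / 2) * (f - 1)), C (u 1) * (C (1 / 2) * (f - 1)),
        C (u 2) * (C (1 / 2) * (f - 1)), C (u 3) * (C (1 / 2) * (f - 1))]).mono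
        (show 5 ≤ 8 by norm_num)
      have e : (∑ i, (![C (1 / 2) * (f + 1),
        C (u 0) * (C (1 / 2) * (f - 1)), C (u 1) * (C (1 / 2) * (f - 1)),
        C (u 2) * (C (1 / 2) * (f - 1)), C (u 3) * (C (1 / 2) * (f - 1))] :
          Fin 5 → K[X]) i ^ 2) = f := by
        rw [Fin.sum_univ_five]
        change (C (1 / 2) * (f + 1)) ^ 2 + (C (u 0) * (C (1 / 2) * (f - 1))) ^ 2 +
          (C (u 1) * (C (1 / 2) * (f - 1))) ^ 2 + (C (u 2) * (C (1 / 2) * (f - 1))) ^ 2 +
          (C (u 3) * (C (1 / 2) * (f - 1))) ^ 2 = f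
        linear_combination (C (1 / 2) * (f - 1)) ^ 2 * h3 + f * (C (1 / 2) * 2 + 1) * h2
      rw [e] at h4
      exact h4
    · exact sumSq_eight_of_psd hE _ f (Nat.lt_succ_self _) h

/-- **Landau's theorem over a number field**: `f ∈ K[X]` is a sum of eight squares in `K[X]` iff
`f(t)` is totally nonnegative for every rational number `t`. -/
theorem landau_iff_rat (f : K[X]) : (∃ g : Fin 8 → K[X], ∑ i, g i ^ 2 = f) ↔
    ∀ (t : ℚ) (σ : K →+* ℝ), 0 ≤ σ (f.eval (t : K)) := by
  rw [landau]
  constructor
  · intro h t σ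
    have h1 := h σ (σ (t : K))
    rwa [eval_map_apply] at h1
  · intro h σ
    have h1 : IsClosed {t : ℝ | 0 ≤ (f.map σ).eval t} :=
      isClosed_le continuous_const (f.map σ).continuous
    have h2 : ∀ t : ℝ, t ∈ closure (Set.range ((↑) : ℚ → ℝ)) := fun t => Rat.denseRange_cast t
    intro t
    refine h1.closure_subset_iff.mpr ?_ (h2 t)
    rintro _ ⟨q, rfl⟩
    have h3 := h q σ
    have e : ((q : ℚ) : ℝ) = σ (q : K) := by rw [map_ratCast]
    change 0 ≤ (f.map σ).eval ((q : ℚ) : ℝ)
    rw [e, eval_map_apply]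
    exact h3

/-- **Landau's theorem (1906)**: a polynomial with rational coefficients which is nonnegative at the
rational numbers is a sum of eight squares of polynomials with rational coefficients. -/
theorem landau_rat (f : ℚ[X]) : (∃ g : Fin 8 → ℚ[X], ∑ i, g i ^ 2 = f) ↔
    ∀ t : ℚ, 0 ≤ f.eval t := by
  rw [landau_iff_rat]
  constructor
  · intro h t
    have h1 := h t (algebraMap ℚ ℝ)
    rw [eq_ratCast] at h1
    exact_mod_cast h1
  · intro h t σ
    rw [eq_ratCast]
    exact_mod_cast h t

/-- The field of rational functions over a number field has Pythagoras number at most `8`. -/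
theorem sum_squares_ratFunc {m : ℕ} (f : Fin m → RatFunc K) :
    ∃ g : Fin 8 → RatFunc K, ∑ i, f i ^ 2 = ∑ i, g i ^ 2 := by
  set r := ∑ i, f i ^ 2 with hr
  have hb : algebraMap K[X] (RatFunc K) r.denom ≠ 0 := by
    rw [Ne, map_eq_zero_iff _ (IsFractionRing.injective K[X] (RatFunc K))]
    exact r.denom_ne_zero
  have h1 : algebraMap K[X] (RatFunc K) (r.num * r.denom) =
      r * algebraMap K[X] (RatFunc K) r.denom ^ 2 := by
    have h2 := r.num_div_denom
    rw [div_eq_iff hb] at h2
    rw [map_mul, h2]
    ring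
  have h3 : SumSq m (algebraMap K[X] (RatFunc K) (r.num * r.denom)) := by
    rw [h1]
    exact SumSq.mul_sq ⟨f, rfl⟩ _
  obtain ⟨g, hg⟩ := (sum_sq_poly_iff (RatFunc K) two_ne_zero m _).mp h3
  obtain ⟨g', hg'⟩ := (landau (r.num * r.denom)).mpr fun σ t => by
    rw [← hg, Polynomial.map_sum, eval_finsetSum]
    refine Finset.sum_nonneg fun i _ => ?_
    rw [Polynomial.map_pow, eval_pow]
    exact sq_nonneg _
  have h4 := (sumSq_algebraMap (L := RatFunc K) g').mul_sq
    (algebraMap K[X] (RatFunc K) r.denom)⁻¹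
  rw [hg', h1, inv_pow, mul_inv_cancel_right₀ (pow_ne_zero 2 hb)] at h4
  obtain ⟨u, hu⟩ := h4
  exact ⟨u, hu.symm⟩

end Fermat.Agent.Cor.PF
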