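import Mathlib

/-!
# Sums of `2 ^ k` squares (Pfister)

`F` is any field.

* `SumSq n c`: `c` is a sum of `n` squares in `F`;
* `sumSq_mul`: if `n` is a power of two, the product of two sums of `n` squares is a sum of `n`
  squares (Pfister 1965), `sumSq_inv`, `sumSq_div`;
* `exists_pow_two`: the least `n` such that `-1` is a sum of `n` squares is a power of two.
-/

set_option autoImplicit false
set_option maxHeartbeats 400000

open Matrix

namespace Fermat.Agent.Cor.PF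

variable {F : Type*} [Field F]

/-- `c` is a sum of `n` squares. -/
def SumSq (n : ℕ) (c : F) : Prop := ∃ f : Fin n → F, ∑ i, f i ^ 2 = c

lemma sumSq_zero (n : ℕ) : SumSq n (0 : F) := ⟨fun _ => 0, by simp⟩

lemma sumSq_one (x : F) : SumSq 1 (x ^ 2) := ⟨fun _ => x, by simp⟩

lemma SumSq.add {m n : ℕ} {a b : F} (ha : SumSq m a) (hb : SumSq n b) : SumSq (m + n) (a + b) := by
  obtain ⟨f, rfl⟩ := ha
  obtain ⟨g, rfl⟩ := hb
  exact ⟨Fin.append f g, by simp [Fin.sum_univ_add]⟩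

lemma SumSq.split {m n : ℕ} {c : F} (h : SumSq (m + n) c) :
    ∃ a b : F, SumSq m a ∧ SumSq n b ∧ a + b = c := by
  obtain ⟨f, rfl⟩ := h
  exact ⟨_, _, ⟨fun i => f (Fin.castAdd n i), rfl⟩, ⟨fun i => f (Fin.natAdd m i), rfl⟩,
    (Fin.sum_univ_add fun i => f i ^ 2).symm⟩

lemma SumSq.mono {m n : ℕ} {c : F} (h : SumSq m c) (hmn : m ≤ n) : SumSq n c := by
  obtain ⟨k, rfl⟩ := Nat.exists_eq_add_of_le hmn
  have := h.add (sumSq_zero k)
  rwa [add_zero] at this

lemma SumSq.mul_sq {n : ℕ} {c : F} (h : SumSq n c) (t : F) : SumSq n (c * t ^ 2) := by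
  obtain ⟨f, rfl⟩ := h
  exact ⟨fun i => f i * t, by
    rw [Finset.sum_mul]
    exact Finset.sum_congr rfl fun i _ => mul_pow _ _ _⟩

/-! ### Similarity factors -/

/-- `c` is a similarity factor of the unit form of rank `#ι`. -/
def Sim (ι : Type) [Fintype ι] [DecidableEq ι] (c : F) : Prop :=
  ∃ T : Matrix ι ι F, T * Tᵀ = c • (1 : Matrix ι ι F)

section Sim

variable {ι κ : Type} [Fintype ι] [DecidableEq ι] [Fintype κ] [DecidableEq κ]

lemma Sim.reindex {c : F} (h : Sim ι c) (e : ι ≃ κ) : Sim κ c := by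
  obtain ⟨T, hT⟩ := h
  refine ⟨T.submatrix e.symm e.symm, ?_⟩
  rw [transpose_submatrix, submatrix_mul_equiv, hT]
  ext i j
  simp [Matrix.one_apply]

lemma transpose_mul_self {T : Matrix ι ι F} {c : F} (hc : c ≠ 0)
    (h : T * Tᵀ = c • (1 : Matrix ι ι F)) : Tᵀ * T = c • (1 : Matrix ι ι F) := by
  have h1 : T * (c⁻¹ • Tᵀ) = 1 := by
    rw [Matrix.mul_smul, h, smul_smul, inv_mul_cancel₀ hc, one_smul]
  have h2 := mul_eq_one_comm.mp h1
  rw [Matrix.smul_mul] at h2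
  have h3 := congrArg (fun M => c • M) h2
  simpa [smul_smul, mul_inv_cancel₀ hc] using h3

lemma Sim.diag {c : F} (h : Sim ι c) : Sim (ι ⊕ ι) c := by
  obtain ⟨T, hT⟩ := h
  refine ⟨fromBlocks T 0 0 T, ?_⟩
  rw [fromBlocks_transpose, fromBlocks_multiply]
  simp only [transpose_zero, mul_zero, zero_mul, add_zero, zero_add, hT]
  rw [← fromBlocks_one, fromBlocks_smul, smul_zero]

/-- Similarity factors can be added if the rank is doubled. -/
lemma Sim.add {a b : F} (ha : Sim ι a) (hb : Sim ι b) : Sim (ι ⊕ ι) (a + b) := by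
  by_cases ha0 : a = 0
  · rw [ha0, zero_add]
    exact hb.diag
  by_cases hb0 : b = 0
  · rw [hb0, add_zero]
    exact ha.diag
  obtain ⟨S, hS⟩ := ha
  obtain ⟨R, hR⟩ := hb
  have hS' := transpose_mul_self ha0 hS
  have hR' := transpose_mul_self hb0 hR
  refine ⟨fromBlocks S R (-(a⁻¹ • (Sᵀ * Rᵀ * S))) Sᵀ, ?_⟩
  rw [fromBlocks_transpose, fromBlocks_multiply]
  have e1 : (-(a⁻¹ • (Sᵀ * Rᵀ * S)))ᵀ = -(a⁻¹ • (Sᵀ * R * S)) := by
    rw [transpose_neg, transpose_smul, transpose_mul, transpose_mul, transpose_transpose,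
      transpose_transpose, mul_assoc]
  have e2 : S * -(a⁻¹ • (Sᵀ * R * S)) + R * Sᵀᵀ = 0 := by
    rw [transpose_transpose, mul_neg, Matrix.mul_smul, ← mul_assoc, ← mul_assoc, hS, Matrix.smul_mul, Matrix.smul_mul,
      one_mul, smul_smul, inv_mul_cancel₀ ha0, one_smul, neg_add_cancel]
  have e3 : -(a⁻¹ • (Sᵀ * Rᵀ * S)) * Sᵀ + Sᵀ * Rᵀ = 0 := by
    rw [neg_mul, Matrix.smul_mul, mul_assoc (Sᵀ * Rᵀ), hS, Matrix.mul_smul, mul_one, smul_smul,
      inv_mul_cancel₀ ha0, one_smul, neg_add_cancel]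
  have e4 : -(a⁻¹ • (Sᵀ * Rᵀ * S)) * -(a⁻¹ • (Sᵀ * R * S)) + Sᵀ * Sᵀᵀ =
      (a + b) • (1 : Matrix ι ι F) := by
    rw [transpose_transpose, neg_mul_neg, Matrix.smul_mul, Matrix.mul_smul, smul_smul, hS']
    have e5 : Sᵀ * Rᵀ * S * (Sᵀ * R * S) = (a * b * a) • (1 : Matrix ι ι F) := by
      calc Sᵀ * Rᵀ * S * (Sᵀ * R * S) = Sᵀ * (Rᵀ * ((S * Sᵀ) * (R * S))) := by
            simp only [mul_assoc]
        _ = (a * b * a) • (1 : Matrix ι ι F) := by
            rw [hS, Matrix.smul_mul, one_mul, Matrix.mul_smul, ← mul_assoc Rᵀ, hR', Matrix.smul_mul, one_mul, Matrix.mul_smul,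
              Matrix.mul_smul, hS', smul_smul, smul_smul, mul_assoc]
    rw [e5, smul_smul, ← add_smul]
    congr 1
    field_simp
    ring
  rw [e1, e2, e3, e4, hS, hR, ← add_smul, ← fromBlocks_one, fromBlocks_smul, smul_zero]

end Sim

/-- A sum of `2 ^ k` squares is a similarity factor of the unit form of rank `2 ^ k`. -/
theorem sim_of_sumSq (k : ℕ) {c : F} (h : SumSq (2 ^ k) c) : Sim (Fin (2 ^ k)) c := by
  induction k generalizing c with
  | zero =>
    obtain ⟨f, rfl⟩ := h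
    refine ⟨Matrix.diagonal f, ?_⟩
    rw [diagonal_transpose, diagonal_mul_diagonal]
    ext i j
    have hi : i = 0 := Fin.ext (by have := i.2; omega)
    have hj : j = 0 := Fin.ext (by have := j.2; omega)
    subst hi hj
    simp [sq]
  | succ k ih =>
    rw [pow_succ, mul_two] at h
    obtain ⟨a, b, ha, hb, rfl⟩ := h.split
    exact ((ih ha).add (ih hb)).reindex
      (finSumFinEquiv.trans (finCongr (by rw [pow_succ, mul_two])))

/-- **Pfister's theorem**: the product of two sums of `2 ^ k` squares is a sum of `2 ^ k` squares. -/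
theorem sumSq_mul (k : ℕ) {c d : F} (hc : SumSq (2 ^ k) c) (hd : SumSq (2 ^ k) d) :
    SumSq (2 ^ k) (c * d) := by
  by_cases hc0 : c = 0
  · rw [hc0, zero_mul]
    exact sumSq_zero _
  obtain ⟨T, hT⟩ := sim_of_sumSq k hc
  have hT' := transpose_mul_self hc0 hT
  obtain ⟨g, rfl⟩ := hd
  refine ⟨T *ᵥ g, ?_⟩
  have h1 : ∀ u : Fin (2 ^ k) → F, ∑ i, u i ^ 2 = u ⬝ᵥ u := fun u =>
    Finset.sum_congr rfl fun i _ => sq _
  rw [h1, h1, dotProduct_mulVec, vecMul_mulVec, hT', vecMul_smul, vecMul_one, smul_dotProduct,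
    smul_eq_mul]

theorem sumSq_inv (n : ℕ) {c : F} (hc : SumSq n c) : SumSq n c⁻¹ := by
  by_cases hc0 : c = 0
  · rw [hc0, _root_.inv_zero]
    exact sumSq_zero n
  · have := hc.mul_sq c⁻¹
    have e : c * c⁻¹ ^ 2 = c⁻¹ := by field_simp
    rwa [e] at this

theorem sumSq_div (k : ℕ) {c d : F} (hc : SumSq (2 ^ k) c) (hd : SumSq (2 ^ k) d) :
    SumSq (2 ^ k) (c / d) := by
  rw [div_eq_mul_inv]
  exact sumSq_mul k hc (sumSq_inv _ hd)

/-- **Pfister's theorem on the level**: if `-1` is a sum of `s` squares, but not of `s - 1` squares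
(`s ≥ 1`), then `s` is a power of two. -/
theorem exists_pow_two {s : ℕ} (h1 : 1 ≤ s) (hs : SumSq s (-1 : F))
    (hmin : ¬ SumSq (s - 1) (-1 : F)) : ∃ k, s = 2 ^ k := by
  obtain ⟨k, hk⟩ : ∃ k, k = Nat.log 2 s := ⟨_, rfl⟩
  have hk1 : 2 ^ k ≤ s := by
    rw [hk]
    exact Nat.pow_log_le_self 2 (by omega)
  have hk2 : s < 2 ^ (k + 1) := by
    rw [hk]
    exact Nat.lt_pow_succ_log_self (by norm_num) s
  have hpos : 0 < 2 ^ k := Nat.two_pow_pos k
  rw [pow_succ] at hk2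
  refine ⟨k, le_antisymm ?_ hk1⟩
  by_contra hlt
  push Not at hlt
  apply hmin
  refine SumSq.mono (m := 2 ^ k) ?_ (by omega)
  have hsplit : s = (2 ^ k - 1) + (s - 2 ^ k + 1) := by omega
  rw [hsplit] at hs
  obtain ⟨a, b, ha, hb, hab⟩ := hs.split
  have hA : SumSq (2 ^ k) (a + 1) := by
    have h3 := ha.add (sumSq_one (1 : F))
    rwa [one_pow, Nat.sub_add_cancel hpos] at h3
  have hB : SumSq (2 ^ k) b := hb.mono (by omega)
  have hA0 : a + 1 ≠ 0 := by
    intro h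
    apply hmin
    have h3 : a = -1 := eq_neg_of_add_eq_zero_left h
    rw [← h3]
    exact ha.mono (by omega)
  have h4 : (-1 : F) = b / (a + 1) := by
    rw [eq_div_iff hA0]
    linear_combination -hab
  rw [h4]
  exact sumSq_div k hB hA

end Fermat.Agent.Cor.PF
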