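import Fermat.Agent.Corollaries.QA.Level
import Fermat.Agent.Corollaries.PF.Pfister

/-!
# The level of a field is a power of two
-/

set_option autoImplicit false

namespace Fermat.Agent.Cor.PF

open Fermat.Agent.Cor.QA

/-- **Pfister's theorem (1965)**: the level of a field, i.e. the least `n` such that `-1` is a sum of
`n` squares, is a power of two (`level F = 0` if `-1` is not a sum of squares). -/
theorem level_eq_two_pow (F : Type*) [Field F] : level F = 0 ∨ ∃ k, level F = 2 ^ k := by
  by_cases h0 : level F = 0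
  · exact Or.inl h0
  right
  have hne : {n : ℕ | ∃ f : Fin n → F, ∑ i, f i ^ 2 = -1}.Nonempty := by
    by_contra hcon
    rw [Set.not_nonempty_iff_eq_empty] at hcon
    apply h0
    rw [level, hcon, Nat.sInf_empty]
  refine exists_pow_two (F := F) (Nat.one_le_iff_ne_zero.mpr h0) (Nat.sInf_mem hne) ?_
  exact Nat.notMem_of_lt_sInf (s := {n : ℕ | ∃ f : Fin n → F, ∑ i, f i ^ 2 = -1})
    (Nat.sub_lt (Nat.pos_of_ne_zero h0) one_pos)

end Fermat.Agent.Cor.PF
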