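import Fermat.Agent.Corollaries.QA.Level
import Fermat.Agent.LT.Local

/-!
# The level of a number field and the local degrees at `2`

`e`, `f`: ramification index and inertia degree over `2`.
* `neg_one_sum_two_adic_iff`: for `v ∣ 2`, `-1` is a sum of two squares in `K_v` iff `e f` is even;
* `neg_one_sum_two_iff`: `-1` is a sum of two squares in the number field `K` iff `K` has no real
  embedding and `e f` is even for every `v ∣ 2`; `level_le_two_iff_even`;
* `sum_three_squares_tfae`: every totally positive element of `K` is a sum of three squares iff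
  `7` is a sum of three squares in `K` iff `e f` is even for every `v ∣ 2`.
-/

set_option autoImplicit false

namespace Fermat.Agent.Cor.PF

open IsDedekindDomain NumberField WithZero Polynomial IsLocalRing
open Fermat.Agent.LT.Ext Fermat.Agent.Cor.QA Fermat.Agent.Cor.HM

section Finite

/-- a finite field with `2 ^ f` elements contains a primitive cube root of unity iff `f` is even -/
theorem exists_root_iff {k : Type*} [Field k] [Finite k] [CharP k 2] {f : ℕ}
    (hk : Nat.card k = 2 ^ f) : (∃ a : k, a ^ 2 + a + 1 = 0) ↔ Even f := by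
  have h2 : (2 : k) = 0 := by exact_mod_cast CharP.cast_eq_zero k 2
  have hcard : Nat.card kˣ = 2 ^ f - 1 := by
    rw [← hk]
    exact Nat.card_units k
  have h3f : 3 ∣ 2 ^ f - 1 ↔ Even f := by
    rcases Nat.even_or_odd' f with ⟨m, rfl | rfl⟩
    · have h4 : (2 : ℕ) ^ (2 * m) % 3 = 1 := by
        rw [pow_mul, Nat.pow_mod]
        norm_num
      have h5 : 0 < (2 : ℕ) ^ (2 * m) := by positivity
      exact ⟨fun _ => even_two_mul m, fun _ => by omega⟩
    · have h4 : (2 : ℕ) ^ (2 * m) % 3 = 1 := by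
        rw [pow_mul, Nat.pow_mod]
        norm_num
      have h5 : 0 < (2 : ℕ) ^ (2 * m) := by positivity
      have h6 : ¬ Even (2 * m + 1) := Nat.not_even_iff_odd.mpr (odd_two_mul_add_one m)
      rw [pow_succ]
      exact ⟨fun h => by omega, fun h => absurd h h6⟩
  constructor
  · rintro ⟨a, ha⟩
    have ha3 : a ^ 3 = 1 := by linear_combination (a - 1) * ha
    have ha1 : a ≠ 1 := by
      rintro rfl
      have : (1 : k) = 0 := by linear_combination ha - h2
      exact one_ne_zero this
    have ha0 : a ≠ 0 := by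
      rintro rfl
      rw [zero_pow three_ne_zero] at ha3
      exact zero_ne_one ha3
    have h5 : orderOf (Units.mk0 a ha0) = 3 := by
      refine orderOf_eq_prime ?_ ?_
      · exact Units.ext (by simpa using ha3)
      · intro h
        exact ha1 (by simpa using congrArg Units.val h)
    rw [← h3f, ← hcard, ← h5]
    exact orderOf_dvd_natCard _
  · intro hf
    rw [← h3f, ← hcard] at hf
    have : Fact (Nat.Prime 3) := ⟨Nat.prime_three⟩
    obtain ⟨u, hu⟩ := exists_prime_orderOf_dvd_card' 3 hf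
    have hu3 : (u : k) ^ 3 = 1 := by
      rw [← Units.val_pow_eq_pow_val, ← hu, pow_orderOf_eq_one, Units.val_one]
    have hu1 : (u : k) ≠ 1 := by
      intro h
      have h5 : u = 1 := Units.ext h
      rw [h5, orderOf_one] at hu
      norm_num at hu
    refine ⟨u, ?_⟩
    have h6 : ((u : k) - 1) * ((u : k) ^ 2 + u + 1) = 0 := by linear_combination hu3
    exact (mul_eq_zero.mp h6).resolve_left (sub_ne_zero.mpr hu1)

end Finite

section Alg

variable {F : Type*} [Field F]

/-- `-1` is a sum of two squares if `-2 = a² + ab + b²` -/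
theorem sum_two_of_form (h3 : (3 : F) ≠ 0) (h2 : (2 : F) ≠ 0) {a b : F}
    (h : a ^ 2 + a * b + b ^ 2 = -2) : ∃ x y : F, x ^ 2 + y ^ 2 = -1 := by
  have key : (a + 2 * b + 2) ^ 2 + (a - b + 2) ^ 2 + (-2 * a - b + 2) ^ 2 = 0 := by
    linear_combination 6 * h
  by_cases hz : -2 * a - b + 2 = 0
  · by_cases hy : a - b + 2 = 0
    · exfalso
      rw [hy, hz] at key
      have hx : a + 2 * b + 2 = 0 := by
        have : (a + 2 * b + 2) ^ 2 = 0 := by linear_combination key
        exact pow_eq_zero_iff two_ne_zero |>.mp this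
      have hb : b = 0 := by
        have : 3 * b = 0 := by linear_combination hx - hy
        exact (mul_eq_zero.mp this).resolve_left h3
      have ha : a = 0 := by
        have : 3 * a = 0 := by linear_combination hy - hz
        exact (mul_eq_zero.mp this).resolve_left h3
      rw [ha, hb] at h
      apply h2
      linear_combination h
    · refine ⟨(a + 2 * b + 2) / (a - b + 2), (-2 * a - b + 2) / (a - b + 2), ?_⟩
      rw [div_pow, div_pow, ← add_div, div_eq_iff (pow_ne_zero 2 hy)]
      linear_combination key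
  · refine ⟨(a + 2 * b + 2) / (-2 * a - b + 2), (a - b + 2) / (-2 * a - b + 2), ?_⟩
    rw [div_pow, div_pow, ← add_div, div_eq_iff (pow_ne_zero 2 hz)]
    linear_combination key

end Alg

section Local

variable {K : Type*} [Field K] [NumberField K] (v : HeightOneSpectrum (𝓞 K))

theorem two_mem_maximalIdeal (hv : ((2 : ℕ) : 𝓞 K) ∈ v.asIdeal) :
    (2 : v.adicCompletionIntegers K) ∈ maximalIdeal (v.adicCompletionIntegers K) := by
  have h1 : algebraMap (𝓞 K) (v.adicCompletionIntegers K) ((2 : ℕ) : 𝓞 K) = 2 := by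
    rw [map_natCast]
    rfl
  have h2 : ((2 : ℕ) : 𝓞 K) ∈ RingHom.ker ((residue (v.adicCompletionIntegers K)).comp
      (algebraMap (𝓞 K) (v.adicCompletionIntegers K))) := by
    rw [Fermat.Agent.LT.Loc.ker_residue]
    exact hv
  rw [RingHom.mem_ker, RingHom.comp_apply, h1, residue_eq_zero_iff] at h2
  exact h2

theorem charP_residue (hv : ((2 : ℕ) : 𝓞 K) ∈ v.asIdeal) :
    CharP (ResidueField (v.adicCompletionIntegers K)) 2 := by
  refine CharTwo.of_one_ne_zero_of_two_eq_zero one_ne_zero ?_
  have h := two_mem_maximalIdeal v hv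
  rw [← residue_eq_zero_iff, map_ofNat] at h
  exact h

variable {v}

/-- a cube root of unity in the residue field -/
theorem sum_two_of_root (hv : ((2 : ℕ) : 𝓞 K) ∈ v.asIdeal)
    (h : ∃ a : ResidueField (v.adicCompletionIntegers K), a ^ 2 + a + 1 = 0) :
    ∃ x y : v.adicCompletion K, x ^ 2 + y ^ 2 = -1 := by
  obtain ⟨a, ha⟩ := h
  obtain ⟨a, rfl⟩ := IsLocalRing.residue_surjective a
  have ha' : a ^ 2 + a + 1 ∈ maximalIdeal (v.adicCompletionIntegers K) := by
    rw [← residue_eq_zero_iff]
    simpa using ha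
  let f : (v.adicCompletionIntegers K)[X] := X ^ 2 + X + C 1
  have hf : f.Monic := by
    have h1 : f = X ^ 2 + (X + C 1) := by ring
    rw [h1]
    exact monic_X_pow_add (by rw [degree_X_add_C]; norm_num)
  have h0 : f.eval a = a ^ 2 + a + 1 := by simp [f]
  have h1 : f.derivative.eval a = 2 * a + 1 := by simp [f, one_add_one_eq_two]
  obtain ⟨t, ht, -⟩ := HenselianLocalRing.is_henselian f hf a
    (by rw [h0]; exact ha') (by
      rw [h1]
      by_contra hcon
      have h2 : 2 * a + 1 ∈ maximalIdeal (v.adicCompletionIntegers K) := hcon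
      have h3 := Ideal.sub_mem _ h2 (Ideal.mul_mem_right a _ (two_mem_maximalIdeal v hv))
      rw [add_sub_cancel_left] at h3
      exact (Ideal.ne_top_iff_one _).mp (IsLocalRing.maximalIdeal.isMaximal _).ne_top h3)
  have ht' : t ^ 2 + t + 1 = 0 := by
    have h2 : f.eval t = 0 := ht
    simpa [f] using h2
  have ht2 := congrArg (Subtype.val) ht'
  have ht3 : (t : v.adicCompletion K) ^ 2 + t + 1 = 0 := ht2
  refine ⟨t, (t : v.adicCompletion K) ^ 2, ?_⟩
  linear_combination ((t : v.adicCompletion K) ^ 2 - t + 1) * ht3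

/-- every unit is of the form `a² + ab + b²` -/
theorem exists_form_eq (hv : ((2 : ℕ) : 𝓞 K) ∈ v.asIdeal) {u : v.adicCompletionIntegers K}
    (hu : IsUnit u) : ∃ a b : v.adicCompletionIntegers K, a ^ 2 + a * b + b ^ 2 = u := by
  have := charP_residue v hv
  have hfin := Fermat.Agent.LT.Loc.finite_residueField v
  have : Fact (Nat.Prime 2) := ⟨Nat.prime_two⟩
  obtain ⟨a, ha⟩ : ∃ a, frobeniusEquiv (ResidueField (v.adicCompletionIntegers K)) 2 a =
      residue _ u := (frobeniusEquiv _ 2).surjective _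
  obtain ⟨a, rfl⟩ := IsLocalRing.residue_surjective a
  rw [frobeniusEquiv_apply, frobenius_def] at ha
  have ha' : a ^ 2 - u ∈ maximalIdeal (v.adicCompletionIntegers K) := by
    rw [← residue_eq_zero_iff, map_sub, map_pow, ha, sub_self]
  have hau : IsUnit a := by
    by_contra hcon
    have h2 : a ∈ maximalIdeal (v.adicCompletionIntegers K) := hcon
    have h3 := Ideal.sub_mem _ (Ideal.pow_mem_of_mem _ h2 2 two_pos) ha'
    rw [sub_sub_cancel] at h3
    exact h3 hu
  obtain ⟨c, hc⟩ : ∃ c, c = a ^ 2 - u := ⟨_, rfl⟩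
  rw [← hc] at ha'
  let f : (v.adicCompletionIntegers K)[X] := X ^ 2 + C a * X + C c
  have hf : f.Monic := by
    have h1 : f = X ^ 2 + (C a * X + C c) := by ring
    rw [h1]
    exact monic_X_pow_add (lt_of_le_of_lt degree_linear_le (by norm_num))
  have h0 : f.eval 0 = c := by simp [f]
  have h1 : f.derivative.eval 0 = a := by simp [f]
  obtain ⟨t, ht, -⟩ := HenselianLocalRing.is_henselian f hf 0
    (by rw [h0]; exact ha') (by rw [h1]; exact hau)
  have ht' : t ^ 2 + a * t + c = 0 := by
    have h2 : f.eval t = 0 := ht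
    simpa [f] using h2
  exact ⟨a, t, by linear_combination ht' - hc⟩

/-- `v(2)` even -/
theorem sum_two_of_even (hv : ((2 : ℕ) : 𝓞 K) ∈ v.asIdeal) {m : ℕ}
    (h : Valued.v (2 : v.adicCompletion K) = exp (-(2 * m : ℤ))) :
    ∃ x y : v.adicCompletion K, x ^ 2 + y ^ 2 = -1 := by
  obtain ⟨π, hπ⟩ := exists_uniformizer K v
  have hπ0 : (π : v.adicCompletion K) ≠ 0 := by
    intro h0
    rw [h0, map_zero] at hπ
    exact exp_ne_zero hπ.symm
  have h1 : Valued.v (-2 / (π : v.adicCompletion K) ^ (2 * m)) = 1 := by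
    rw [map_div₀, Valuation.map_neg, map_pow, hπ, h, ← exp_nsmul, ← exp_sub, ← exp_zero]
    congr 1
    simp
  let u : v.adicCompletionIntegers K := ⟨-2 / (π : v.adicCompletion K) ^ (2 * m), h1.le⟩
  have hu : IsUnit u :=
    HeightOneSpectrum.adicCompletionIntegers.isUnit_iff_valued_eq_one.mpr h1
  obtain ⟨a, b, hab⟩ := exists_form_eq hv hu
  have hab' : (a : v.adicCompletion K) ^ 2 + a * b + b ^ 2 =
      -2 / (π : v.adicCompletion K) ^ (2 * m) := congrArg Subtype.val hab
  have h3 : (3 : v.adicCompletion K) ≠ 0 := by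
    have h : algebraMap K (v.adicCompletion K) 3 ≠ 0 := by
      rw [Ne, map_eq_zero]
      norm_num
    rwa [map_ofNat] at h
  refine sum_two_of_form (a := a * (π : v.adicCompletion K) ^ m)
    (b := b * (π : v.adicCompletion K) ^ m) h3 two_ne_zero' ?_
  have h4 : (π : v.adicCompletion K) ^ (2 * m) ≠ 0 := pow_ne_zero _ hπ0
  rw [eq_div_iff h4] at hab'
  linear_combination hab'

/-- `v(2)` odd, no cube root of unity in the residue field: no solution in integers -/
theorem not_sum_two_int (hv : ((2 : ℕ) : 𝓞 K) ∈ v.asIdeal)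
    (h : ¬ ∃ a : ResidueField (v.adicCompletionIntegers K), a ^ 2 + a + 1 = 0) {m : ℤ}
    (h2 : Valued.v (2 : v.adicCompletion K) = exp (2 * m + 1))
    {x y : v.adicCompletionIntegers K} (hxy : x ^ 2 + y ^ 2 + 1 = 0) : False := by
  have hm2 := two_mem_maximalIdeal v hv
  have h1 : (1 : v.adicCompletionIntegers K) ∉ maximalIdeal (v.adicCompletionIntegers K) :=
    fun h => (Ideal.ne_top_iff_one _).mp (IsLocalRing.maximalIdeal.isMaximal _).ne_top h
  have hprime := (IsLocalRing.maximalIdeal.isMaximal (v.adicCompletionIntegers K)).isPrime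
  obtain ⟨t, ht⟩ : ∃ t, t = x + y + 1 := ⟨_, rfl⟩
  have ht2 : t ^ 2 = 2 * (x * y + x + y) := by
    rw [ht]
    linear_combination hxy
  have htm : t ∈ maximalIdeal (v.adicCompletionIntegers K) := by
    apply hprime.mem_of_pow_mem 2
    rw [ht2]
    exact Ideal.mul_mem_right _ _ hm2
  obtain ⟨w, hw⟩ : ∃ w, w = x ^ 2 + x * y + y ^ 2 - t * (x + y) := ⟨_, rfl⟩
  have htw : t ^ 2 = -2 * w := by
    rw [hw]
    have h5 : (1 : v.adicCompletionIntegers K) = t - x - y := by linear_combination -ht
    have h6 : x ^ 2 + y ^ 2 + (t - x - y) ^ 2 = 0 := by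
      rw [← h5]
      linear_combination hxy
    linear_combination h6
  have hwu : IsUnit w := by
    by_contra hcon
    have h4 : w ∈ maximalIdeal (v.adicCompletionIntegers K) := hcon
    have h5 : x ^ 2 + x * y + y ^ 2 ∈ maximalIdeal (v.adicCompletionIntegers K) := by
      have := Ideal.add_mem _ h4 (Ideal.mul_mem_right (x + y) _ htm)
      rwa [hw, sub_add_cancel] at this
    by_cases hy : y ∈ maximalIdeal (v.adicCompletionIntegers K)
    · have h6 : x ^ 2 ∈ maximalIdeal (v.adicCompletionIntegers K) := by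
        have h7 := Ideal.sub_mem _ h5 (Ideal.mul_mem_left _ (x + y) hy)
        have h8 : x ^ 2 + x * y + y ^ 2 - (x + y) * y = x ^ 2 := by ring
        rwa [h8] at h7
      apply h1
      have h7 := Ideal.add_mem _ h6 (Ideal.pow_mem_of_mem _ hy 2 two_pos)
      have h8 : (1 : v.adicCompletionIntegers K) = -(x ^ 2 + y ^ 2) := by linear_combination hxy
      rw [h8]
      exact neg_mem h7
    · apply h
      have hy' : residue (v.adicCompletionIntegers K) y ≠ 0 := by
        rwa [Ne, residue_eq_zero_iff]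
      refine ⟨residue _ x / residue _ y, ?_⟩
      rw [← residue_eq_zero_iff, map_add, map_add, map_mul, map_pow, map_pow] at h5
      field_simp
      linear_combination h5
  have h6 : Valued.v (t : v.adicCompletion K) ^ 2 = Valued.v (2 : v.adicCompletion K) := by
    have h7 : (t : v.adicCompletion K) ^ 2 = -2 * w := congrArg Subtype.val htw
    have h8 : Valued.v (w : v.adicCompletion K) = 1 :=
      HeightOneSpectrum.adicCompletionIntegers.isUnit_iff_valued_eq_one.mp hwu
    rw [← map_pow, h7, map_mul, Valuation.map_neg, h8, mul_one]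
  have h7 : Valued.v (t : v.adicCompletion K) ≠ 0 := by
    intro h8
    rw [h8, zero_pow two_ne_zero, h2] at h6
    exact exp_ne_zero h6.symm
  rw [h2, ← exp_log h7, ← exp_nsmul, exp_inj, nsmul_eq_mul] at h6
  push_cast at h6
  omega

theorem exists_int_of_sum_two (h : ∃ x y : v.adicCompletion K, x ^ 2 + y ^ 2 = -1) :
    ∃ x y : v.adicCompletionIntegers K, x ^ 2 + y ^ 2 + 1 = 0 := by
  obtain ⟨x, y, h⟩ := h
  have key : ∀ x y : v.adicCompletion K, x ^ 2 + y ^ 2 = -1 → 1 < Valued.v x →
      Valued.v y ≤ Valued.v x → ∃ x y : v.adicCompletionIntegers K, x ^ 2 + y ^ 2 + 1 = 0 := by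
    intro x y h hx hyx
    have hx0 : x ≠ 0 := by
      rintro rfl
      rw [map_zero] at hx
      exact absurd hx (not_lt.mpr zero_le)
    have hv0 : 0 < Valued.v x := zero_lt_iff.mpr ((Valuation.ne_zero_iff _).mpr hx0)
    refine ⟨⟨y / x, ?_⟩, ⟨1 / x, ?_⟩, Subtype.ext ?_⟩
    · rw [HeightOneSpectrum.mem_adicCompletionIntegers, map_div₀]
      exact (div_le_one₀ hv0).mpr hyx
    · rw [HeightOneSpectrum.mem_adicCompletionIntegers, map_div₀, map_one]
      exact (div_le_one₀ hv0).mpr hx.le
    · change (y / x) ^ 2 + (1 / x) ^ 2 + 1 = 0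
      field_simp
      linear_combination h
  by_cases h1 : Valued.v x ≤ 1
  · by_cases h2 : Valued.v y ≤ 1
    · exact ⟨⟨x, h1⟩, ⟨y, h2⟩, Subtype.ext (by
        change x ^ 2 + y ^ 2 + 1 = 0
        linear_combination h)⟩
    · exact key y x (by linear_combination h) (not_le.mp h2) (h1.trans (not_le.mp h2).le)
  · rcases le_total (Valued.v y) (Valued.v x) with h2 | h2
    · exact key x y h (not_le.mp h1) h2
    · exact key y x (by linear_combination h) ((not_le.mp h1).trans_le h2) h2

theorem valued_two : Valued.v (2 : v.adicCompletion K) =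
    exp (-((Ideal.span {(2 : ℤ)}).ramificationIdx' v.asIdeal : ℤ)) := by
  have h1 : Valued.v (2 : v.adicCompletion K) = v.intValuation (2 : 𝓞 K) := by
    have h2 : (2 : v.adicCompletion K) = algebraMap K (v.adicCompletion K) 2 :=
      (map_ofNat _ 2).symm
    rw [h2, v_algebraMap]
    exact v.valuation_of_algebraMap (K := K) (2 : 𝓞 K)
  have h0 : v.intValuation (2 : 𝓞 K) ≠ 0 := v.intValuation_ne_zero _ two_ne_zero
  have hle : v.intValuation (2 : 𝓞 K) ≤ 1 := v.intValuation_le_one _
  rw [h1]
  obtain ⟨n, hn⟩ : ∃ n : ℕ, v.intValuation (2 : 𝓞 K) = exp (-(n : ℤ)) := by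
    refine ⟨(-(log (v.intValuation (2 : 𝓞 K)))).toNat, ?_⟩
    rw [← exp_log h0, ← exp_zero, exp_le_exp] at hle
    conv_lhs => rw [← exp_log h0]
    congr 1
    omega
  rw [hn]
  have hmap : Ideal.map (algebraMap ℤ (𝓞 K)) (Ideal.span {(2 : ℤ)}) = Ideal.span {(2 : 𝓞 K)} := by
    rw [Ideal.map_span, Set.image_singleton]
    norm_num
  rw [Ideal.ramificationIdx'_spec (n := n)]
  · rw [hmap, Ideal.span_singleton_le_iff_mem, ← v.intValuation_le_pow_iff_mem, hn]
  · rw [hmap, Ideal.span_singleton_le_iff_mem, ← v.intValuation_le_pow_iff_mem, hn, exp_le_exp]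
    push_cast
    omega

theorem card_two (hv : ((2 : ℕ) : 𝓞 K) ∈ v.asIdeal) :
    Nat.card (ResidueField (v.adicCompletionIntegers K)) =
      2 ^ (Ideal.span {(2 : ℤ)}).inertiaDeg' v.asIdeal := by
  rw [Fermat.Agent.LT.Loc.card_residueField]
  have h1 : v.asIdeal.LiesOver (Ideal.span {((2 : ℕ) : ℤ)}) := by
    have h2 : (Ideal.span {((2 : ℕ) : ℤ)}).IsMaximal := by
      refine Ideal.IsPrime.isMaximal ?_ ?_
      · rw [Ideal.span_singleton_prime (by norm_num)]
        exact Nat.prime_iff_prime_int.mp Nat.prime_two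
      · rw [Ne, Ideal.span_singleton_eq_bot]
        norm_num
    refine ⟨h2.eq_of_le (Ideal.comap_ne_top _ v.isPrime.ne_top) ?_⟩
    rw [Ideal.span_singleton_le_iff_mem, Ideal.mem_comap, map_natCast]
    exact hv
  exact Ideal.absNorm_eq_pow_inertiaDeg' v.asIdeal Nat.prime_two

/-- **`-1` is a sum of two squares in `K_v`, `v ∣ 2`, iff `e f` is even.** -/
theorem neg_one_sum_two_adic_iff (hv : ((2 : ℕ) : 𝓞 K) ∈ v.asIdeal) :
    (∃ x y : v.adicCompletion K, x ^ 2 + y ^ 2 = -1) ↔
      Even ((Ideal.span {(2 : ℤ)}).ramificationIdx' v.asIdeal *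
        (Ideal.span {(2 : ℤ)}).inertiaDeg' v.asIdeal) := by
  have := charP_residue v hv
  have hfin := Fermat.Agent.LT.Loc.finite_residueField v
  have h1 := exists_root_iff (card_two hv)
  have h2 := valued_two (v := v)
  rw [Nat.even_mul]
  constructor
  · intro h
    obtain ⟨x, y, hxy⟩ := exists_int_of_sum_two h
    by_contra hcon
    rw [not_or, ← h1, Nat.not_even_iff_odd] at hcon
    obtain ⟨m, hm⟩ := hcon.1
    refine not_sum_two_int hv hcon.2 (m := -(m : ℤ) - 1) ?_ hxy
    rw [h2, hm]
    congr 1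
    push_cast
    ring
  · rintro (h | h)
    · obtain ⟨m, hm⟩ := even_iff_exists_two_mul.mp h
      refine sum_two_of_even hv (m := m) ?_
      rw [h2, hm]
      push_cast
      rfl
    · exact sum_two_of_root hv (h1.mpr h)

end Local

section Global

variable {K : Type} [Field K] [NumberField K]

/-- **The level of a totally complex number field is at most `2` iff `e f` is even for all
`v ∣ 2`.** -/
theorem level_le_two_iff_even (h : IsEmpty (K →+* ℝ)) : level K ≤ 2 ↔
    ∀ v : HeightOneSpectrum (𝓞 K), ((2 : ℕ) : 𝓞 K) ∈ v.asIdeal →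
      Even ((Ideal.span {(2 : ℤ)}).ramificationIdx' v.asIdeal *
        (Ideal.span {(2 : ℤ)}).inertiaDeg' v.asIdeal) := by
  rw [level_le_two_iff h]
  exact forall_congr' fun v => forall_congr' fun hv => neg_one_sum_two_adic_iff hv

/-- **`-1` is a sum of two squares in a number field iff there is no real embedding and `e f` is
even for all `v ∣ 2`.** -/
theorem neg_one_sum_two_iff : (∃ x y : K, x ^ 2 + y ^ 2 = -1) ↔ IsEmpty (K →+* ℝ) ∧
    ∀ v : HeightOneSpectrum (𝓞 K), ((2 : ℕ) : 𝓞 K) ∈ v.asIdeal →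
      Even ((Ideal.span {(2 : ℤ)}).ramificationIdx' v.asIdeal *
        (Ideal.span {(2 : ℤ)}).inertiaDeg' v.asIdeal) := by
  constructor
  · rintro ⟨x, y, hxy⟩
    have h1 : IsEmpty (K →+* ℝ) := by
      refine ⟨fun σ => ?_⟩
      have h := congrArg σ hxy
      rw [map_add, map_pow, map_pow, map_neg, map_one] at h
      nlinarith [sq_nonneg (σ x), sq_nonneg (σ y)]
    refine ⟨h1, (level_le_two_iff_even h1).mp ?_⟩
    exact (level_le_iff.mpr ⟨![x, y], by rw [Fin.sum_univ_two]; exact hxy⟩).1
  · rintro ⟨h1, h2⟩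
    obtain ⟨f, hf⟩ := level_le_iff.mp ⟨(level_le_two_iff_even h1).mpr h2, 4, neg_one_sum_four h1⟩
    rw [Fin.sum_univ_two] at hf
    exact ⟨f 0, f 1, hf⟩

/-- `-7` is a square in `K_v`, `v ∣ 2` -/
theorem isSquare_neg_seven {v : HeightOneSpectrum (𝓞 K)} (hv : ((2 : ℕ) : 𝓞 K) ∈ v.asIdeal) :
    IsSquare (-7 : v.adicCompletion K) := by
  refine isSquare_of_near ?_
  have h1 : Valued.v (2 : v.adicCompletion K) < 1 :=
    (LT.Ext.mem_maximalIdeal (2 : v.adicCompletionIntegers K)).mp (two_mem_maximalIdeal v hv)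
  have h2 : (-7 - 1 : v.adicCompletion K) = -(2 * 4) := by norm_num
  rw [h2, Valuation.map_neg, map_mul]
  have h4 : 0 < Valued.v (4 : v.adicCompletion K) := zero_lt_iff.mpr v_four_ne_zero
  calc Valued.v (2 : v.adicCompletion K) * Valued.v (4 : v.adicCompletion K)
      < 1 * Valued.v (4 : v.adicCompletion K) := mul_lt_mul_of_pos_right h1 h4
    _ = _ := one_mul _

/-- **Sums of three squares in a number field.**  The following are equivalent: every totally
positive element is a sum of three squares; `7` is a sum of three squares; `e f` is even for all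
`v ∣ 2`. -/
theorem sum_three_squares_tfae (K : Type) [Field K] [NumberField K] : List.TFAE [
    ∀ c : K, (∀ σ : K →+* ℝ, 0 < σ c) → ∃ x y z : K, x ^ 2 + y ^ 2 + z ^ 2 = c,
    ∃ x y z : K, x ^ 2 + y ^ 2 + z ^ 2 = 7,
    ∀ v : HeightOneSpectrum (𝓞 K), ((2 : ℕ) : 𝓞 K) ∈ v.asIdeal →
      Even ((Ideal.span {(2 : ℤ)}).ramificationIdx' v.asIdeal *
        (Ideal.span {(2 : ℤ)}).inertiaDeg' v.asIdeal)] := by
  tfae_have 1 → 2 := fun h => h 7 fun σ => by
    rw [map_ofNat]
    norm_num
  tfae_have 2 → 3 := by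
    intro h v hv
    have h7 : (7 : K) ≠ 0 := by norm_num
    rw [sum_three_squares_iff_dyadic h7] at h
    rw [← neg_one_sum_two_adic_iff hv]
    refine (h.1 v hv).resolve_right (not_not.mpr ?_)
    rw [map_ofNat]
    exact isSquare_neg_seven hv
  tfae_have 3 → 1 := by
    intro h c hc
    rcases eq_or_ne c 0 with rfl | hc0
    · exact ⟨0, 0, 0, by simp⟩
    · exact (sum_three_squares_iff_dyadic hc0).mpr
        ⟨fun v hv => Or.inl ((neg_one_sum_two_adic_iff hv).mpr (h v hv)), hc⟩
  tfae_finish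

end Global

end Fermat.Agent.Cor.PF
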