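import Mathlib

/-!
# Motzkin's polynomial

`x ^ 4 y ^ 2 + x ^ 2 y ^ 4 - 3 x ^ 2 y ^ 2 + 1` is non-negative on `ℝ ^ 2`, it is not a sum of squares
of polynomials, and it is a sum of four squares of rational functions (Motzkin 1967).
-/

set_option autoImplicit false

namespace Fermat.Agent.Cor.PF

section Uni

open Polynomial

theorem natDegree_le_of_sum_sq {R : Type*} [CommRing R] {ι : Type*} [Fintype ι]
    (hR : ∀ x : ι → R, ∑ i, x i ^ 2 = 0 → x = 0) {g : ι → R[X]} {f : R[X]}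
    (h : ∑ i, g i ^ 2 = f) {m : ℕ} (hf : f.natDegree ≤ 2 * m) (i : ι) : (g i).natDegree ≤ m := by
  classical
  set D := Finset.univ.sup fun i => (g i).natDegree with hD
  have hle : ∀ i, (g i).natDegree ≤ D := fun i =>
    Finset.le_sup (f := fun i => (g i).natDegree) (Finset.mem_univ i)
  by_cases hDm : D ≤ m
  · exact (hle i).trans hDm
  exfalso
  push Not at hDm
  have h1 : ∑ i, (g i).coeff D ^ 2 = 0 := by
    have h2 := congrArg (fun p : R[X] => p.coeff (2 * D)) h
    simp only [finsetSum_coeff] at h2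
    rw [coeff_eq_zero_of_natDegree_lt (by omega : f.natDegree < 2 * D)] at h2
    rw [← h2]
    exact Finset.sum_congr rfl fun i _ => by rw [coeff_pow_of_natDegree_le (hle i)]
  have h3 : ∀ i, (g i).coeff D = 0 := fun i => congrFun (hR _ h1) i
  obtain ⟨j, -, hj⟩ := Finset.exists_mem_eq_sup Finset.univ ⟨i, Finset.mem_univ i⟩
    (fun i => (g i).natDegree)
  have hj' : g j = 0 := by
    rw [← leadingCoeff_eq_zero, leadingCoeff, ← hj]
    exact h3 j
  have hD0 : D = 0 := by rw [hD, hj, hj', natDegree_zero]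
  omega

theorem poly_sum_sq_eq_zero {R : Type*} [CommRing R] {ι : Type*} [Fintype ι]
    (hR : ∀ x : ι → R, ∑ i, x i ^ 2 = 0 → x = 0) (g : ι → R[X]) (h : ∑ i, g i ^ 2 = 0) :
    g = 0 := by
  have hd : ∀ i, (g i).natDegree ≤ 0 := natDegree_le_of_sum_sq hR h (m := 0) (by simp)
  have h1 : ∑ i, (g i).coeff 0 ^ 2 = 0 := by
    have h2 := congrArg (fun p : R[X] => p.coeff (2 * 0)) h
    simp only [finsetSum_coeff, coeff_zero] at h2
    rw [← h2]
    exact Finset.sum_congr rfl fun i _ => by rw [coeff_pow_of_natDegree_le (hd i)]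
  funext i
  rw [eq_C_of_natDegree_le_zero (hd i), congrFun (hR _ h1) i]
  simp

theorem coeff_mul_two {S : Type*} [CommRing S] (p q : S[X]) :
    (p * q).coeff 2 = p.coeff 0 * q.coeff 2 + p.coeff 1 * q.coeff 1 + p.coeff 2 * q.coeff 0 := by
  rw [coeff_mul, Finset.Nat.sum_antidiagonal_eq_sum_range_succ_mk]
  simp [Finset.sum_range_succ]

/-- Motzkin's polynomial, as a polynomial in `x` with coefficients in `k[y]`, is not a sum of
squares. -/
theorem motzkin_poly_not_sum_sq {k : Type*} [Field k] [LinearOrder k] [IsStrictOrderedRing k]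
    {n : ℕ} (g : Fin n → k[X][X]) :
    ∑ i, g i ^ 2 ≠ (Polynomial.C (Polynomial.X ^ 2) * Polynomial.X ^ 4 +
      Polynomial.C (Polynomial.X ^ 4 - 3 * Polynomial.X ^ 2) * Polynomial.X ^ 2 +
        Polynomial.C 1 : k[X][X]) := by
  intro h
  have hk : ∀ x : Fin n → k, ∑ i, x i ^ 2 = 0 → x = 0 := by
    intro x hx
    rw [Finset.sum_eq_zero_iff_of_nonneg fun i _ => sq_nonneg (x i)] at hx
    funext i
    exact pow_eq_zero_iff two_ne_zero |>.mp (hx i (Finset.mem_univ i))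
  have hkx := poly_sum_sq_eq_zero hk
  -- degree in `x`
  have hd : ∀ i, (g i).natDegree ≤ 2 := natDegree_le_of_sum_sq hkx h (m := 2) (by
    refine (natDegree_add_le _ _).trans (max_le ((natDegree_add_le _ _).trans (max_le ?_ ?_)) ?_)
    · exact natDegree_C_mul_X_pow_le _ _
    · exact (natDegree_C_mul_X_pow_le _ _).trans (by norm_num)
    · rw [natDegree_C]
      omega)
  -- the coefficient of `x ^ 4`
  have h4 : ∑ i, (g i).coeff 2 ^ 2 = (Polynomial.X ^ 2 : k[X]) := by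
    have h2 := congrArg (fun p : k[X][X] => p.coeff (2 * 2)) h
    simp only [finsetSum_coeff, coeff_add, coeff_C_mul, coeff_X_pow, coeff_C] at h2
    norm_num at h2
    rw [← h2]
    exact Finset.sum_congr rfl fun i _ => (coeff_pow_of_natDegree_le (m := 2) (hd i)).symm
  have h22 : ∀ i, ((g i).coeff 2).coeff 2 = 0 := fun i =>
    coeff_eq_zero_of_natDegree_lt (lt_of_le_of_lt
      (natDegree_le_of_sum_sq hk h4 (m := 1) (by rw [natDegree_X_pow]) i) (by norm_num))
  -- the coefficient of `x ^ 0`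
  have h0 : ∑ i, (g i).coeff 0 ^ 2 = (1 : k[X]) := by
    have h2 := congrArg (fun p : k[X][X] => p.coeff 0) h
    simp only [finsetSum_coeff, coeff_add, coeff_C_mul, coeff_X_pow, coeff_C] at h2
    norm_num at h2
    rw [← h2]
    exact Finset.sum_congr rfl fun i _ => by rw [sq, sq, mul_coeff_zero]
  have h0' : ∀ i, ((g i).coeff 0).natDegree ≤ 0 :=
    natDegree_le_of_sum_sq hk h0 (m := 0) (by rw [natDegree_one])
  have h01 : ∀ i, ((g i).coeff 0).coeff 1 = 0 := fun i =>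
    coeff_eq_zero_of_natDegree_lt (lt_of_le_of_lt (h0' i) (by norm_num))
  have h02 : ∀ i, ((g i).coeff 0).coeff 2 = 0 := fun i =>
    coeff_eq_zero_of_natDegree_lt (lt_of_le_of_lt (h0' i) (by norm_num))
  -- `y = 0`
  have hy : ∑ i, (Polynomial.map (Polynomial.evalRingHom (0 : k)) (g i)) ^ 2 = 1 := by
    have h2 := congrArg (Polynomial.map (Polynomial.evalRingHom (0 : k))) h
    simp only [Polynomial.map_sum, Polynomial.map_pow, Polynomial.map_add, Polynomial.map_mul,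
      Polynomial.map_C, Polynomial.map_X] at h2
    rw [h2]
    simp
  have hy' : ∀ i, (Polynomial.map (Polynomial.evalRingHom (0 : k)) (g i)).natDegree ≤ 0 :=
    natDegree_le_of_sum_sq hk hy (m := 0) (by rw [natDegree_one])
  have h10 : ∀ i, ((g i).coeff 1).coeff 0 = 0 := by
    intro i
    have h2 := coeff_eq_zero_of_natDegree_lt (lt_of_le_of_lt (hy' i) (by norm_num : 0 < 1))
    rwa [coeff_map, coe_evalRingHom, ← coeff_zero_eq_eval_zero] at h2
  -- the coefficient of `x ^ 2 y ^ 2`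
  have h2 := congrArg (fun p : k[X][X] => (p.coeff 2).coeff 2) h
  simp only [finsetSum_coeff, coeff_add, coeff_C_mul, coeff_X_pow, coeff_C] at h2
  norm_num at h2
  have h3 : ∑ i, ((g i).coeff 1).coeff 1 ^ 2 = (-3 : k) := by
    rw [← h2]
    refine Finset.sum_congr rfl fun i _ => ?_
    rw [sq (g i), coeff_mul_two, coeff_add, coeff_add, coeff_mul_two, coeff_mul_two,
      coeff_mul_two, h22, h01, h02, h10]
    ring
  have h5 : 0 ≤ ∑ i, ((g i).coeff 1).coeff 1 ^ 2 := Finset.sum_nonneg fun i _ => sq_nonneg _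
  rw [h3] at h5
  linarith

end Uni

section Multi

open MvPolynomial

/-- Motzkin's polynomial. -/
noncomputable def motzkin (R : Type*) [CommRing R] : MvPolynomial (Fin 2) R :=
  X 0 ^ 4 * X 1 ^ 2 + X 0 ^ 2 * X 1 ^ 4 - 3 * X 0 ^ 2 * X 1 ^ 2 + 1

/-- Motzkin's polynomial is non-negative. -/
theorem motzkin_nonneg (c : Fin 2 → ℝ) : 0 ≤ eval c (motzkin ℝ) := by
  have h : eval c (motzkin ℝ) = c 0 ^ 4 * c 1 ^ 2 + c 0 ^ 2 * c 1 ^ 4 - 3 * c 0 ^ 2 * c 1 ^ 2 + 1 := by
    simp [motzkin]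
  rw [h]
  generalize c 0 = x
  generalize c 1 = y
  by_cases ht : x ^ 2 + y ^ 2 = 0
  · have hx : x = 0 := by nlinarith [sq_nonneg x, sq_nonneg y]
    rw [hx]
    norm_num
  · have ht' : 0 < (x ^ 2 + y ^ 2) ^ 2 := by positivity
    have key : (x ^ 2 + y ^ 2) ^ 2 * (x ^ 4 * y ^ 2 + x ^ 2 * y ^ 4 - 3 * x ^ 2 * y ^ 2 + 1) =
        (x ^ 2 * y * (x ^ 2 + y ^ 2 - 2)) ^ 2 + (x * y ^ 2 * (x ^ 2 + y ^ 2 - 2)) ^ 2 +
        (x * y * (x ^ 2 + y ^ 2 - 2)) ^ 2 + (x ^ 2 - y ^ 2) ^ 2 := by ring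
    have h0 : 0 ≤ (x ^ 2 + y ^ 2) ^ 2 *
        (x ^ 4 * y ^ 2 + x ^ 2 * y ^ 4 - 3 * x ^ 2 * y ^ 2 + 1) := by
      rw [key]
      positivity
    exact nonneg_of_mul_nonneg_right h0 ht'

/-- Motzkin's polynomial is a sum of four squares of rational functions. -/
theorem motzkin_four_sq (F : Type*) [Field F] :
    ∃ f : Fin 4 → FractionRing (MvPolynomial (Fin 2) F),
      ∑ i, f i ^ 2 = algebraMap _ _ (motzkin F) := by
  set K := FractionRing (MvPolynomial (Fin 2) F)
  set x : K := algebraMap (MvPolynomial (Fin 2) F) K (X 0) with hx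
  set y : K := algebraMap (MvPolynomial (Fin 2) F) K (X 1) with hy
  have ht : x ^ 2 + y ^ 2 ≠ 0 := by
    rw [hx, hy, ← map_pow, ← map_pow, ← map_add, Ne,
      map_eq_zero_iff _ (IsFractionRing.injective (MvPolynomial (Fin 2) F) K)]
    intro h
    have h1 := congrArg (eval (![1, 0] : Fin 2 → F)) h
    simp at h1
  refine ⟨![x ^ 2 * y * (x ^ 2 + y ^ 2 - 2) / (x ^ 2 + y ^ 2),
    x * y ^ 2 * (x ^ 2 + y ^ 2 - 2) / (x ^ 2 + y ^ 2),
    x * y * (x ^ 2 + y ^ 2 - 2) / (x ^ 2 + y ^ 2), (x ^ 2 - y ^ 2) / (x ^ 2 + y ^ 2)], ?_⟩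
  have h1 : algebraMap (MvPolynomial (Fin 2) F) K (motzkin F) =
      x ^ 4 * y ^ 2 + x ^ 2 * y ^ 4 - 3 * x ^ 2 * y ^ 2 + 1 := by
    rw [motzkin]
    simp only [map_add, map_sub, map_mul, map_pow, map_one, map_ofNat]
    rfl
  rw [h1, Fin.sum_univ_four]
  simp only [Matrix.cons_val_zero, Matrix.cons_val_one, Matrix.cons_val]
  field_simp
  ring

/-- **Motzkin's polynomial is not a sum of squares of polynomials.** -/
theorem motzkin_not_sum_sq {k : Type*} [Field k] [LinearOrder k] [IsStrictOrderedRing k]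
    {n : ℕ} (f : Fin n → MvPolynomial (Fin 2) k) : ∑ i, f i ^ 2 ≠ motzkin k := by
  intro h
  let φ : MvPolynomial (Fin 2) k →ₐ[k] Polynomial (Polynomial k) :=
    aeval ![Polynomial.X, Polynomial.C Polynomial.X]
  apply motzkin_poly_not_sum_sq fun i => φ (f i)
  have h1 := congrArg φ h
  rw [map_sum] at h1
  simp only [map_pow] at h1
  rw [h1, motzkin]
  simp only [map_add, map_sub, map_mul, map_pow, map_one, map_ofNat, φ, aeval_X,
    Matrix.cons_val_zero, Matrix.cons_val_one]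
  ring

end Multi

end Fermat.Agent.Cor.PF
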