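/-
POURCHET'S THEOREM, piece (A): a separable polynomial over a number field `L` with a root in every
completion above `2` takes at some point `a` of `L` a value which is no square in any completion
above `2`.
-/
import Fermat.Agent.LT.LocalGal

set_option autoImplicit false

namespace Fermat.Agent.Cor.PF

open Polynomial IsDedekindDomain NumberField
open Fermat.Agent.LT.Ext
open scoped Topology

section Local

variable {L : Type} [Field L] [NumberField L] {w : HeightOneSpectrum (𝓞 L)}

/-- Near a simple root the valuation of the values takes every large integral value; so there is a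
ball of points of `L` at which the value is no square. -/
theorem exists_local {f : L[X]} (hsep : f.Separable) {ρ : w.adicCompletion L}
    (hρ : (f.map (algebraMap L (w.adicCompletion L))).eval ρ = 0) :
    ∃ (x : L) (n : ℕ), ∀ a : L, w.valuation L (a - x) < WithZero.exp (-(n : ℤ)) →
      ¬ IsSquare (algebraMap L (w.adicCompletion L) (f.eval a)) := by
  obtain ⟨s, hs⟩ := dvd_iff_isRoot.2 hρ
  have hsepF : (f.map (algebraMap L (w.adicCompletion L))).Separable := hsep.map
  have hs0 : s.eval ρ ≠ 0 := by
    have h1 : (derivative (f.map (algebraMap L (w.adicCompletion L)))).eval ρ = s.eval ρ := by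
      rw [hs]
      simp [derivative_mul]
    rw [← h1]
    have h2 := hsepF.eval₂_derivative_ne_zero (RingHom.id _) (x := ρ) (by
      rw [eval₂_id]
      exact hρ)
    rwa [eval₂_id] at h2
  have hVs : Valued.v (s.eval ρ) ≠ 0 := (Valuation.ne_zero_iff _).mpr hs0
  have hcont : Continuous fun x : w.adicCompletion L => s.eval x := s.continuous
  have hnh : {z : w.adicCompletion L | Valued.v (z - s.eval ρ) < Valued.v (s.eval ρ)} ∈
      𝓝 (s.eval ρ) := mem_nhds_adic.mpr ⟨_, hVs, subset_rfl⟩
  obtain ⟨δ, hδ, hball⟩ := mem_nhds_adic.mp (hcont.continuousAt.preimage_mem_nhds hnh)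
  obtain ⟨n₀, hn₀⟩ := exists_exp_neg_lt hδ
  set e : ℤ := WithZero.log (Valued.v (s.eval ρ)) with he
  have hexp : Valued.v (s.eval ρ) = WithZero.exp e := (WithZero.exp_log hVs).symm
  obtain ⟨n, hn, hodd⟩ : ∃ n : ℕ, n₀ ≤ n ∧ ¬ (2 : ℤ) ∣ -(n : ℤ) + e := by
    by_cases h : (2 : ℤ) ∣ -(n₀ : ℤ) + e
    · refine ⟨n₀ + 1, Nat.le_succ _, ?_⟩
      push_cast
      omega
    · exact ⟨n₀, le_rfl, h⟩
  have hnδ : WithZero.exp (-(n : ℤ)) < δ := by
    refine lt_of_le_of_lt ?_ hn₀
    rw [WithZero.exp_le_exp]
    omega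
  obtain ⟨π, hπ⟩ := w.valuation_exists_uniformizer L
  obtain ⟨x, hx⟩ := exists_sub_lt (ρ + algebraMap L (w.adicCompletion L) π ^ n)
    (WithZero.exp_ne_zero (a := -(n : ℤ)))
  refine ⟨x, n, fun a ha => ?_⟩
  have hVπ : Valued.v (algebraMap L (w.adicCompletion L) π ^ n) = WithZero.exp (-(n : ℤ)) := by
    rw [map_pow, v_algebraMap, hπ, ← WithZero.exp_nsmul]
    congr 1
    simp
  have hVa : Valued.v (algebraMap L (w.adicCompletion L) a - ρ) = WithZero.exp (-(n : ℤ)) := by
    have h1 : algebraMap L (w.adicCompletion L) a - ρ =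
        (algebraMap L (w.adicCompletion L) (a - x) + (algebraMap L (w.adicCompletion L) x -
          (ρ + algebraMap L (w.adicCompletion L) π ^ n))) +
          algebraMap L (w.adicCompletion L) π ^ n := by
      rw [map_sub]
      ring
    have h2 : Valued.v (algebraMap L (w.adicCompletion L) (a - x) +
        (algebraMap L (w.adicCompletion L) x -
          (ρ + algebraMap L (w.adicCompletion L) π ^ n))) <
        Valued.v (algebraMap L (w.adicCompletion L) π ^ n) := by
      rw [hVπ]
      refine Valuation.map_add_lt _ ?_ hx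
      rw [v_algebraMap]
      exact ha
    rw [h1, Valuation.map_add_eq_of_lt_right _ h2, hVπ]
  have hVsa : Valued.v (s.eval (algebraMap L (w.adicCompletion L) a)) = WithZero.exp e := by
    have h1 : algebraMap L (w.adicCompletion L) a ∈
        {y : w.adicCompletion L | Valued.v (y - ρ) < δ} := by
      change Valued.v (algebraMap L (w.adicCompletion L) a - ρ) < δ
      rw [hVa]
      exact hnδ
    have h2 : Valued.v (s.eval (algebraMap L (w.adicCompletion L) a) - s.eval ρ) <
        Valued.v (s.eval ρ) := hball h1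
    have h3 := Valuation.map_add_eq_of_lt_right _ h2
    rw [sub_add_cancel] at h3
    rw [h3, hexp]
  have hval : algebraMap L (w.adicCompletion L) (f.eval a) =
      (algebraMap L (w.adicCompletion L) a - ρ) * s.eval (algebraMap L (w.adicCompletion L) a) := by
    have h1 : (f.map (algebraMap L (w.adicCompletion L))).eval
        (algebraMap L (w.adicCompletion L) a) = algebraMap L (w.adicCompletion L) (f.eval a) := by
      rw [eval_map, eval₂_at_apply]
    rw [← h1, hs, eval_mul, eval_sub, eval_X, eval_C]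
  rintro ⟨z, hz⟩
  have hV : Valued.v (algebraMap L (w.adicCompletion L) (f.eval a)) =
      WithZero.exp (-(n : ℤ) + e) := by
    rw [hval, map_mul, hVa, hVsa, WithZero.exp_add]
  have hV2 : Valued.v z * Valued.v z = WithZero.exp (-(n : ℤ) + e) := by
    rw [← map_mul, ← hz, hV]
  have hz0 : Valued.v z ≠ 0 := by
    intro h
    rw [h, mul_zero] at hV2
    exact WithZero.exp_ne_zero hV2.symm
  have h4 := congrArg WithZero.log hV2
  rw [WithZero.log_mul hz0 hz0, WithZero.log_exp] at h4
  exact hodd ⟨WithZero.log (Valued.v z), by rw [← h4]; ring⟩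

end Local

/-- The places above a non-zero natural number are finite in number. -/
theorem finite_above {L : Type} [Field L] [NumberField L] {N : ℕ} (hN : N ≠ 0) :
    {v : HeightOneSpectrum (𝓞 L) | (N : 𝓞 L) ∈ v.asIdeal}.Finite := by
  have hN0 : Ideal.span {(N : 𝓞 L)} ≠ ⊥ := by
    rw [Ne, Ideal.span_singleton_eq_bot]
    exact_mod_cast hN
  refine (Ideal.finite_factors hN0).subset fun v hv => ?_
  exact Ideal.dvd_span_singleton.mpr hv

/-- **(A)**: a separable polynomial over a number field with a root in every completion above `2`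
takes a value which is no square in any completion above `2`. -/
theorem exists_nonsquare_value {L : Type} [Field L] [NumberField L] {f : L[X]}
    (hsep : f.Separable)
    (h : ∀ w : HeightOneSpectrum (𝓞 L), ((2 : ℕ) : 𝓞 L) ∈ w.asIdeal →
      ∃ ρ : w.adicCompletion L, (f.map (algebraMap L (w.adicCompletion L))).eval ρ = 0) :
    ∃ a : L, ∀ w : HeightOneSpectrum (𝓞 L), ((2 : ℕ) : 𝓞 L) ∈ w.asIdeal →
      ¬ IsSquare (algebraMap L (w.adicCompletion L) (f.eval a)) := by
  classical
  have h1 : ∀ w : HeightOneSpectrum (𝓞 L), ∃ (x : L) (n : ℕ),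
      ((2 : ℕ) : 𝓞 L) ∈ w.asIdeal → ∀ a : L, w.valuation L (a - x) < WithZero.exp (-(n : ℤ)) →
        ¬ IsSquare (algebraMap L (w.adicCompletion L) (f.eval a)) := by
    intro w
    by_cases hw : ((2 : ℕ) : 𝓞 L) ∈ w.asIdeal
    · obtain ⟨ρ, hρ⟩ := h w hw
      obtain ⟨x, n, hx⟩ := exists_local hsep hρ
      exact ⟨x, n, fun _ => hx⟩
    · exact ⟨0, 0, fun h' => absurd h' hw⟩
  choose x n hxn using h1
  set T := (finite_above (L := L) (N := 2) two_ne_zero).toFinset with hT
  obtain ⟨a, ha⟩ := weak_approx T x (γ := WithZero.exp (-((∑ w ∈ T, n w : ℕ) : ℤ)))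
    WithZero.exp_ne_zero
  refine ⟨a, fun w hw => hxn w hw a ?_⟩
  have hwT : w ∈ T := by
    rw [hT, Set.Finite.mem_toFinset]
    exact hw
  refine (ha w hwT).trans_le ?_
  rw [WithZero.exp_le_exp]
  have h2 : n w ≤ ∑ w ∈ T, n w := Finset.single_le_sum (fun _ _ => Nat.zero_le _) hwT
  omega

end Fermat.Agent.Cor.PF
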