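import Fermat.Agent.LT.LocalGal
import Fermat.Agent.LT.Desc.Inp
import Fermat.Agent.CFT.Global.Places

/-!
# An extension of odd degree with a root at all places above `2`

`F` a number field, `x ∈ F` a root of `f ∈ ℚ[X]`, `W ∣ 2` a place of `F` of odd local degree: there is
a number field `L` of odd degree over `ℚ` such that `f` has a root in all completions `L_w`, `w ∣ 2`.
-/

set_option autoImplicit false

open IsDedekindDomain NumberField Polynomial
open scoped Pointwise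

namespace Fermat.Agent.Cor.PF

open Fermat.Agent.LT.Ext

section Card

variable {F N : Type} [Field F] [NumberField F] [Field N] [NumberField N] [Algebra F N]

omit [NumberField F] in
lemma liesOver_two (W : HeightOneSpectrum (𝓞 F)) (hW : ((2 : ℕ) : 𝓞 F) ∈ W.asIdeal) :
    W.asIdeal.LiesOver (Ideal.span {((2 : ℕ) : ℤ)}) := by
  have := W.isPrime
  refine ⟨?_⟩
  have h1 : Ideal.span {((2 : ℕ) : ℤ)} ≤ W.asIdeal.under ℤ := by
    rw [Ideal.span_singleton_le_iff_mem, Ideal.mem_comap, map_natCast]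
    exact hW
  exact (Ideal.IsMaximal.eq_of_le
    (PrincipalIdealRing.isMaximal_of_irreducible (Int.prime_two.irreducible))
    (Ideal.IsPrime.ne_top inferInstance) h1)

lemma card_stab_rel [IsGalois F N] (𝔓 : HeightOneSpectrum (𝓞 N)) :
    Nat.card (MulAction.stabilizer Gal(N/F) 𝔓.asIdeal) =
      𝔓.asIdeal.ramificationIdx (𝓞 F) * 𝔓.asIdeal.inertiaDeg (𝓞 F) := by
  have hlo : 𝔓.asIdeal.LiesOver (𝔓.under (𝓞 F)).asIdeal := ⟨rfl⟩
  have hvm : (𝔓.under (𝓞 F)).asIdeal.IsMaximal := (𝔓.under (𝓞 F)).isMaximal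
  have hwm : 𝔓.asIdeal.IsMaximal := 𝔓.isMaximal
  rw [Ideal.card_stabilizer_eq (G := Gal(N/F)) (𝔓.under (𝓞 F)).asIdeal 𝔓.asIdeal,
    Ideal.ramificationIdxIn_eq_ramificationIdx (𝔓.under (𝓞 F)).asIdeal 𝔓.asIdeal Gal(N/F),
    Ideal.inertiaDegIn_eq_inertiaDeg (𝔓.under (𝓞 F)).asIdeal 𝔓.asIdeal Gal(N/F)]

lemma card_stab_abs [IsGalois ℚ N] (𝔓 : HeightOneSpectrum (𝓞 N))
    (h2 : ((2 : ℕ) : 𝓞 N) ∈ 𝔓.asIdeal) :
    Nat.card (MulAction.stabilizer Gal(N/ℚ) 𝔓.asIdeal) =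
      𝔓.asIdeal.ramificationIdx ℤ * 𝔓.asIdeal.inertiaDeg ℤ := by
  have : Fact (Nat.Prime 2) := ⟨Nat.prime_two⟩
  have hlo := liesOver_two 𝔓 h2
  have hwm : 𝔓.asIdeal.IsMaximal := 𝔓.isMaximal
  rw [Ideal.card_stabilizer_eq (G := Gal(N/ℚ)) (Ideal.span {((2 : ℕ) : ℤ)}) 𝔓.asIdeal,
    Ideal.ramificationIdxIn_eq_ramificationIdx (Ideal.span {((2 : ℕ) : ℤ)}) 𝔓.asIdeal Gal(N/ℚ),
    Ideal.inertiaDegIn_eq_inertiaDeg (Ideal.span {((2 : ℕ) : ℤ)}) 𝔓.asIdeal Gal(N/ℚ)]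

/-- the decomposition groups in `Gal(N/ℚ)` and `Gal(N/F)` -/
lemma card_stab_mul [IsGalois ℚ N] [IsGalois F N] (𝔓 : HeightOneSpectrum (𝓞 N))
    (h2 : ((2 : ℕ) : 𝓞 N) ∈ 𝔓.asIdeal) :
    Nat.card (MulAction.stabilizer Gal(N/ℚ) 𝔓.asIdeal) =
      Nat.card (MulAction.stabilizer Gal(N/F) 𝔓.asIdeal) *
        ((𝔓.under (𝓞 F)).asIdeal.ramificationIdx ℤ * (𝔓.under (𝓞 F)).asIdeal.inertiaDeg ℤ) := by
  have hlo : 𝔓.asIdeal.LiesOver (𝔓.under (𝓞 F)).asIdeal := ⟨rfl⟩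
  rw [card_stab_abs 𝔓 h2, card_stab_rel (F := F) 𝔓,
    Ideal.ramificationIdx_tower (R := ℤ) (𝔓.under (𝓞 F)).asIdeal 𝔓.asIdeal,
    Ideal.inertiaDeg_tower (R := ℤ) (𝔓.under (𝓞 F)).asIdeal 𝔓.asIdeal]
  ring

/-- the orbit under the decomposition group -/
theorem odd_card_orbit [IsGalois ℚ N] [IsGalois F N] (𝔓 : HeightOneSpectrum (𝓞 N))
    (h2 : ((2 : ℕ) : 𝓞 N) ∈ 𝔓.asIdeal)
    (hodd : Odd ((𝔓.under (𝓞 F)).asIdeal.ramificationIdx ℤ *
      (𝔓.under (𝓞 F)).asIdeal.inertiaDeg ℤ)) (x : F) :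
    Odd (Nat.card (MulAction.orbit (MulAction.stabilizer Gal(N/ℚ) 𝔓.asIdeal)
      (algebraMap F N x))) := by
  have h1 : Nat.card (MulAction.orbit (MulAction.stabilizer Gal(N/ℚ) 𝔓.asIdeal)
      (algebraMap F N x)) * Nat.card (MulAction.stabilizer
        (MulAction.stabilizer Gal(N/ℚ) 𝔓.asIdeal) (algebraMap F N x)) =
      Nat.card (MulAction.stabilizer Gal(N/ℚ) 𝔓.asIdeal) := by
    rw [← Nat.card_prod]
    exact Nat.card_congr (MulAction.orbitProdStabilizerEquivGroup _ _)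
  let φ : MulAction.stabilizer Gal(N/F) 𝔓.asIdeal →*
      MulAction.stabilizer (MulAction.stabilizer Gal(N/ℚ) 𝔓.asIdeal) (algebraMap F N x) :=
    { toFun := fun h => ⟨⟨(h : Gal(N/F)).restrictScalars ℚ, h.2⟩, (h : Gal(N/F)).commutes x⟩
      map_one' := rfl
      map_mul' := fun _ _ => rfl }
  have hφ : Function.Injective φ := by
    intro a b hab
    apply Subtype.ext
    ext y
    have h3 := congrArg (fun z : MulAction.stabilizer (MulAction.stabilizer Gal(N/ℚ) 𝔓.asIdeal)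
      (algebraMap F N x) => ((z : MulAction.stabilizer Gal(N/ℚ) 𝔓.asIdeal) : Gal(N/ℚ)) y) hab
    exact h3
  obtain ⟨k, hk⟩ := Subgroup.card_dvd_of_injective φ hφ
  rw [card_stab_mul (F := F) 𝔓 h2, hk] at h1
  have h4 : 0 < Nat.card (MulAction.stabilizer Gal(N/F) 𝔓.asIdeal) := Nat.card_pos
  have h5 : Nat.card (MulAction.orbit (MulAction.stabilizer Gal(N/ℚ) 𝔓.asIdeal)
      (algebraMap F N x)) * k = (𝔓.under (𝓞 F)).asIdeal.ramificationIdx ℤ *
        (𝔓.under (𝓞 F)).asIdeal.inertiaDeg ℤ := by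
    apply Nat.eq_of_mul_eq_mul_left h4
    rw [← h1]
    ring
  rw [← h5, Nat.odd_mul] at hodd
  exact hodd.1

end Card

section Fixed

variable {N : Type} [Field N] [NumberField N]

/-- a conjugate of `z` fixed by the elements of a `2`-group in the decomposition group of `𝔔` -/
theorem exists_fixed {P : Subgroup Gal(N/ℚ)} (hP : IsPGroup 2 P) {𝔓 𝔔 : Ideal (𝓞 N)}
    {τ : Gal(N/ℚ)} (hτ : τ • 𝔓 = 𝔔) {z : N}
    (hodd : Odd (Nat.card (MulAction.orbit (MulAction.stabilizer Gal(N/ℚ) 𝔓) z))) :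
    ∃ y : N, (∃ g : Gal(N/ℚ), y = g z) ∧ ∀ h ∈ P, h • 𝔔 = 𝔔 → h y = y := by
  have : Fact (Nat.Prime 2) := ⟨Nat.prime_two⟩
  let φ : MulAction.stabilizer Gal(N/ℚ) 𝔓 →* Gal(N/ℚ) :=
    (MulAut.conj τ).toMonoidHom.comp (MulAction.stabilizer Gal(N/ℚ) 𝔓).subtype
  have hφ : Function.Injective φ :=
    (MulAut.conj τ).injective.comp (Subgroup.subtype_injective _)
  have hQ : IsPGroup 2 (P.comap φ) := hP.comap_of_injective φ hφ
  have : Finite (MulAction.orbit (MulAction.stabilizer Gal(N/ℚ) 𝔓) z) :=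
    Nat.finite_of_card_ne_zero (by
      rcases hodd with ⟨k, hk⟩
      omega)
  obtain ⟨⟨y, hy⟩, hfix⟩ := hQ.nonempty_fixed_point_of_prime_not_dvd_card
    (MulAction.orbit (MulAction.stabilizer Gal(N/ℚ) 𝔓) z) (by
      rw [← even_iff_two_dvd, Nat.not_even_iff_odd]
      exact hodd)
  refine ⟨τ y, ?_, fun h hh h𝔔 => ?_⟩
  · obtain ⟨d, rfl⟩ := hy
    exact ⟨τ * d, rfl⟩
  · have hd : τ⁻¹ * h * τ ∈ MulAction.stabilizer Gal(N/ℚ) 𝔓 := by
      rw [MulAction.mem_stabilizer_iff, mul_smul, mul_smul, hτ, h𝔔, ← hτ, inv_smul_smul]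
    have hd' : (⟨τ⁻¹ * h * τ, hd⟩ : MulAction.stabilizer Gal(N/ℚ) 𝔓) ∈ P.comap φ := by
      rw [Subgroup.mem_comap]
      change τ * (τ⁻¹ * h * τ) * τ⁻¹ ∈ P
      have h1 : τ * (τ⁻¹ * h * τ) * τ⁻¹ = h := by group
      rwa [h1]
    have h2 := hfix ⟨_, hd'⟩
    have h3 : (τ⁻¹ * h * τ) y = y := congrArg Subtype.val h2
    have h4 := congrArg τ h3
    have h5 : τ ((τ⁻¹ * h * τ) y) = h (τ y) := by
      rw [← AlgEquiv.mul_apply, ← AlgEquiv.mul_apply]
      congr 1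
      group
    rw [← h5]
    exact h4

end Fixed

/-- **An extension of odd degree with a root at all places above `2`.** -/
theorem exists_odd_extension {F : Type} [Field F] [NumberField F] {f : ℚ[X]} {x : F}
    (hx : Polynomial.aeval x f = 0) {W : HeightOneSpectrum (𝓞 F)}
    (hW : ((2 : ℕ) : 𝓞 F) ∈ W.asIdeal)
    (hodd : Odd (Ideal.ramificationIdx' (Ideal.span {(2 : ℤ)}) W.asIdeal *
      Ideal.inertiaDeg' (Ideal.span {(2 : ℤ)}) W.asIdeal)) :
    ∃ (L : Type) (_ : Field L) (_ : NumberField L), Odd (Module.finrank ℚ L) ∧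
      ∀ w : HeightOneSpectrum (𝓞 L), ((2 : ℕ) : 𝓞 L) ∈ w.asIdeal →
        ∃ ρ : w.adicCompletion L, (f.map (algebraMap ℚ (w.adicCompletion L))).eval ρ = 0 := by
  classical
  have : Fact (Nat.Prime 2) := ⟨Nat.prime_two⟩
  -- the Galois closure
  let N := IntermediateField.normalClosure ℚ F (AlgebraicClosure F)
  have : FiniteDimensional ℚ N := normalClosure.is_finiteDimensional ℚ F _
  have : NumberField N := NumberField.mk
  have : Algebra.IsAlgebraic ℚ (AlgebraicClosure F) := Algebra.IsAlgebraic.trans ℚ F _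
  have : IsAlgClosure ℚ (AlgebraicClosure F) := ⟨inferInstance, inferInstance⟩
  have : Normal ℚ (AlgebraicClosure F) := IsAlgClosure.normal ℚ (AlgebraicClosure F)
  have : Normal ℚ N := normalClosure.normal ℚ F _
  have : IsGalois ℚ N := IsGalois.mk
  have : IsGalois F N := IsGalois.tower_top_of_isGalois ℚ F N
  obtain ⟨P⟩ : Nonempty (Sylow 2 Gal(N/ℚ)) := inferInstance
  let L := IntermediateField.fixedField (P : Subgroup Gal(N/ℚ))
  have hL : IntermediateField.fixingSubgroup L = P := IntermediateField.fixingSubgroup_fixedField _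
  refine ⟨L, inferInstance, inferInstance, ?_, fun w hw => ?_⟩
  · have h1 : Module.finrank ℚ L * Nat.card P = Nat.card Gal(N/ℚ) := by
      rw [← IntermediateField.finrank_fixedField_eq_card (P : Subgroup Gal(N/ℚ)),
        IsGalois.card_aut_eq_finrank]
      exact Module.finrank_mul_finrank ℚ L N
    have h2 : Nat.card P * (P : Subgroup Gal(N/ℚ)).index = Nat.card Gal(N/ℚ) :=
      Subgroup.card_mul_index _
    have h3 : 0 < Nat.card P := Nat.card_pos
    have h4 : Module.finrank ℚ L = (P : Subgroup Gal(N/ℚ)).index := by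
      apply Nat.eq_of_mul_eq_mul_right h3
      rw [h1, ← h2, mul_comm]
    rw [h4, ← Nat.not_even_iff_odd, even_iff_two_dvd]
    exact P.not_dvd_index
  · -- places of `N`
    obtain ⟨𝔓, h𝔓⟩ := Fermat.Agent.CFT.Places.exists_below_eq N W
    obtain ⟨𝔔, h𝔔⟩ := Fermat.Agent.CFT.Places.exists_below_eq N w
    have h2𝔓 : ((2 : ℕ) : 𝓞 N) ∈ 𝔓.asIdeal := by
      rw [← h𝔓] at hW
      have h := Ideal.mem_comap.mp hW
      rwa [map_natCast] at h
    have h2𝔔 : ((2 : ℕ) : 𝓞 N) ∈ 𝔔.asIdeal := by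
      rw [← h𝔔] at hw
      have h := Ideal.mem_comap.mp hw
      rwa [map_natCast] at h
    have hlo1 := liesOver_two 𝔓 h2𝔓
    have hlo2 := liesOver_two 𝔔 h2𝔔
    have hp1 := 𝔓.isPrime
    have hp2 := 𝔔.isPrime
    obtain ⟨τ, hτ⟩ := Ideal.exists_smul_eq_of_isGaloisGroup (Ideal.span {((2 : ℕ) : ℤ)})
      𝔓.asIdeal 𝔔.asIdeal Gal(N/ℚ)
    have hoddW : Odd ((𝔓.under (𝓞 F)).asIdeal.ramificationIdx ℤ *
        (𝔓.under (𝓞 F)).asIdeal.inertiaDeg ℤ) := by
      rw [h𝔓]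
      have hloW : W.asIdeal.LiesOver (Ideal.span {(2 : ℤ)}) := liesOver_two W hW
      have hWm := W.isMaximal
      have h2m : (Ideal.span {(2 : ℤ)}).IsMaximal :=
        PrincipalIdealRing.isMaximal_of_irreducible (Int.prime_two.irreducible)
      rwa [Ideal.ramificationIdx'_eq_ramificationIdx (Ideal.span {(2 : ℤ)}) W.asIdeal (by simp),
        Ideal.inertiaDeg'_eq_inertiaDeg (Ideal.span {(2 : ℤ)}) W.asIdeal] at hodd
    obtain ⟨y, ⟨g, hg⟩, hy⟩ := exists_fixed (P.isPGroup') hτ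
      (odd_card_orbit (F := F) 𝔓 h2𝔓 hoddW x)
    have hroot : aeval y f = 0 := by
      have h1 : aeval (algebraMap F N x) f = 0 := by
        rw [aeval_algebraMap_apply, hx, map_zero]
      rw [hg]
      have h2 := aeval_algHom_apply (g : N →ₐ[ℚ] N) (algebraMap F N x) f
      rw [h1, map_zero] at h2
      exact h2
    have hlow : 𝔔.asIdeal.LiesOver w.asIdeal := ⟨by rw [← h𝔔]; rfl⟩
    obtain ⟨ρ, hρ⟩ := mem_range_of_fixed w 𝔔 Gal(N/L) (algebraMap N (𝔔.adicCompletion N) y)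
      fun σ => by
        rw [Compat.ext_algebraMap]
        congr 1
        refine hy ((σ : Gal(N/L)).restrictScalars ℚ) ?_ ?_
        · rw [← hL]
          rw [IntermediateField.mem_fixingSubgroup_iff]
          exact fun z hz => (σ : Gal(N/L)).commutes ⟨z, hz⟩
        · exact congrArg HeightOneSpectrum.asIdeal σ.2
    refine ⟨ρ, ?_⟩
    apply (compat_liesOver (K := L) (L := N) w 𝔔).injective_ext
    rw [map_zero, ← eval_map_apply, map_map, hρ]
    have h3 : (compat_liesOver (K := L) (L := N) w 𝔔).ext.comp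
        (algebraMap ℚ (w.adicCompletion L)) =
        (algebraMap N (𝔔.adicCompletion N)).comp (algebraMap ℚ N) := Subsingleton.elim _ _
    rw [h3, ← map_map, eval_map_apply, eval_map_algebraMap, hroot, map_zero]

end Fermat.Agent.Cor.PF
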