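import Fermat.Agent.Corollaries.PF.PythX

/-!
# Pourchet's theorem for number fields with one place above `2`
-/

set_option autoImplicit false
set_option maxHeartbeats 400000

open IsDedekindDomain NumberField Polynomial
open scoped Pointwise

namespace Fermat.Agent.Cor.PF

open Fermat.Agent.Cor.HM Fermat.Agent.Cor.QA Fermat.Agent.LT.Ext

section Card

variable {K F N : Type} [Field K] [NumberField K] [Field F] [NumberField F] [Field N]
  [NumberField N] [Algebra K F] [Algebra K N] [Algebra F N] [IsScalarTower K F N]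

/-- The decomposition groups in `Gal(N/K)` and `Gal(N/F)`. -/
lemma card_stab_mul_rel [IsGalois K N] [IsGalois F N] (𝔓 : HeightOneSpectrum (𝓞 N)) :
    Nat.card (MulAction.stabilizer Gal(N/K) 𝔓.asIdeal) =
      Nat.card (MulAction.stabilizer Gal(N/F) 𝔓.asIdeal) *
        ((𝔓.under (𝓞 F)).asIdeal.ramificationIdx (𝓞 K) *
          (𝔓.under (𝓞 F)).asIdeal.inertiaDeg (𝓞 K)) := by
  have hlo : 𝔓.asIdeal.LiesOver (𝔓.under (𝓞 F)).asIdeal := ⟨rfl⟩
  rw [card_stab_rel (F := K) 𝔓, card_stab_rel (F := F) 𝔓,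
    Ideal.ramificationIdx_tower (R := 𝓞 K) (𝔓.under (𝓞 F)).asIdeal 𝔓.asIdeal,
    Ideal.inertiaDeg_tower (R := 𝓞 K) (𝔓.under (𝓞 F)).asIdeal 𝔓.asIdeal]
  ring

/-- The orbit under the decomposition group in `Gal(N/K)`. -/
theorem odd_card_orbit_rel [IsGalois K N] [IsGalois F N] (𝔓 : HeightOneSpectrum (𝓞 N))
    (hodd : Odd ((𝔓.under (𝓞 F)).asIdeal.ramificationIdx (𝓞 K) *
      (𝔓.under (𝓞 F)).asIdeal.inertiaDeg (𝓞 K))) (x : F) :
    Odd (Nat.card (MulAction.orbit (MulAction.stabilizer Gal(N/K) 𝔓.asIdeal)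
      (algebraMap F N x))) := by
  have h1 : Nat.card (MulAction.orbit (MulAction.stabilizer Gal(N/K) 𝔓.asIdeal)
      (algebraMap F N x)) * Nat.card (MulAction.stabilizer
        (MulAction.stabilizer Gal(N/K) 𝔓.asIdeal) (algebraMap F N x)) =
      Nat.card (MulAction.stabilizer Gal(N/K) 𝔓.asIdeal) := by
    rw [← Nat.card_prod]
    exact Nat.card_congr (MulAction.orbitProdStabilizerEquivGroup _ _)
  let φ : MulAction.stabilizer Gal(N/F) 𝔓.asIdeal →*
      MulAction.stabilizer (MulAction.stabilizer Gal(N/K) 𝔓.asIdeal) (algebraMap F N x) :=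
    { toFun := fun h => ⟨⟨(h : Gal(N/F)).restrictScalars K, h.2⟩, (h : Gal(N/F)).commutes x⟩
      map_one' := rfl
      map_mul' := fun _ _ => rfl }
  have hφ : Function.Injective φ := by
    intro a b hab
    apply Subtype.ext
    ext y
    have h3 := congrArg (fun z : MulAction.stabilizer (MulAction.stabilizer Gal(N/K) 𝔓.asIdeal)
      (algebraMap F N x) => ((z : MulAction.stabilizer Gal(N/K) 𝔓.asIdeal) : Gal(N/K)) y) hab
    exact h3
  obtain ⟨k, hk⟩ := Subgroup.card_dvd_of_injective φ hφ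
  rw [card_stab_mul_rel (F := F) 𝔓, hk] at h1
  have h4 : 0 < Nat.card (MulAction.stabilizer Gal(N/F) 𝔓.asIdeal) := Nat.card_pos
  have h5 : Nat.card (MulAction.orbit (MulAction.stabilizer Gal(N/K) 𝔓.asIdeal)
      (algebraMap F N x)) * k = (𝔓.under (𝓞 F)).asIdeal.ramificationIdx (𝓞 K) *
        (𝔓.under (𝓞 F)).asIdeal.inertiaDeg (𝓞 K) := by
    apply Nat.eq_of_mul_eq_mul_left h4
    rw [← h1]
    ring
  rw [← h5, Nat.odd_mul] at hodd
  exact hodd.1

/-- A conjugate of `z` fixed by the elements of a `2`-group in the decomposition group of `𝔔`. -/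
theorem exists_fixed_rel {P : Subgroup Gal(N/K)} (hP : IsPGroup 2 P) {𝔓 𝔔 : Ideal (𝓞 N)}
    {τ : Gal(N/K)} (hτ : τ • 𝔓 = 𝔔) {z : N}
    (hodd : Odd (Nat.card (MulAction.orbit (MulAction.stabilizer Gal(N/K) 𝔓) z))) :
    ∃ y : N, (∃ g : Gal(N/K), y = g z) ∧ ∀ h ∈ P, h • 𝔔 = 𝔔 → h y = y := by
  have : Fact (Nat.Prime 2) := ⟨Nat.prime_two⟩
  let φ : MulAction.stabilizer Gal(N/K) 𝔓 →* Gal(N/K) :=
    (MulAut.conj τ).toMonoidHom.comp (MulAction.stabilizer Gal(N/K) 𝔓).subtype
  have hφ : Function.Injective φ :=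
    (MulAut.conj τ).injective.comp (Subgroup.subtype_injective _)
  have hQ : IsPGroup 2 (P.comap φ) := hP.comap_of_injective φ hφ
  have : Finite (MulAction.orbit (MulAction.stabilizer Gal(N/K) 𝔓) z) :=
    Nat.finite_of_card_ne_zero (by
      rcases hodd with ⟨k, hk⟩
      omega)
  obtain ⟨⟨y, hy⟩, hfix⟩ := hQ.nonempty_fixed_point_of_prime_not_dvd_card
    (MulAction.orbit (MulAction.stabilizer Gal(N/K) 𝔓) z) (by
      rw [← even_iff_two_dvd, Nat.not_even_iff_odd]
      exact hodd)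
  refine ⟨τ y, ?_, fun h hh h𝔔 => ?_⟩
  · obtain ⟨d, rfl⟩ := hy
    exact ⟨τ * d, rfl⟩
  · have hd : τ⁻¹ * h * τ ∈ MulAction.stabilizer Gal(N/K) 𝔓 := by
      rw [MulAction.mem_stabilizer_iff, mul_smul, mul_smul, hτ, h𝔔, ← hτ, inv_smul_smul]
    have hd' : (⟨τ⁻¹ * h * τ, hd⟩ : MulAction.stabilizer Gal(N/K) 𝔓) ∈ P.comap φ := by
      rw [Subgroup.mem_comap]
      change τ * (τ⁻¹ * h * τ) * τ⁻¹ ∈ P
      have h1 : τ * (τ⁻¹ * h * τ) * τ⁻¹ = h := by group
      rwa [h1]
    have h2 := hfix ⟨_, hd'⟩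
    have h3 : (τ⁻¹ * h * τ) y = y := congrArg Subtype.val h2
    have h4 := congrArg τ h3
    have h5 : τ ((τ⁻¹ * h * τ) y) = h (τ y) := by
      rw [← AlgEquiv.mul_apply, ← AlgEquiv.mul_apply]
      congr 1
      group
    rw [← h5]
    exact h4

end Card

/-- **An extension of odd degree with a root at all places above `2`**, `K` with one place above `2`. -/
theorem exists_odd_extension_rel {K F : Type} [Field K] [NumberField K] [Field F] [NumberField F]
    [Algebra K F]
    (hone : ∀ v v' : HeightOneSpectrum (𝓞 K), ((2 : ℕ) : 𝓞 K) ∈ v.asIdeal →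
      ((2 : ℕ) : 𝓞 K) ∈ v'.asIdeal → v = v') {f : K[X]} {x : F}
    (hx : Polynomial.aeval x f = 0) {W : HeightOneSpectrum (𝓞 F)}
    (hW : ((2 : ℕ) : 𝓞 F) ∈ W.asIdeal)
    (hodd : Odd (Ideal.ramificationIdx' (Ideal.span {(2 : ℤ)}) W.asIdeal *
      Ideal.inertiaDeg' (Ideal.span {(2 : ℤ)}) W.asIdeal)) :
    ∃ (L : Type) (_ : Field L) (_ : NumberField L) (_ : Algebra K L), Odd (Module.finrank K L) ∧
      ∀ w : HeightOneSpectrum (𝓞 L), ((2 : ℕ) : 𝓞 L) ∈ w.asIdeal →
        ∃ ρ : w.adicCompletion L,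
          ((f.map (algebraMap K L)).map (algebraMap L (w.adicCompletion L))).eval ρ = 0 := by
  classical
  have : Fact (Nat.Prime 2) := ⟨Nat.prime_two⟩
  -- the Galois closure
  let N := IntermediateField.normalClosure K F (AlgebraicClosure F)
  have : FiniteDimensional K N := normalClosure.is_finiteDimensional K F _
  have : NumberField N := NumberField.of_module_finite K N
  have : Algebra.IsAlgebraic K (AlgebraicClosure F) := Algebra.IsAlgebraic.trans K F _
  have : IsAlgClosure K (AlgebraicClosure F) := ⟨inferInstance, inferInstance⟩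
  have : Normal K (AlgebraicClosure F) := IsAlgClosure.normal K (AlgebraicClosure F)
  have : Normal K N := normalClosure.normal K F _
  have : IsGalois K N := IsGalois.mk
  have : IsGalois F N := IsGalois.tower_top_of_isGalois K F N
  obtain ⟨P⟩ : Nonempty (Sylow 2 Gal(N/K)) := inferInstance
  let L := IntermediateField.fixedField (P : Subgroup Gal(N/K))
  have hL : IntermediateField.fixingSubgroup L = P := IntermediateField.fixingSubgroup_fixedField _
  have : NumberField L := NumberField.of_module_finite K L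
  refine ⟨L, inferInstance, inferInstance, inferInstance, ?_, fun w hw => ?_⟩
  · have h1 : Module.finrank K L * Nat.card P = Nat.card Gal(N/K) := by
      rw [← IntermediateField.finrank_fixedField_eq_card (P : Subgroup Gal(N/K)),
        IsGalois.card_aut_eq_finrank]
      exact Module.finrank_mul_finrank K L N
    have h2 : Nat.card P * (P : Subgroup Gal(N/K)).index = Nat.card Gal(N/K) :=
      Subgroup.card_mul_index _
    have h3 : 0 < Nat.card P := Nat.card_pos
    have h4 : Module.finrank K L = (P : Subgroup Gal(N/K)).index := by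
      apply Nat.eq_of_mul_eq_mul_right h3
      rw [h1, ← h2, mul_comm]
    rw [h4, ← Nat.not_even_iff_odd, even_iff_two_dvd]
    exact P.not_dvd_index
  · -- places of `N`
    obtain ⟨𝔓, h𝔓⟩ := Fermat.Agent.CFT.Places.exists_below_eq N W
    obtain ⟨𝔔, h𝔔⟩ := Fermat.Agent.CFT.Places.exists_below_eq N w
    have h2𝔓 : ((2 : ℕ) : 𝓞 N) ∈ 𝔓.asIdeal := by
      have hW' := hW
      rw [← h𝔓] at hW'
      have h := Ideal.mem_comap.mp hW'
      rwa [map_natCast] at h
    have h2𝔔 : ((2 : ℕ) : 𝓞 N) ∈ 𝔔.asIdeal := by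
      rw [← h𝔔] at hw
      have h := Ideal.mem_comap.mp hw
      rwa [map_natCast] at h
    have hvv : 𝔓.under (𝓞 K) = 𝔔.under (𝓞 K) := hone _ _
      (by refine Ideal.mem_comap.mpr ?_; rw [map_natCast]; exact h2𝔓)
      (by refine Ideal.mem_comap.mpr ?_; rw [map_natCast]; exact h2𝔔)
    have hlo1 : 𝔓.asIdeal.LiesOver (𝔓.under (𝓞 K)).asIdeal := ⟨rfl⟩
    have hlo2 : 𝔔.asIdeal.LiesOver (𝔓.under (𝓞 K)).asIdeal := by rw [hvv]; exact ⟨rfl⟩
    have hp1 := 𝔓.isPrime
    have hp2 := 𝔔.isPrime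
    obtain ⟨τ, hτ⟩ := Ideal.exists_smul_eq_of_isGaloisGroup (𝔓.under (𝓞 K)).asIdeal
      𝔓.asIdeal 𝔔.asIdeal Gal(N/K)
    have hoddW : Odd ((𝔓.under (𝓞 F)).asIdeal.ramificationIdx (𝓞 K) *
        (𝔓.under (𝓞 F)).asIdeal.inertiaDeg (𝓞 K)) := by
      rw [h𝔓]
      have hloW : W.asIdeal.LiesOver (Ideal.span {(2 : ℤ)}) := liesOver_two W hW
      have hWm := W.isMaximal
      have h2m : (Ideal.span {(2 : ℤ)}).IsMaximal :=
        PrincipalIdealRing.isMaximal_of_irreducible (Int.prime_two.irreducible)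
      rw [Ideal.ramificationIdx'_eq_ramificationIdx (Ideal.span {(2 : ℤ)}) W.asIdeal (by simp),
        Ideal.inertiaDeg'_eq_inertiaDeg (Ideal.span {(2 : ℤ)}) W.asIdeal] at hodd
      have hloK : W.asIdeal.LiesOver (W.under (𝓞 K)).asIdeal := ⟨rfl⟩
      rw [Ideal.ramificationIdx_tower (R := ℤ) (W.under (𝓞 K)).asIdeal W.asIdeal,
        Ideal.inertiaDeg_tower (R := ℤ) (W.under (𝓞 K)).asIdeal W.asIdeal] at hodd
      rw [mul_mul_mul_comm, Nat.odd_mul] at hodd
      exact hodd.2
    obtain ⟨y, ⟨g, hg⟩, hy⟩ := exists_fixed_rel (P.isPGroup') hτ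
      (odd_card_orbit_rel (F := F) 𝔓 hoddW x)
    have hroot : aeval y f = 0 := by
      have h1 : aeval (algebraMap F N x) f = 0 := by
        rw [aeval_algebraMap_apply, hx, map_zero]
      rw [hg]
      have h2 := aeval_algHom_apply (g : N →ₐ[K] N) (algebraMap F N x) f
      rw [h1, map_zero] at h2
      exact h2
    have hlow : 𝔔.asIdeal.LiesOver w.asIdeal := ⟨by rw [← h𝔔]; rfl⟩
    obtain ⟨ρ, hρ⟩ := mem_range_of_fixed w 𝔔 Gal(N/L) (algebraMap N (𝔔.adicCompletion N) y)
      fun σ => by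
        rw [Compat.ext_algebraMap]
        congr 1
        refine hy ((σ : Gal(N/L)).restrictScalars K) ?_ ?_
        · rw [← hL]
          rw [IntermediateField.mem_fixingSubgroup_iff]
          exact fun z hz => (σ : Gal(N/L)).commutes ⟨z, hz⟩
        · exact congrArg HeightOneSpectrum.asIdeal σ.2
    refine ⟨ρ, ?_⟩
    apply (compat_liesOver (K := L) (L := N) w 𝔔).injective_ext
    rw [map_zero, ← eval_map_apply, map_map, map_map, hρ]
    have h3 : ((compat_liesOver (K := L) (L := N) w 𝔔).ext.comp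
        (algebraMap L (w.adicCompletion L))).comp (algebraMap K L) =
        (algebraMap N (𝔔.adicCompletion N)).comp (algebraMap K N) := by
      ext z
      rw [RingHom.comp_apply, RingHom.comp_apply, Compat.ext_algebraMap]
      rfl
    rw [h3, ← map_map, eval_map_apply, eval_map_algebraMap, hroot, map_zero]

section Main

variable {K : Type} [Field K] [NumberField K]

/-- A squarefree polynomial of degree `4 k + 2` with positive values is a sum of five squares. -/
theorem pourchet_of_squarefree_rel (hreal : Nonempty (K →+* ℝ))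
    (hone : ∀ v v' : HeightOneSpectrum (𝓞 K), ((2 : ℕ) : 𝓞 K) ∈ v.asIdeal →
      ((2 : ℕ) : 𝓞 K) ∈ v'.asIdeal → v = v') {f : K[X]} (hsep : f.Separable)
    (hpos : ∀ (σ : K →+* ℝ) (t : ℝ), 0 < (f.map σ).eval t) {k : ℕ}
    (hk : f.natDegree = 4 * k + 2) : SumSq 5 (algebraMap K[X] (RatFunc K) f) := by
  by_cases hloc : ∀ (F : Type) [Field F] [NumberField F] (φ : K →+* F) (x : F)
      (W : HeightOneSpectrum (𝓞 F)),
      ((2 : ℕ) : 𝓞 F) ∈ W.asIdeal → (f.map φ).eval x = 0 →
      ∃ u v : W.adicCompletion F, u ^ 2 + v ^ 2 = -1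
  · exact (sumSq_four_of_local hreal hpos hloc).mono (by norm_num)
  push Not at hloc
  obtain ⟨F, _, _, φ, x, W, hW, hx, hns⟩ := hloc
  let _ := φ.toAlgebra
  have hns' : ¬ ∃ u v : W.adicCompletion F, u ^ 2 + v ^ 2 = -1 := by
    rintro ⟨u, v, h⟩
    exact hns u v h
  rw [adic_iff_even hW, Nat.not_even_iff_odd] at hns'
  have hx' : aeval x f = 0 := by
    rw [aeval_def, ← eval_map, ← hx]
    rfl
  obtain ⟨L, _, _, _, hodd, hL⟩ := exists_odd_extension_rel hone hx' hW hns'
  set f' : L[X] := f.map (algebraMap K L) with hf'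
  obtain ⟨a, ha⟩ := exists_nonsquare_value (f := f') hsep.map hL
  have h5 : SumSq 5 (algebraMap L[X] (RatFunc L) f') := by
    rcases isEmpty_or_nonempty (L →+* ℝ) with hE | hE
    · exact sumSq_of_no_real hE f'
    · refine five_of_nonsquare hE (fun σ t => ?_) (k := k) (by rw [hf', natDegree_map, hk]) ha
      rw [hf', Polynomial.map_map]
      exact hpos _ t
  have h6 := (sum_sq_poly_iff (RatFunc L) two_ne_zero 5 f').mp h5
  have : Module.Finite K L := Module.finite_of_finrank_pos hodd.pos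
  exact (sum_sq_poly_iff (RatFunc K) two_ne_zero 5 f).mpr (sumSq_descent hodd f h6)

theorem pourchet_aux_rel (hreal : Nonempty (K →+* ℝ))
    (hone : ∀ v v' : HeightOneSpectrum (𝓞 K), ((2 : ℕ) : 𝓞 K) ∈ v.asIdeal →
      ((2 : ℕ) : 𝓞 K) ∈ v'.asIdeal → v = v') (n : ℕ) : ∀ f : K[X], f.natDegree < n →
    Psd f → SumSq 5 (algebraMap K[X] (RatFunc K) f) := by
  induction n with
  | zero => exact fun f h => absurd h (Nat.not_lt_zero _)
  | succ n ih =>
    intro f hn hpsd
    by_cases hf0 : f = 0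
    · rw [hf0, map_zero]
      exact sumSq_zero 5
    by_cases hsq : Squarefree f
    · have hpos := pos_of_squarefree hf0 hsq hpsd
      obtain ⟨m, N, hm, -⟩ := exists_bound hreal hpos
      rcases Nat.even_or_odd' m with ⟨k, hk | hk⟩
      · exact five_of_pos hreal hpos (k := k) (by omega)
      · exact pourchet_of_squarefree_rel hreal hone
          ((PerfectField.separable_iff_squarefree).mpr hsq) hpos (k := k) (by omega)
    · obtain ⟨p, hp, g, rfl⟩ : ∃ p : K[X], Irreducible p ∧ p * p ∣ f := by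
        rw [squarefree_iff_irreducible_sq_not_dvd_of_ne_zero hf0] at hsq
        push Not at hsq
        exact hsq
      have hg0 : g ≠ 0 := right_ne_zero_of_mul hf0
      rw [natDegree_mul (mul_ne_zero hp.ne_zero hp.ne_zero) hg0,
        natDegree_mul hp.ne_zero hp.ne_zero] at hn
      rw [← sq] at hpsd ⊢
      have hpd := hp.natDegree_pos
      have h1 := (ih g (by omega) (psd_of_sq_mul hp.ne_zero hpsd)).mul_sq
        (algebraMap K[X] (RatFunc K) p)
      rw [map_mul, map_pow, mul_comm]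
      exact h1

/-- **Pourchet's theorem for a number field `K` with one place above `2`**: `f ∈ K[X]` is a sum of five
squares in `K[X]` iff `f^σ(t) ≥ 0` for all real embeddings `σ` of `K` and all real `t`. -/
theorem pourchet_of_one_place (hone : ∀ v v' : HeightOneSpectrum (𝓞 K),
      ((2 : ℕ) : 𝓞 K) ∈ v.asIdeal → ((2 : ℕ) : 𝓞 K) ∈ v'.asIdeal → v = v') (f : K[X]) :
    (∃ g : Fin 5 → K[X], ∑ i, g i ^ 2 = f) ↔
      ∀ (σ : K →+* ℝ) (t : ℝ), 0 ≤ (f.map σ).eval t := by
  constructor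
  · rintro ⟨g, rfl⟩ σ t
    rw [Polynomial.map_sum, eval_finsetSum]
    refine Finset.sum_nonneg fun i _ => ?_
    rw [Polynomial.map_pow, eval_pow]
    exact sq_nonneg _
  · intro h
    rw [← sum_sq_poly_iff (RatFunc K) two_ne_zero]
    rcases isEmpty_or_nonempty (K →+* ℝ) with hE | hE
    · exact sumSq_of_no_real hE f
    · exact pourchet_aux_rel hE hone _ f (Nat.lt_succ_self _) h

/-- The Pythagoras number of `K(X)`, `K` a number field with a real embedding and one place above `2`,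
is `5` if the local degree of this place is odd (for example if `K` has odd degree). -/
theorem pyth_ratFunc_of_one_place (hreal : Nonempty (K →+* ℝ))
    (hone : ∀ v v' : HeightOneSpectrum (𝓞 K), ((2 : ℕ) : 𝓞 K) ∈ v.asIdeal →
      ((2 : ℕ) : 𝓞 K) ∈ v'.asIdeal → v = v') {v : HeightOneSpectrum (𝓞 K)}
    (hv : ((2 : ℕ) : 𝓞 K) ∈ v.asIdeal)
    (hodd : Odd (Ideal.ramificationIdx' (Ideal.span {(2 : ℤ)}) v.asIdeal *
      Ideal.inertiaDeg' (Ideal.span {(2 : ℤ)}) v.asIdeal)) : pyth (RatFunc K) = 5 := by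
  have h5 : PythLE (RatFunc K) 5 := pythLE_ratFunc two_ne_zero fun m g =>
    (sum_sq_poly_iff (RatFunc K) two_ne_zero 5 _).mpr ((pourchet_of_one_place hone _).mpr
      fun σ t => by
        rw [Polynomial.map_sum, eval_finsetSum]
        refine Finset.sum_nonneg fun i _ => ?_
        rw [Polynomial.map_pow, eval_pow]
        exact sq_nonneg _)
  have h1 := (pyth_le_iff h5).mpr h5
  obtain ⟨h2, h3⟩ := pyth_ratFunc_of_real hreal
  have h4 : pyth (RatFunc K) ≠ 4 := fun h =>
    Nat.not_even_iff_odd.mpr hodd (h3.mp h v hv)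
  omega

end Main

end Fermat.Agent.Cor.PF
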