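import Fermat.Agent.Corollaries.PF.Five
import Fermat.Agent.Corollaries.QA.Cyclotomic

/-!
# Pourchet's theorem: the local and the analytic part

`five_of_nonsquare`: let `K` be a number field and `f ∈ K[X]` of degree `4 k + 2` with `f^σ(t) > 0` for all
`σ`, `t`. If `f(a)` is not a square in `K_w` for every `w ∣ 2` for some `a ∈ K` then `f` is a sum of five
squares in `K(X)`.
-/

set_option autoImplicit false
set_option maxHeartbeats 400000

namespace Fermat.Agent.Cor.PF

open Polynomial IsDedekindDomain NumberField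
open Fermat.Agent.Cor.HM Fermat.Agent.Cor.QA Fermat.Agent.LT.Ext

section Local

variable {F : Type} [Field F] [NumberField F] {W : HeightOneSpectrum (𝓞 F)}

/-- The difference of two values of a polynomial. -/
lemma v_eval_sub_le {P : (W.adicCompletion F)[X]} {n : ℕ} (hn : P.natDegree ≤ n + 1)
    {B A : WithZero (Multiplicative ℤ)} (hB : ∀ i, Valued.v (P.coeff i) ≤ B) (hA : 1 ≤ A)
    {x a : W.adicCompletion F} (hx : Valued.v x ≤ A) (ha : Valued.v a ≤ A) :
    Valued.v (P.eval x - P.eval a) ≤ Valued.v (x - a) * (B * A ^ n) := by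
  rw [eval_eq_sum_range, eval_eq_sum_range, ← Finset.sum_sub_distrib]
  refine Valuation.map_sum_le _ fun i hi => ?_
  have hi' : i ≤ n + 1 := by
    rw [Finset.mem_range] at hi
    omega
  rw [← mul_sub, ← geom_sum₂_mul, map_mul, map_mul]
  have h1 : Valued.v (∑ j ∈ Finset.range i, x ^ j * a ^ (i - 1 - j)) ≤ A ^ n := by
    refine Valuation.map_sum_le _ fun j hj => ?_
    rw [Finset.mem_range] at hj
    rw [map_mul, map_pow, map_pow]
    calc Valued.v x ^ j * Valued.v a ^ (i - 1 - j) ≤ A ^ j * A ^ (i - 1 - j) :=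
          mul_le_mul' (pow_le_pow_left₀ zero_le hx _) (pow_le_pow_left₀ zero_le ha _)
      _ = A ^ (i - 1) := by
          rw [← pow_add]
          congr 1
          omega
      _ ≤ A ^ n := pow_le_pow_right₀ hA (by omega)
  calc Valued.v (P.coeff i) * (Valued.v (∑ j ∈ Finset.range i, x ^ j * a ^ (i - 1 - j)) *
        Valued.v (x - a)) ≤ B * (A ^ n * Valued.v (x - a)) :=
        mul_le_mul' (hB i) (mul_le_mul' h1 le_rfl)
    _ = Valued.v (x - a) * (B * A ^ n) := by rw [← mul_assoc, mul_comm]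

/-- A root of `f - (β (x - a) (x ^ 2 + x + 1) ^ k) ^ 2` is close to `a` for large `β`, and `f(a)` is a
square. -/
lemma isSquare_of_root (hW : ((2 : ℕ) : 𝓞 F) ∈ W.asIdeal)
    (hns : ¬ ∃ u v : W.adicCompletion F, u ^ 2 + v ^ 2 = -1) {k : ℕ}
    {P : (W.adicCompletion F)[X]} (hP : P.natDegree ≤ 4 * k + 2)
    {B A : WithZero (Multiplicative ℤ)} (hB : ∀ i, Valued.v (P.coeff i) ≤ B) (hB1 : 1 ≤ B)
    (hA : 1 ≤ A) {β a x : W.adicCompletion F} (ha : Valued.v a ≤ A)
    (hβ : B < Valued.v β ^ 2)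
    (hβ' : (Valued.v β)⁻¹ * (B ^ 2 * A ^ (4 * k + 2)) <
      Valued.v (4 : W.adicCompletion F) * Valued.v (P.eval a))
    (h : P.eval x = (β * (x - a) * (x ^ 2 + x + 1) ^ k) ^ 2) : IsSquare (P.eval a) := by
  have h4 : Valued.v (4 : W.adicCompletion F) ≤ 1 := by
    have := v_nat_le (W := W) 4
    exact_mod_cast this
  have hPa : P.eval a ≠ 0 := by
    intro h0
    rw [h0, map_zero, mul_zero] at hβ'
    exact absurd hβ' (not_lt_of_ge zero_le)
  have hβ0 : Valued.v β ≠ 0 := by
    intro h0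
    rw [h0, zero_pow two_ne_zero] at hβ
    exact absurd hβ (not_lt_of_ge zero_le)
  set M := max 1 (Valued.v x) with hM
  have hM1 : 1 ≤ M := le_max_left _ _
  have hM0 : 0 < M ^ (4 * k) := lt_of_lt_of_le zero_lt_one (one_le_pow₀ hM1)
  have h1 := v_eval_le hP hB x
  have h2 : Valued.v (P.eval x) = (Valued.v β * Valued.v (x - a)) ^ 2 * M ^ (4 * k) := by
    rw [h, map_pow, map_mul, map_mul, map_pow, v_quad hW hns, mul_pow, ← pow_mul, ← pow_mul]
    congr 2
    ring
  rw [h2, ← hM, pow_add, mul_comm (M ^ (4 * k)), ← mul_assoc] at h1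
  have h3 : (Valued.v β * Valued.v (x - a)) ^ 2 ≤ B * M ^ 2 := le_of_mul_le_mul_right h1 hM0
  have hMA : M ≤ A := by
    refine max_le hA ?_
    by_contra hlt
    push Not at hlt
    have h5 : Valued.v (x - a) = Valued.v x :=
      Valuation.map_sub_eq_of_lt_left _ (lt_of_le_of_lt ha hlt)
    have h6 : M = Valued.v x := max_eq_right (hA.trans hlt.le)
    rw [h5, h6, mul_pow] at h3
    have h7 : 0 < Valued.v x ^ 2 := pow_pos (lt_of_lt_of_le (lt_of_lt_of_le zero_lt_one hA) hlt.le) 2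
    exact absurd (le_of_mul_le_mul_right h3 h7) (not_le_of_gt hβ)
  have h5 : Valued.v β * Valued.v (x - a) ≤ B * A := by
    refine le_of_pow_le_pow_left₀ two_ne_zero zero_le (h3.trans ?_)
    rw [mul_pow]
    refine mul_le_mul' ?_ (pow_le_pow_left₀ zero_le hMA 2)
    rw [sq]
    exact le_mul_of_one_le_right' hB1
  have h6 : Valued.v (x - a) ≤ (Valued.v β)⁻¹ * (B * A) := by
    rw [le_inv_mul_iff₀ (zero_lt_iff.mpr hβ0)]
    exact h5
  have h7 := v_eval_sub_le (n := 4 * k + 1) hP hB hA ((le_max_right _ _).trans hMA) ha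
  have h8 : Valued.v (P.eval x - P.eval a) <
      Valued.v (4 : W.adicCompletion F) * Valued.v (P.eval a) := by
    refine lt_of_le_of_lt (h7.trans ((mul_le_mul' h6 le_rfl).trans (le_of_eq ?_))) hβ'
    rw [show A ^ (4 * k + 2) = A * A ^ (4 * k + 1) from pow_succ' A (4 * k + 1), sq]
    ac_rfl
  have h9 : Valued.v (P.eval x / P.eval a - 1) < Valued.v (4 : W.adicCompletion F) := by
    have e : P.eval x / P.eval a - 1 = (P.eval x - P.eval a) / P.eval a := by
      field_simp
    rw [e, map_div₀, div_lt_iff₀ (zero_lt_iff.mpr ((Valuation.ne_zero_iff _).mpr hPa))]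
    exact h8
  have h10 : IsSquare (P.eval x / P.eval a) := isSquare_of_near h9
  have h11 : P.eval x ≠ 0 := by
    intro h0
    rw [h0, zero_div, zero_sub, Valuation.map_neg, map_one] at h9
    exact absurd h9 (not_lt_of_ge h4)
  have h12 : IsSquare (P.eval x) := ⟨β * (x - a) * (x ^ 2 + x + 1) ^ k, by rw [h, sq]⟩
  have h13 : P.eval a = P.eval x / (P.eval x / P.eval a) := by
    field_simp
  rw [h13]
  exact h12.div h10

lemma v_inv_le {F : Type} [Field F] [NumberField F] (W : HeightOneSpectrum (𝓞 F)) {K : Type}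
    [Field K] (φ : K →+* F) {D : ℕ} (hD : D ≠ 0) {c : K} (hc : IsIntegral ℤ ((D : K) * c)) :
    Valued.v (algebraMap F (W.adicCompletion F) (φ c)) ≤
      (Valued.v (D : W.adicCompletion F))⁻¹ := by
  have hD0 : (D : W.adicCompletion F) ≠ 0 := by
    have h2 : (D : W.adicCompletion F) = algebraMap F _ D := by rw [map_natCast]
    rw [h2, Ne, map_eq_zero]
    exact_mod_cast hD
  have hδ0 : Valued.v (D : W.adicCompletion F) ≠ 0 := by rwa [Ne, map_eq_zero]
  have h1 := v_int (W := W) (map_isIntegral_int φ hc)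
  rw [map_mul, map_natCast, map_mul, map_natCast, map_mul] at h1
  rw [← one_mul (Valued.v (D : W.adicCompletion F))⁻¹, le_mul_inv_iff₀ (zero_lt_iff.mpr hδ0),
    mul_comm]
  exact h1

end Local

variable {K : Type} [Field K] [NumberField K]

/-- A common denominator of an element. -/
lemma exists_den_elt (c : K) : ∃ D : ℕ, D ≠ 0 ∧ IsIntegral ℤ ((D : K) * c) := by
  obtain ⟨D, hD, h⟩ := exists_den (C c)
  exact ⟨D, hD, by simpa using h 0⟩

omit [NumberField K] in
/-- `1 - 8 D n / c` is a non-zero square at the places above `2`. -/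
lemma unit_square {F : Type} [Field F] [NumberField F] {W : HeightOneSpectrum (𝓞 F)}
    (hW : ((2 : ℕ) : 𝓞 F) ∈ W.asIdeal) (φ : K →+* F) {c : K} {D : ℕ}
    (hint : IsIntegral ℤ ((D : K) * c⁻¹)) (n : ℕ) :
    IsSquare (1 - 8 * D * n * algebraMap F (W.adicCompletion F) (φ c⁻¹)) ∧
      (1 - 8 * D * n * algebraMap F (W.adicCompletion F) (φ c⁻¹)) ≠ 0 := by
  have e : (1 - 8 * D * n * algebraMap F (W.adicCompletion F) (φ c⁻¹) - 1 :
      W.adicCompletion F) = -(4 * (2 * (n *
        algebraMap F (W.adicCompletion F) (φ ((D : K) * c⁻¹))))) := by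
    rw [map_mul, map_mul, map_natCast, map_natCast]
    ring
  have h1 : Valued.v (1 - 8 * D * n * algebraMap F (W.adicCompletion F) (φ c⁻¹) - 1 :
      W.adicCompletion F) < Valued.v (4 : W.adicCompletion F) := by
    rw [e, Valuation.map_neg, map_mul]
    refine mul_lt_of_lt_one_right (zero_lt_iff.mpr v_four_ne_zero) ?_
    rw [map_mul, map_mul]
    refine lt_of_le_of_lt (mul_le_of_le_one_right' ?_) (v_two_lt hW)
    exact mul_le_one' (v_nat_le _) (v_int (map_isIntegral_int φ hint))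
  refine ⟨isSquare_of_near h1, fun h0 => ?_⟩
  rw [h0, zero_sub, Valuation.map_neg, map_one] at h1
  have h4 : Valued.v (4 : W.adicCompletion F) ≤ 1 := by
    have := v_nat_le (W := W) 4
    exact_mod_cast this
  exact absurd h1 (not_lt_of_ge h4)

/-- Three squares: `c` is not a square at the places above `2`. -/
lemma exists_three {c : K} (hc0 : c ≠ 0)
    (hc : ∀ w : HeightOneSpectrum (𝓞 K), ((2 : ℕ) : 𝓞 K) ∈ w.asIdeal →
      ¬ IsSquare (algebraMap K (w.adicCompletion K) c)) {D : ℕ} (hD : D ≠ 0)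
    (hint : IsIntegral ℤ ((D : K) * c⁻¹)) :
    ∃ (n : ℕ) (x y z : K), x ^ 2 + y ^ 2 + z ^ 2 = 8 * D * n - c := by
  obtain ⟨n, hn⟩ : ∃ n : ℕ, ∀ σ : K →+* ℝ, σ c < n := by
    obtain ⟨M, hM⟩ := (Set.finite_range fun σ : K →+* ℝ => σ c).bddAbove
    obtain ⟨n, hn⟩ := exists_nat_gt M
    exact ⟨n, fun σ => lt_of_le_of_lt (hM ⟨σ, rfl⟩) hn⟩
  have hD1 : 1 ≤ D := Nat.one_le_iff_ne_zero.mpr hD
  have hpos : ∀ σ : K →+* ℝ, 0 < σ (8 * D * n - c) := by
    intro σ
    rw [map_sub, map_mul, map_mul, map_ofNat, map_natCast, map_natCast]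
    have h1 := hn σ
    have h2 : (1 : ℝ) ≤ D := by exact_mod_cast hD1
    nlinarith [Nat.cast_nonneg (α := ℝ) n]
  have key : ∀ w : HeightOneSpectrum (𝓞 K), algebraMap K (w.adicCompletion K) (8 * D * n - c) =
      -(algebraMap K (w.adicCompletion K) c *
        (1 - 8 * D * n * algebraMap K (w.adicCompletion K) c⁻¹)) := by
    intro w
    have hc0' : algebraMap K (w.adicCompletion K) c ≠ 0 := (_root_.map_ne_zero _).mpr hc0
    rw [map_sub, map_mul, map_mul, map_ofNat, map_natCast, map_natCast, map_inv₀]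
    field_simp
    ring
  have hsq : ∀ w : HeightOneSpectrum (𝓞 K), ((2 : ℕ) : 𝓞 K) ∈ w.asIdeal →
      ¬ IsSquare (-algebraMap K (w.adicCompletion K) (8 * D * n - c)) := by
    intro w hw h
    obtain ⟨h4, h5⟩ := unit_square hw (RingHom.id K) hint n
    rw [RingHom.id_apply] at h4 h5
    refine hc w hw ?_
    rw [key w, neg_neg] at h
    have h6 := h.div h4
    rwa [mul_div_cancel_right₀ _ h5] at h6
  have hne : 8 * (D : K) * n - c ≠ 0 := by
    intro h0
    obtain ⟨w, hw⟩ := exists_place_two (K := K)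
    have h1 := key w
    rw [h0, map_zero, eq_comm, neg_eq_zero, mul_eq_zero] at h1
    rcases h1 with h1 | h1
    · exact hc0 ((map_eq_zero _).mp h1)
    · have h5 := (unit_square hw (RingHom.id K) hint n).2
      rw [RingHom.id_apply] at h5
      exact h5 h1
  exact ⟨n, (sum_three_squares_iff_dyadic hne).mpr ⟨fun v hv => Or.inr (hsq v hv), hpos⟩⟩

/-- If `c` is not a square at the places of `K` above `2`, and a square in `F_W`, then `-1` is a sum of
two squares in `F_W`. -/
lemma exists_two_of_square {c : K} (hc0 : c ≠ 0)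
    (hc : ∀ w : HeightOneSpectrum (𝓞 K), ((2 : ℕ) : 𝓞 K) ∈ w.asIdeal →
      ¬ IsSquare (algebraMap K (w.adicCompletion K) c)) {F : Type} [Field F] [NumberField F]
    {W : HeightOneSpectrum (𝓞 F)} (hW : ((2 : ℕ) : 𝓞 F) ∈ W.asIdeal) (φ : K →+* F)
    (hs : IsSquare (algebraMap F (W.adicCompletion F) (φ c))) :
    ∃ u v : W.adicCompletion F, u ^ 2 + v ^ 2 = -1 := by
  obtain ⟨D, hD, hint⟩ := exists_den_elt c⁻¹
  obtain ⟨n, x, y, z, h⟩ := exists_three hc0 hc hD hint
  obtain ⟨⟨u, hu⟩, hu0⟩ := unit_square hW φ hint n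
  obtain ⟨s, hs⟩ := hs
  set ψ : K →+* W.adicCompletion F := (algebraMap F (W.adicCompletion F)).comp φ with hψ
  have hψc : ψ c ≠ 0 := (_root_.map_ne_zero ψ).mpr hc0
  have hs0 : s ≠ 0 := by
    rintro rfl
    rw [mul_zero] at hs
    exact hψc hs
  have hu00 : u ≠ 0 := by
    rintro rfl
    rw [mul_zero] at hu
    exact hu0 hu
  have h1 := congrArg ψ h
  rw [map_add, map_add, map_pow, map_pow, map_pow, map_sub, map_mul, map_mul, map_ofNat,
    map_natCast, map_natCast] at h1
  have h2 : (ψ c) * (1 - 8 * D * n * (ψ c)⁻¹) = (s * s) * (u * u) := by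
    have h3 : ψ c = s * s := hs
    have h4 : (1 - 8 * D * n * (ψ c)⁻¹ : W.adicCompletion F) = u * u := by
      rw [← hu, map_inv₀, map_inv₀]
      rfl
    rw [h4, h3]
  have h3 : ψ x ^ 2 + ψ y ^ 2 + ψ z ^ 2 = -(s * u) ^ 2 := by
    have h4 : (ψ c) * (1 - 8 * D * n * (ψ c)⁻¹) = ψ c - 8 * D * n := by
      field_simp
    rw [h4] at h2
    linear_combination h1 - h2
  refine sum_two_of_three two_ne_zero' ⟨ψ x / (s * u), ψ y / (s * u), ψ z / (s * u), ?_⟩
  rw [div_pow, div_pow, div_pow, ← add_div, ← add_div,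
    div_eq_iff (pow_ne_zero 2 (mul_ne_zero hs0 hu00)), h3]
  ring

/-- **Five squares in degree `4 k + 2`**: if `f(a)` is not a square in `K_w`, `w ∣ 2`, for some `a ∈ K`, then
`f` is a sum of five squares. -/
theorem five_of_nonsquare (hreal : Nonempty (K →+* ℝ)) {f : K[X]}
    (hpos : ∀ (σ : K →+* ℝ) (t : ℝ), 0 < (f.map σ).eval t) {k : ℕ} (hk : f.natDegree = 4 * k + 2)
    {a : K} (ha : ∀ w : HeightOneSpectrum (𝓞 K), ((2 : ℕ) : 𝓞 K) ∈ w.asIdeal →
      ¬ IsSquare (algebraMap K (w.adicCompletion K) (f.eval a))) :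
    SumSq 5 (algebraMap K[X] (RatFunc K) f) := by
  obtain ⟨m, N, hm, hN⟩ := exists_bound hreal hpos
  obtain ⟨D, hD, hint⟩ := exists_den f
  obtain rfl : m = 2 * k + 1 := by omega
  have hc0 : f.eval a ≠ 0 := by
    obtain ⟨σ⟩ := hreal
    intro h0
    have h1 := hpos σ (σ a)
    rw [eval_map_apply, h0, map_zero] at h1
    exact lt_irrefl _ h1
  obtain ⟨Da, hDa, hinta⟩ := exists_den_elt a
  obtain ⟨Dc, hDc, hintc⟩ := exists_den_elt (f.eval a)⁻¹
  obtain ⟨Na, hNa⟩ : ∃ Na : ℕ, ∀ σ : K →+* ℝ, 2 * (1 + σ a ^ 2) ≤ Na := by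
    obtain ⟨M, hM⟩ := (Set.finite_range fun σ : K →+* ℝ => 2 * (1 + σ a ^ 2)).bddAbove
    obtain ⟨n, hn⟩ := exists_nat_ge M
    exact ⟨n, fun σ => (hM ⟨σ, rfl⟩).trans hn⟩
  set E : ℕ := D ^ 2 * Da ^ (4 * k + 2) * Dc with hE
  have hE0 : E ≠ 0 := mul_ne_zero (mul_ne_zero (pow_ne_zero 2 hD) (pow_ne_zero _ hDa)) hDc
  set t : ℕ := Na * 2 ^ (2 * k) * N with ht
  set θ : K := (8 * (E : K) * ((1 + 2 * t : ℕ) : K))⁻¹ with hθ
  set g : K[X] := C θ * (X - C a) * (X ^ 2 + X + 1) ^ k with hg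
  have h4 : SumSq 4 (algebraMap K[X] (RatFunc K) (f - g ^ 2)) := by
    refine sumSq_four_of_local hreal (fun σ x => ?_) ?_
    · have hσθ : σ θ = (8 * (E : ℝ) * ((1 + 2 * t : ℕ) : ℝ))⁻¹ := by
        rw [hθ, map_inv₀, map_mul, map_mul, map_natCast, map_natCast, map_ofNat]
      have hev : ((f - g ^ 2).map σ).eval x =
          (f.map σ).eval x - (σ θ * (x - σ a) * (x ^ 2 + x + 1) ^ k) ^ 2 := by
        simp [hg]
      rw [hev, sub_pos]
      have h1 := hN σ x
      have h2 := theta_small hE0 t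
      rw [← hσθ] at h2
      have h3 := hpos σ x
      have hq : x ^ 2 + x + 1 ≤ 2 * (1 + x ^ 2) := by nlinarith [sq_nonneg (x - 1)]
      have hq0 : 0 ≤ x ^ 2 + x + 1 := by nlinarith [sq_nonneg (x + 1), sq_nonneg x]
      have hxa : (x - σ a) ^ 2 ≤ Na * (1 + x ^ 2) := by
        refine le_trans ?_ (mul_le_mul_of_nonneg_right (hNa σ) (by positivity))
        nlinarith [sq_nonneg (x + σ a), sq_nonneg (x * σ a)]
      have h5 : (x - σ a) ^ 2 * (x ^ 2 + x + 1) ^ (2 * k) ≤ t * (f.map σ).eval x := by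
        calc (x - σ a) ^ 2 * (x ^ 2 + x + 1) ^ (2 * k)
            ≤ (Na * (1 + x ^ 2)) * (2 * (1 + x ^ 2)) ^ (2 * k) :=
              mul_le_mul hxa (pow_le_pow_left₀ hq0 hq _) (by positivity) (by positivity)
          _ = (Na * 2 ^ (2 * k)) * (1 + x ^ 2) ^ (2 * k + 1) := by
              rw [mul_pow]
              ring
          _ ≤ (Na * 2 ^ (2 * k)) * (N * (f.map σ).eval x) :=
              mul_le_mul_of_nonneg_left h1 (by positivity)
          _ = t * (f.map σ).eval x := by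
              rw [ht]
              push_cast
              ring
      calc (σ θ * (x - σ a) * (x ^ 2 + x + 1) ^ k) ^ 2
          = σ θ ^ 2 * ((x - σ a) ^ 2 * (x ^ 2 + x + 1) ^ (2 * k)) := by ring
        _ ≤ σ θ ^ 2 * (t * (f.map σ).eval x) := mul_le_mul_of_nonneg_left h5 (sq_nonneg _)
        _ = (σ θ ^ 2 * t) * (f.map σ).eval x := by ring
        _ < 1 * (f.map σ).eval x := mul_lt_mul_of_pos_right h2 h3
        _ = (f.map σ).eval x := one_mul _
    · intro F _ _ φ x W hW hx
      by_contra hns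
      refine hns (exists_two_of_square hc0 ha hW φ ?_)
      set P := (f.map φ).map (algebraMap F (W.adicCompletion F)) with hP
      have hPa : P.eval (algebraMap F (W.adicCompletion F) (φ a)) =
          algebraMap F (W.adicCompletion F) (φ (f.eval a)) := by
        rw [hP, eval_map_apply, eval_map_apply]
      set δ := Valued.v (D : W.adicCompletion F) with hδ
      set α := Valued.v (Da : W.adicCompletion F) with hα
      set γ := Valued.v (Dc : W.adicCompletion F) with hγ
      set τ := Valued.v (2 : W.adicCompletion F) with hτ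
      have hnat : ∀ n : ℕ, n ≠ 0 → Valued.v (n : W.adicCompletion F) ≠ 0 := by
        intro n hn
        have h2 : (n : W.adicCompletion F) = algebraMap F _ n := by rw [map_natCast]
        rw [Ne, map_eq_zero, h2, map_eq_zero]
        exact_mod_cast hn
      have hδ0 : δ ≠ 0 := hnat D hD
      have hα0 : α ≠ 0 := hnat Da hDa
      have hγ0 : γ ≠ 0 := hnat Dc hDc
      have hτ0 : τ ≠ 0 := v_two_ne
      have hτ1 : τ < 1 := v_two_lt hW
      have hδ1 : δ ≤ 1 := v_nat_le D
      have hα1 : α ≤ 1 := v_nat_le Da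
      have hγ1 : γ ≤ 1 := v_nat_le Dc
      have hVE : Valued.v (E : W.adicCompletion F) = δ ^ 2 * α ^ (4 * k + 2) * γ := by
        rw [hE]
        push_cast
        rw [map_mul, map_mul, map_pow, map_pow]
      set e := τ ^ 3 * (δ ^ 2 * α ^ (4 * k + 2) * γ) with he
      have he0 : e ≠ 0 := mul_ne_zero (pow_ne_zero 3 hτ0)
        (mul_ne_zero (mul_ne_zero (pow_ne_zero 2 hδ0) (pow_ne_zero _ hα0)) hγ0)
      set β : W.adicCompletion F := (8 * E * (1 + 2 * t : ℕ))⁻¹ with hβ
      have hVβ : Valued.v β = e⁻¹ := by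
        rw [hβ, map_inv₀, map_mul, v_odd hW, mul_one, map_mul,
          show (8 : W.adicCompletion F) = 2 ^ 3 by norm_num, map_pow, hVE]
      have hle : δ ^ 2 * α ^ (4 * k + 2) * γ ≤ δ := by
        calc δ ^ 2 * α ^ (4 * k + 2) * γ ≤ δ ^ 2 * α ^ (4 * k + 2) := mul_le_of_le_one_right' hγ1
          _ ≤ δ ^ 2 := mul_le_of_le_one_right' (pow_le_one₀ zero_le hα1)
          _ ≤ δ := by
              rw [sq]
              exact mul_le_of_le_one_right' hδ1
      have hτ3 : τ ^ 3 < 1 := pow_lt_one₀ zero_le hτ1 (by norm_num)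
      have heδ : e < δ := by
        calc e ≤ τ ^ 3 * δ := mul_le_mul' le_rfl hle
          _ < 1 * δ := mul_lt_mul_of_pos_right hτ3 (zero_lt_iff.mpr hδ0)
          _ = δ := one_mul _
      have he1 : e ≤ 1 := heδ.le.trans hδ1
      have hcV : γ ≤ Valued.v (P.eval (algebraMap F (W.adicCompletion F) (φ a))) := by
        have h1 := v_inv_le W φ hDc hintc
        rw [map_inv₀, map_inv₀, map_inv₀, ← hPa, inv_le_inv₀ ?_ (zero_lt_iff.mpr hγ0)] at h1
        · exact h1
        · rw [zero_lt_iff, Valuation.ne_zero_iff, hPa]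
          exact (_root_.map_ne_zero _).mpr ((_root_.map_ne_zero _).mpr hc0)
      rw [← hPa]
      refine isSquare_of_root hW hns (k := k) (P := P)
        ((natDegree_map_le.trans natDegree_map_le).trans hk.le) (v_coeff_le φ hD hint)
        ((one_le_inv₀ (zero_lt_iff.mpr hδ0)).mpr hδ1)
        ((one_le_inv₀ (zero_lt_iff.mpr hα0)).mpr hα1) (v_inv_le W φ hDa hinta) (β := β)
        (x := algebraMap F _ x) ?_ ?_ ?_
      · rw [hVβ, inv_pow, inv_lt_inv₀ (zero_lt_iff.mpr hδ0) (pow_pos (zero_lt_iff.mpr he0) 2)]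
        refine lt_of_le_of_lt ?_ heδ
        rw [sq]
        exact mul_le_of_le_one_right' he1
      · rw [hVβ, inv_inv]
        have e1 : e * ((δ⁻¹) ^ 2 * (α⁻¹) ^ (4 * k + 2)) = τ ^ 3 * γ := by
          rw [he, inv_pow, inv_pow]
          field_simp
        rw [e1, show (4 : W.adicCompletion F) = 2 ^ 2 by norm_num, map_pow, ← hτ]
        calc τ ^ 3 * γ = τ * (τ ^ 2 * γ) := by
              rw [← mul_assoc]
              congr 1
              rw [← pow_succ']
          _ < 1 * (τ ^ 2 * γ) := mul_lt_mul_of_pos_right hτ1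
              (zero_lt_iff.mpr (mul_ne_zero (pow_ne_zero 2 hτ0) hγ0))
          _ = τ ^ 2 * γ := one_mul _
          _ ≤ _ := mul_le_mul' le_rfl hcV
      · rw [hP, eval_map_apply]
        have hev : ((f - g ^ 2).map φ).eval x =
            (f.map φ).eval x - (φ θ * (x - φ a) * (x ^ 2 + x + 1) ^ k) ^ 2 := by
          simp [hg]
        rw [hev, sub_eq_zero] at hx
        have h22 : φ 2 = 2 := map_ofNat φ 2
        have h28 : φ 8 = 8 := map_ofNat φ 8
        have h32 : algebraMap F (W.adicCompletion F) 2 = 2 := map_ofNat _ 2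
        have h38 : algebraMap F (W.adicCompletion F) 8 = 8 := map_ofNat _ 8
        rw [hx, hθ, hβ]
        simp [h22, h28, h32, h38]
  have h5 := (sumSq_one (algebraMap K[X] (RatFunc K) g)).add h4
  rw [← map_pow, ← map_add, add_sub_cancel] at h5
  exact h5

end Fermat.Agent.Cor.PF
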