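import Fermat.Agent.Corollaries.PF.Springer
import Fermat.Agent.Corollaries.PF.CasselsPfister
import Fermat.Agent.Corollaries.HM.WeakHasse

/-!
# Springer's theorem for sums of squares of polynomials

`L / K` of odd degree, `f ∈ K[X]`: if `f` is a sum of `n` squares in `L[X]`, then in `K[X]`.
-/

set_option autoImplicit false

namespace Fermat.Agent.Cor.PF

open Module Polynomial Fermat.Agent.Cor.HM

/-- an element of `F` is a sum of `n` squares in an extension of odd degree iff it is one in `F`
(Springer) -/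
theorem sum_sq_odd_iff {F L : Type*} [Field F] [Field L] [Algebra F L] [FiniteDimensional F L]
    (h2 : (2 : F) ≠ 0) (hodd : Odd (finrank F L)) (n : ℕ) (c : F) :
    (∃ x : Fin n → L, ∑ i, x i ^ 2 = algebraMap F L c) ↔ ∃ x : Fin n → F, ∑ i, x i ^ 2 = c := by
  have hd : DiagLocalGlobal F (fun _ : Unit => L) := fun m a _ h => by
    obtain ⟨x, hx0, hx⟩ := h ()
    by_contra! hcon
    exact hx0 (springer hodd (fun y hy => by_contra fun hy0 => hcon y hy0 hy) x hx)
  constructor
  · rintro ⟨x, hx⟩
    obtain ⟨y, hy⟩ := hd.exists_value h2 (fun _ : Fin n => (1 : F)) c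
      fun _ => ⟨x, by simpa using hx⟩
    exact ⟨y, by simpa using hy⟩
  · rintro ⟨x, rfl⟩
    exact ⟨fun i => algebraMap F L (x i), by rw [map_sum]; simp only [map_pow]⟩

/-- **Springer's theorem for polynomials**: a polynomial over `K` which is a sum of `n` squares of
polynomials over an extension `L` of odd degree is a sum of `n` squares of polynomials over `K`. -/
theorem sumSq_descent {K L : Type*} [Field K] [Field L] [CharZero K] [Algebra K L]
    [Module.Finite K L] (hodd : Odd (Module.finrank K L)) {n : ℕ} (f : K[X])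
    (h : ∃ g : Fin n → L[X], ∑ i, g i ^ 2 = f.map (algebraMap K L)) :
    ∃ g : Fin n → K[X], ∑ i, g i ^ 2 = f := by
  obtain ⟨g, hg⟩ := h
  have h2 : (2 : K) ≠ 0 := two_ne_zero
  have h2' : (2 : RatFunc K) ≠ 0 := two_ne_zero
  let pb := Field.powerBasisOfFiniteOfSeparable K L
  set r := (minpoly K pb.gen).map (algebraMap K (RatFunc K)) with hr
  have hr0 : r ≠ 0 := Polynomial.map_ne_zero (minpoly.ne_zero pb.isIntegral_gen)
  have hrd : Odd r.natDegree := by
    rw [hr, natDegree_map, pb.natDegree_minpoly, ← pb.finrank]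
    exact hodd
  obtain ⟨q, hq, hqd, hqr⟩ := exists_irreducible_odd hr0 hrd
  have : Fact (Irreducible q) := ⟨hq⟩
  have : Module.Finite (RatFunc K) (AdjoinRoot q) := (AdjoinRoot.powerBasis hq.ne_zero).finite
  have hfin : Odd (finrank (RatFunc K) (AdjoinRoot q)) := by
    rw [(AdjoinRoot.powerBasis hq.ne_zero).finrank, AdjoinRoot.powerBasis_dim]
    exact hqd
  have hroot : aeval (AdjoinRoot.root q) (minpoly K pb.gen) = 0 := by
    have h1 : aeval (AdjoinRoot.root q) r = 0 := by
      obtain ⟨s, hs⟩ := hqr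
      rw [hs, map_mul, AdjoinRoot.aeval_eq, AdjoinRoot.mk_self, zero_mul]
    rwa [hr, aeval_map_algebraMap] at h1
  let φ : L →ₐ[K] AdjoinRoot q := pb.lift (AdjoinRoot.root q) hroot
  let Φ : L[X] →+* AdjoinRoot q :=
    eval₂RingHom (φ : L →+* AdjoinRoot q) (algebraMap (RatFunc K) (AdjoinRoot q) RatFunc.X)
  have hΦ : Φ (f.map (algebraMap K L)) =
      algebraMap (RatFunc K) (AdjoinRoot q) (algebraMap K[X] (RatFunc K) f) := by
    have h1 : Φ (f.map (algebraMap K L)) =
        aeval (algebraMap (RatFunc K) (AdjoinRoot q) RatFunc.X) f := by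
      change eval₂ _ _ (f.map (algebraMap K L)) = _
      rw [eval₂_map, aeval_def, AlgHom.comp_algebraMap]
    rw [h1, aeval_algebraMap_apply, RatFunc.aeval_X_left_eq_algebraMap]
  have h3 : ∃ x : Fin n → AdjoinRoot q, ∑ i, x i ^ 2 =
      algebraMap (RatFunc K) (AdjoinRoot q) (algebraMap K[X] (RatFunc K) f) := by
    refine ⟨fun i => Φ (g i), ?_⟩
    rw [← hΦ, ← hg, map_sum]
    simp only [map_pow]
  have h4 := (sum_sq_odd_iff h2' hfin n (algebraMap K[X] (RatFunc K) f)).mp h3
  exact (sum_sq_poly_iff (RatFunc K) h2 n f).mp h4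

end Fermat.Agent.Cor.PF
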