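import Fermat.Agent.Corollaries.PF.PouL
import Fermat.Agent.Corollaries.PF.PouS
import Fermat.Agent.Corollaries.PF.PouA
import Fermat.Agent.Corollaries.PF.PouG
import Fermat.Agent.Corollaries.QA.Pyth

/-!
# Pourchet's theorem

`pourchet` (Pourchet 1971): a polynomial `f ∈ ℚ[X]` with `f(t) ≥ 0` for all rational `t` is a sum of five
squares in `ℚ[X]`. `pyth_ratFunc_rat`: the Pythagoras number of `ℚ(X)` is `5`.
-/

set_option autoImplicit false
set_option maxHeartbeats 400000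

namespace Fermat.Agent.Cor.PF

open Polynomial IsDedekindDomain NumberField
open Fermat.Agent.Cor.HM Fermat.Agent.Cor.QA

/-- A squarefree polynomial of degree `4 k + 2` with positive values is a sum of five squares. -/
theorem pourchet_of_squarefree {f : ℚ[X]} (hsep : f.Separable)
    (hpos : ∀ (σ : ℚ →+* ℝ) (t : ℝ), 0 < (f.map σ).eval t) {k : ℕ}
    (hk : f.natDegree = 4 * k + 2) : SumSq 5 (algebraMap ℚ[X] (RatFunc ℚ) f) := by
  by_cases hloc : ∀ (F : Type) [Field F] [NumberField F] (φ : ℚ →+* F) (x : F)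
      (W : HeightOneSpectrum (𝓞 F)),
      ((2 : ℕ) : 𝓞 F) ∈ W.asIdeal → (f.map φ).eval x = 0 →
      ∃ u v : W.adicCompletion F, u ^ 2 + v ^ 2 = -1
  · exact (sumSq_four_of_local ⟨algebraMap ℚ ℝ⟩ hpos hloc).mono (by norm_num)
  push Not at hloc
  obtain ⟨F, _, _, φ, x, W, hW, hx, hns⟩ := hloc
  have hns' : ¬ ∃ u v : W.adicCompletion F, u ^ 2 + v ^ 2 = -1 := by
    rintro ⟨u, v, h⟩
    exact hns u v h
  rw [adic_iff_even hW, Nat.not_even_iff_odd] at hns'
  have hx' : aeval x f = 0 := by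
    rw [aeval_def, ← eval_map, ← hx]
    congr 2
    exact Subsingleton.elim _ _
  obtain ⟨L, _, _, hodd, hL⟩ := exists_odd_extension hx' hW hns'
  set f' : L[X] := f.map (algebraMap ℚ L) with hf'
  obtain ⟨a, ha⟩ := exists_nonsquare_value (f := f') hsep.map fun w hw => by
    obtain ⟨ρ, hρ⟩ := hL w hw
    refine ⟨ρ, ?_⟩
    rw [hf', Polynomial.map_map, ← hρ]
    congr 2
  have h5 : SumSq 5 (algebraMap L[X] (RatFunc L) f') := by
    rcases isEmpty_or_nonempty (L →+* ℝ) with hE | hE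
    · exact sumSq_of_no_real hE f'
    · refine five_of_nonsquare hE (fun σ t => ?_) (k := k) (by rw [hf', natDegree_map, hk]) ha
      rw [hf', Polynomial.map_map]
      exact hpos _ t
  have h6 := (sum_sq_poly_iff (RatFunc L) two_ne_zero 5 f').mp h5
  exact (sum_sq_poly_iff (RatFunc ℚ) two_ne_zero 5 f).mpr (sumSq_descent hodd f h6)

theorem pourchet_aux (n : ℕ) : ∀ f : ℚ[X], f.natDegree < n →
    Psd f → SumSq 5 (algebraMap ℚ[X] (RatFunc ℚ) f) := by
  have hreal : Nonempty (ℚ →+* ℝ) := ⟨algebraMap ℚ ℝ⟩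
  induction n with
  | zero => exact fun f h => absurd h (Nat.not_lt_zero _)
  | succ n ih =>
    intro f hn hpsd
    by_cases hf0 : f = 0
    · rw [hf0, map_zero]
      exact sumSq_zero 5
    by_cases hsq : Squarefree f
    · have hpos := pos_of_squarefree hf0 hsq hpsd
      obtain ⟨m, N, hm, -⟩ := exists_bound hreal hpos
      rcases Nat.even_or_odd' m with ⟨k, hk | hk⟩
      · exact five_of_pos hreal hpos (k := k) (by omega)
      · exact pourchet_of_squarefree ((PerfectField.separable_iff_squarefree).mpr hsq) hpos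
          (k := k) (by omega)
    · obtain ⟨p, hp, g, rfl⟩ : ∃ p : ℚ[X], Irreducible p ∧ p * p ∣ f := by
        rw [squarefree_iff_irreducible_sq_not_dvd_of_ne_zero hf0] at hsq
        push Not at hsq
        exact hsq
      have hg0 : g ≠ 0 := right_ne_zero_of_mul hf0
      rw [natDegree_mul (mul_ne_zero hp.ne_zero hp.ne_zero) hg0,
        natDegree_mul hp.ne_zero hp.ne_zero] at hn
      rw [← sq] at hpsd ⊢
      have hpd := hp.natDegree_pos
      have h1 := (ih g (by omega) (psd_of_sq_mul hp.ne_zero hpsd)).mul_sq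
        (algebraMap ℚ[X] (RatFunc ℚ) p)
      rw [map_mul, map_pow, mul_comm]
      exact h1

/-- **Pourchet's theorem (1971)**: a polynomial `f` with rational coefficients is a sum of five squares
of polynomials with rational coefficients iff `f(t) ≥ 0` for all rational numbers `t`. -/
theorem pourchet (f : ℚ[X]) : (∃ g : Fin 5 → ℚ[X], ∑ i, g i ^ 2 = f) ↔
    ∀ t : ℚ, 0 ≤ f.eval t := by
  constructor
  · rintro ⟨g, rfl⟩ t
    rw [eval_finsetSum]
    exact Finset.sum_nonneg fun i _ => by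
      rw [eval_pow]
      exact sq_nonneg _
  · intro h
    rw [← sum_sq_poly_iff (RatFunc ℚ) two_ne_zero]
    have h1 : Psd f := by
      rw [← landau_rat, landau] at h
      exact h
    exact pourchet_aux _ f (Nat.lt_succ_self _) h1

/-- Every sum of squares in `ℚ(X)` is a sum of five squares. -/
theorem pythLE_ratFunc_rat : PythLE (RatFunc ℚ) 5 := by
  intro m f
  set r := ∑ i, f i ^ 2 with hr
  have hb : algebraMap ℚ[X] (RatFunc ℚ) r.denom ≠ 0 := by
    rw [Ne, map_eq_zero_iff _ (IsFractionRing.injective ℚ[X] (RatFunc ℚ))]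
    exact r.denom_ne_zero
  have h1 : algebraMap ℚ[X] (RatFunc ℚ) (r.num * r.denom) =
      r * algebraMap ℚ[X] (RatFunc ℚ) r.denom ^ 2 := by
    have h2 := r.num_div_denom
    rw [div_eq_iff hb] at h2
    rw [map_mul, h2]
    ring
  have h3 : SumSq m (algebraMap ℚ[X] (RatFunc ℚ) (r.num * r.denom)) := by
    rw [h1]
    exact SumSq.mul_sq ⟨f, rfl⟩ _
  obtain ⟨g, hg⟩ := (sum_sq_poly_iff (RatFunc ℚ) two_ne_zero m _).mp h3
  obtain ⟨g', hg'⟩ := (pourchet (r.num * r.denom)).mpr fun t => by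
    rw [← hg, eval_finsetSum]
    refine Finset.sum_nonneg fun i _ => ?_
    rw [eval_pow]
    exact sq_nonneg _
  have h4 := (sumSq_algebraMap (L := RatFunc ℚ) g').mul_sq
    (algebraMap ℚ[X] (RatFunc ℚ) r.denom)⁻¹
  rw [hg', h1, inv_pow, mul_inv_cancel_right₀ (pow_ne_zero 2 hb)] at h4
  obtain ⟨u, hu⟩ := h4
  exact ⟨u, hu.symm⟩

/-- **The Pythagoras number of `ℚ(X)` is `5`.** -/
theorem pyth_ratFunc_rat : pyth (RatFunc ℚ) = 5 := by
  have h5 := (pyth_le_iff pythLE_ratFunc_rat).mpr pythLE_ratFunc_rat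
  have h4 : ¬ pyth (RatFunc ℚ) ≤ 4 := by
    rw [pyth_le_iff pythLE_ratFunc_rat]
    intro h
    obtain ⟨g, hg⟩ := h 5 ![algebraMap ℚ[X] (RatFunc ℚ) X, 2, 1, 1, 1]
    have h1 : ∃ g : Fin (3 + 1) → RatFunc ℚ, ∑ i, g i ^ 2 =
        algebraMap ℚ[X] (RatFunc ℚ) (X ^ 2 + C 7) := by
      refine ⟨g, ?_⟩
      rw [← hg, Fin.sum_univ_five]
      have e : algebraMap ℚ[X] (RatFunc ℚ) (X ^ 2 + C 7) =
          algebraMap ℚ[X] (RatFunc ℚ) X ^ 2 + 7 := by
        rw [map_add, map_pow]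
        congr 1
        have : (C 7 : ℚ[X]) = 7 := by rw [map_ofNat]
        rw [this, map_ofNat]
      rw [e]
      change algebraMap ℚ[X] (RatFunc ℚ) X ^ 2 + 2 ^ 2 + 1 ^ 2 + 1 ^ 2 + 1 ^ 2 = _
      ring
    rw [cassels_sq_add (RatFunc ℚ) two_ne_zero] at h1
    rcases h1 with ⟨x, hx⟩ | ⟨x, hx⟩
    · have : 0 ≤ ∑ i, x i ^ 2 := Finset.sum_nonneg fun i _ => sq_nonneg _
      rw [hx] at this
      norm_num at this
    · rw [Fin.sum_univ_three] at hx
      have h7 : ¬ ∃ x y z : ℤ, x ^ 2 + y ^ 2 + z ^ 2 = ((7 : ℕ) : ℤ) := by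
        rw [← Fermat.Agent.Cor.ThreeSq.rat_iff_int]
        rintro ⟨a, b, c, h⟩
        obtain ⟨a', b', c', h'⟩ := Fermat.Agent.Cor.ThreeSq.rat_iff_int.mp ⟨a, b, c, h⟩
        have h8 : (a' ^ 2 + b' ^ 2 + c' ^ 2) % 8 = 7 := by rw [h']; rfl
        have hm : ∀ u : ℤ, u ^ 2 % 8 = 0 ∨ u ^ 2 % 8 = 1 ∨ u ^ 2 % 8 = 4 := by
          intro u
          have : u % 8 = 0 ∨ u % 8 = 1 ∨ u % 8 = 2 ∨ u % 8 = 3 ∨ u % 8 = 4 ∨ u % 8 = 5 ∨
            u % 8 = 6 ∨ u % 8 = 7 := by omega
          rcases this with h | h | h | h | h | h | h | h <;> simp [pow_two, Int.mul_emod, h]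
        have := hm a'
        have := hm b'
        have := hm c'
        omega
      exact h7 (Fermat.Agent.Cor.ThreeSq.rat_iff_int.mp ⟨x 0, x 1, x 2, by
        rw [hx]
        norm_num⟩)
  omega

end Fermat.Agent.Cor.PF
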