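import Fermat.Agent.Corollaries.PF.Pourchet

/-!
# The Pythagoras number of `K(X)`

`F` a field of level `s`: `P(F(X)) = s + 1`. `K` a number field with a real embedding: `4 ≤ P(K(X)) ≤ 6`,
and `P(K(X)) = 4` iff all the local degrees at `2` are even.
-/

set_option autoImplicit false
set_option maxHeartbeats 400000

namespace Fermat.Agent.Cor.PF

open Polynomial IsDedekindDomain NumberField
open Fermat.Agent.Cor.HM Fermat.Agent.Cor.QA Fermat.Agent.LT.Ext

/-- If every sum of squares of polynomials is a sum of `n` squares, then `P(F(X)) ≤ n`. -/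
theorem pythLE_ratFunc {F : Type} [Field F] (h2 : (2 : F) ≠ 0) {n : ℕ}
    (h : ∀ (m : ℕ) (g : Fin m → F[X]), SumSq n (algebraMap F[X] (RatFunc F) (∑ i, g i ^ 2))) :
    PythLE (RatFunc F) n := by
  intro m f
  set r := ∑ i, f i ^ 2 with hr
  have hb : algebraMap F[X] (RatFunc F) r.denom ≠ 0 := by
    rw [Ne, map_eq_zero_iff _ (IsFractionRing.injective F[X] (RatFunc F))]
    exact r.denom_ne_zero
  have h1 : algebraMap F[X] (RatFunc F) (r.num * r.denom) =
      r * algebraMap F[X] (RatFunc F) r.denom ^ 2 := by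
    have h2 := r.num_div_denom
    rw [div_eq_iff hb] at h2
    rw [map_mul, h2]
    ring
  have h3 : SumSq m (algebraMap F[X] (RatFunc F) (r.num * r.denom)) := by
    rw [h1]
    exact SumSq.mul_sq ⟨f, rfl⟩ _
  obtain ⟨g, hg⟩ := (sum_sq_poly_iff (RatFunc F) h2 m _).mp h3
  have h4 := (h m g).mul_sq (algebraMap F[X] (RatFunc F) r.denom)⁻¹
  rw [hg, h1, inv_pow, mul_inv_cancel_right₀ (pow_ne_zero 2 hb)] at h4
  obtain ⟨u, hu⟩ := h4
  exact ⟨u, hu.symm⟩

/-- **A field of finite level `s`: the Pythagoras number of `F(X)` is `s + 1`.** -/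
theorem pyth_ratFunc_eq_level_add_one {F : Type} [Field F] (h2 : (2 : F) ≠ 0)
    (hs : ∃ (m : ℕ) (f : Fin m → F), ∑ i, f i ^ 2 = -1) : pyth (RatFunc F) = level F + 1 := by
  obtain ⟨u, hu⟩ := level_le_iff.mp ⟨le_refl (level F), hs⟩
  have h2' : (2 : RatFunc F) ≠ 0 := by
    have e : (2 : RatFunc F) = algebraMap F (RatFunc F) 2 := (map_ofNat _ 2).symm
    rw [e]
    exact (_root_.map_ne_zero _).mpr h2
  have key : ∀ r : RatFunc F, ∃ g : Fin (level F + 1) → RatFunc F, ∑ i, g i ^ 2 = r := by
    intro r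
    refine ⟨Fin.cons ((r + 1) / 2) fun i => algebraMap F (RatFunc F) (u i) * ((r - 1) / 2), ?_⟩
    rw [Fin.sum_univ_succ]
    simp only [Fin.cons_zero, Fin.cons_succ, mul_pow]
    rw [← Finset.sum_mul]
    have h3 := congrArg (algebraMap F (RatFunc F)) hu
    rw [map_sum, map_neg, map_one] at h3
    simp only [map_pow] at h3
    rw [h3]
    field_simp
    ring
  have hle : PythLE (RatFunc F) (level F + 1) := fun m f => by
    obtain ⟨g, hg⟩ := key (∑ i, f i ^ 2)
    exact ⟨g, hg.symm⟩
  have hlow : ¬ pyth (RatFunc F) ≤ level F := by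
    rw [pyth_le_iff hle]
    intro h
    obtain ⟨g, hg⟩ := key (algebraMap F[X] (RatFunc F) X)
    obtain ⟨g', hg'⟩ := h _ g
    obtain ⟨G, hG⟩ := (sum_sq_poly_iff (RatFunc F) h2 _ X).mp ⟨g', by rw [← hg', hg]⟩
    have hmin : ∀ n, n < level F → ¬ ∃ x : Fin n → F, ∑ i, x i ^ 2 = -1 := by
      intro n hn hx
      have := (level_le_iff.mpr hx).1
      omega
    clear hg' hg g' g key hu u h hle
    generalize level F = s at G hmin
    rcases s with _ | n
    · simp only [Finset.univ_eq_empty, Finset.sum_empty] at hG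
      exact X_ne_zero hG.symm
    · have han := anisotropic_sum_sq (F := F) (hmin n (Nat.lt_succ_self n))
      have hdeg := natDegree_le_of_anisotropic (a := fun _ : Fin (n + 1) => (1 : F)) han (g := G)
        (f := X) (m := 1) (by simpa only [C_1, one_mul] using hG)
        (natDegree_X_le.trans (by norm_num))
      have h1 : ∑ i, 1 * (G i).coeff 1 ^ 2 = 0 := by
        have h3 := congrArg (fun p : F[X] => p.coeff (2 * 1)) hG
        simp only [finsetSum_coeff] at h3
        rw [coeff_X_of_ne_one (by norm_num)] at h3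
        rw [← h3]
        exact Finset.sum_congr rfl fun i _ => by
          rw [coeff_pow_of_natDegree_le (hdeg i), one_mul]
      have h3 : ∀ i, (G i).coeff 1 = 0 := fun i => congrFun (han _ h1) i
      have h4 : ∀ i, G i = C ((G i).coeff 0) := by
        intro i
        ext j
        rcases j with _ | j
        · rw [coeff_C_zero]
        · rw [coeff_C_succ]
          rcases j with _ | j
          · exact h3 i
          · exact coeff_eq_zero_of_natDegree_lt (lt_of_le_of_lt (hdeg i) (by omega))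
      have h5 := congrArg (fun p : F[X] => p.coeff 1) hG
      simp only [finsetSum_coeff] at h5
      rw [coeff_X_one, Finset.sum_eq_zero fun i _ => by
        rw [h4 i, ← C_pow, coeff_C_succ]] at h5
      exact zero_ne_one h5
  have hup := (pyth_le_iff hle).mpr hle
  omega

variable {K : Type} [Field K] [NumberField K]

variable (K) in
/-- `P(K(X)) ≤ 6` for every number field `K`. -/
theorem pythLE_ratFunc_six : PythLE (RatFunc K) 6 :=
  pythLE_ratFunc two_ne_zero fun m g => (sum_sq_poly_iff (RatFunc K) two_ne_zero 6 _).mpr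
    ((six_squares _).mpr fun σ t => by
      rw [Polynomial.map_sum, eval_finsetSum]
      refine Finset.sum_nonneg fun i _ => ?_
      rw [Polynomial.map_pow, eval_pow]
      exact sq_nonneg _)

/-- If all the local degrees of `K` at `2` are even, then a nonnegative polynomial is a sum of four
squares. -/
theorem sumSq_four_of_even (hreal : Nonempty (K →+* ℝ))
    (hev : ∀ v : HeightOneSpectrum (𝓞 K), ((2 : ℕ) : 𝓞 K) ∈ v.asIdeal →
      Even (Ideal.ramificationIdx' (Ideal.span {(2 : ℤ)}) v.asIdeal *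
        Ideal.inertiaDeg' (Ideal.span {(2 : ℤ)}) v.asIdeal)) (n : ℕ) : ∀ f : K[X],
    f.natDegree < n → Psd f → SumSq 4 (algebraMap K[X] (RatFunc K) f) := by
  induction n with
  | zero => exact fun f h => absurd h (Nat.not_lt_zero _)
  | succ n ih =>
    intro f hn hpsd
    by_cases hf0 : f = 0
    · rw [hf0, map_zero]
      exact sumSq_zero 4
    by_cases hsq : Squarefree f
    · refine sumSq_four_of_local hreal (pos_of_squarefree hf0 hsq hpsd) ?_
      intro F _ _ φ x W hW hx
      let _ := φ.toAlgebra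
      have hlo : W.asIdeal.LiesOver (W.under (𝓞 K)).asIdeal := ⟨rfl⟩
      have hv : ((2 : ℕ) : 𝓞 K) ∈ (W.under (𝓞 K)).asIdeal := by
        refine Ideal.mem_comap.mpr ?_
        rw [map_natCast]
        exact hW
      obtain ⟨a, b, hab⟩ := (adic_iff_even hv).mpr (hev _ hv)
      refine ⟨(compat_liesOver (K := K) (L := F) (W.under (𝓞 K)) W).ext a,
        (compat_liesOver (K := K) (L := F) (W.under (𝓞 K)) W).ext b, ?_⟩
      rw [← map_pow, ← map_pow, ← map_add, hab, map_neg, map_one]
    · obtain ⟨p, hp, g, rfl⟩ : ∃ p : K[X], Irreducible p ∧ p * p ∣ f := by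
        rw [squarefree_iff_irreducible_sq_not_dvd_of_ne_zero hf0] at hsq
        push Not at hsq
        exact hsq
      have hg0 : g ≠ 0 := right_ne_zero_of_mul hf0
      rw [natDegree_mul (mul_ne_zero hp.ne_zero hp.ne_zero) hg0,
        natDegree_mul hp.ne_zero hp.ne_zero] at hn
      rw [← sq] at hpsd ⊢
      have hpd := hp.natDegree_pos
      have h1 := (ih g (by omega) (psd_of_sq_mul hp.ne_zero hpsd)).mul_sq
        (algebraMap K[X] (RatFunc K) p)
      rw [map_mul, map_pow, mul_comm]
      exact h1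

/-- **Four squares**: let all the local degrees of the number field `K` at `2` be even. Then `f ∈ K[X]`
is a sum of four squares in `K[X]` iff `f^σ(t) ≥ 0` for all real embeddings `σ` and all real `t`
(`K` with a real embedding). -/
theorem four_squares_iff (hreal : Nonempty (K →+* ℝ))
    (hev : ∀ v : HeightOneSpectrum (𝓞 K), ((2 : ℕ) : 𝓞 K) ∈ v.asIdeal →
      Even (Ideal.ramificationIdx' (Ideal.span {(2 : ℤ)}) v.asIdeal *
        Ideal.inertiaDeg' (Ideal.span {(2 : ℤ)}) v.asIdeal)) (f : K[X]) :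
    (∃ g : Fin 4 → K[X], ∑ i, g i ^ 2 = f) ↔
      ∀ (σ : K →+* ℝ) (t : ℝ), 0 ≤ (f.map σ).eval t := by
  constructor
  · rintro ⟨g, rfl⟩ σ t
    rw [Polynomial.map_sum, eval_finsetSum]
    refine Finset.sum_nonneg fun i _ => ?_
    rw [Polynomial.map_pow, eval_pow]
    exact sq_nonneg _
  · intro h
    rw [← sum_sq_poly_iff (RatFunc K) two_ne_zero]
    exact sumSq_four_of_even hreal hev _ f (Nat.lt_succ_self _) h

omit [NumberField K] in
/-- `P(K(X)) ≥ P(K) + 1` for a field with a real embedding. -/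
theorem not_pythLE_ratFunc_succ [CharZero K] (σ : K →+* ℝ) {n : ℕ} (h : ¬ PythLE K n) :
    ¬ PythLE (RatFunc K) (n + 1) := by
  intro hn
  apply h
  intro m f
  obtain ⟨g, hg⟩ := hn (m + 1) (Fin.cons (algebraMap K[X] (RatFunc K) X)
    fun i => algebraMap K[X] (RatFunc K) (C (f i)))
  have h1 : ∃ g : Fin (n + 1) → RatFunc K, ∑ i, g i ^ 2 =
      algebraMap K[X] (RatFunc K) (X ^ 2 + C (∑ i, f i ^ 2)) := by
    refine ⟨g, ?_⟩
    rw [← hg, Fin.sum_univ_succ]
    simp only [Fin.cons_zero, Fin.cons_succ]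
    simp only [map_add, map_pow, map_sum]
  rw [cassels_sq_add (RatFunc K) two_ne_zero] at h1
  rcases h1 with ⟨x, hx⟩ | ⟨x, hx⟩
  · have h2 := congrArg σ hx
    rw [map_sum, map_neg, map_one] at h2
    have h3 : 0 ≤ ∑ i, σ (x i ^ 2) := Finset.sum_nonneg fun i _ => by
      rw [map_pow]
      positivity
    linarith
  · exact ⟨x, hx.symm⟩

/-- **The Pythagoras number of `K(X)`**, `K` a number field with a real embedding: `4`, `5` or `6`, and
`4` iff all the local degrees of `K` at `2` are even. -/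
theorem pyth_ratFunc_of_real (hreal : Nonempty (K →+* ℝ)) :
    (pyth (RatFunc K) = 4 ∨ pyth (RatFunc K) = 5 ∨ pyth (RatFunc K) = 6) ∧
      (pyth (RatFunc K) = 4 ↔ ∀ v : HeightOneSpectrum (𝓞 K), ((2 : ℕ) : 𝓞 K) ∈ v.asIdeal →
        Even (Ideal.ramificationIdx' (Ideal.span {(2 : ℤ)}) v.asIdeal *
          Ideal.inertiaDeg' (Ideal.span {(2 : ℤ)}) v.asIdeal)) := by
  have h6 := (pyth_le_iff (pythLE_ratFunc_six K)).mpr (pythLE_ratFunc_six K)
  obtain ⟨σ⟩ := id hreal
  have hno : ¬ ∃ i : K, i ^ 2 = -1 := by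
    rintro ⟨i, hi⟩
    have h1 := congrArg σ hi
    rw [map_pow, map_neg, map_one] at h1
    nlinarith [sq_nonneg (σ i)]
  have h3 : ¬ pyth (RatFunc K) ≤ 3 := by
    rw [pyth_le_iff (pythLE_ratFunc_six K)]
    exact not_pythLE_ratFunc_succ σ (fun h => hno (pythLE_two_iff.mp h))
  have h4 := pyth_le_iff (pythLE_ratFunc_six K) (n := 4)
  refine ⟨by omega, ?_, fun hev => ?_⟩
  · intro h
    rw [← pythLE_three_iff]
    by_contra hcon
    exact not_pythLE_ratFunc_succ σ hcon (h4.mp h.le)
  · have h5 : PythLE (RatFunc K) 4 := pythLE_ratFunc two_ne_zero fun m g =>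
      sumSq_four_of_even hreal hev _ _ (Nat.lt_succ_self _) fun σ t => by
        rw [Polynomial.map_sum, eval_finsetSum]
        refine Finset.sum_nonneg fun i _ => ?_
        rw [Polynomial.map_pow, eval_pow]
        exact sq_nonneg _
    have := h4.mpr h5
    omega

/-- **The Pythagoras number of `K(X)`**, `K` a number field without real embedding: the level plus
one, i.e. `2`, `3` or `5`. -/
theorem pyth_ratFunc_of_no_real (h : IsEmpty (K →+* ℝ)) :
    pyth (RatFunc K) = level K + 1 ∧
      (pyth (RatFunc K) = 2 ∨ pyth (RatFunc K) = 3 ∨ pyth (RatFunc K) = 5) := by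
  have h1 := pyth_ratFunc_eq_level_add_one (F := K) two_ne_zero ⟨4, neg_one_sum_four h⟩
  have h2 := level_mem h
  exact ⟨h1, by omega⟩

end Fermat.Agent.Cor.PF
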