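import Fermat.Agent.Corollaries.PF.SpringerForms

/-!
# Extensions of odd degree: formally real fields, splitting fields

* `isSemireal_of_odd`: a finite extension of odd degree of a formally real field is formally real
  (Artin - Schreier);
* `even_finrank_of_split`: the degree of a splitting field of a quaternion division algebra is even.
-/

set_option autoImplicit false

namespace Fermat.Agent.Cor.PF

open Module Quaternion

/-- sums of squares in the sense of Mathlib -/
theorem isSumSq_iff_exists {E : Type*} [Field E] (s : E) :
    IsSumSq s ↔ ∃ (n : ℕ) (x : Fin n → E), ∑ i, x i ^ 2 = s := by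
  constructor
  · intro h
    induction h with
    | zero => exact ⟨0, Fin.elim0, by simp⟩
    | sq_add a hs ih =>
      obtain ⟨n, x, hx⟩ := ih
      refine ⟨n + 1, Fin.cons a x, ?_⟩
      rw [Fin.sum_univ_succ]
      simp only [Fin.cons_zero, Fin.cons_succ]
      rw [hx, sq]
  · rintro ⟨n, x, rfl⟩
    exact IsSumSq.sum fun i _ => (IsSquare.sq (x i)).isSumSq

/-- in characteristic `2` no field is formally real -/
theorem two_ne_zero_of_isSemireal {E : Type*} [Field E] [IsSemireal E] : (2 : E) ≠ 0 := by
  intro h
  apply IsSemireal.not_isSumSq_neg_one (R := E)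
  rw [isSumSq_iff_exists]
  exact ⟨1, fun _ => 1, by simp; linear_combination h⟩

/-- **a finite extension of odd degree of a formally real field is formally real** -/
theorem isSemireal_of_odd {F L : Type*} [Field F] [Field L] [Algebra F L] [FiniteDimensional F L]
    (hodd : Odd (finrank F L)) : IsSemireal L ↔ IsSemireal F := by
  by_cases h2 : (2 : F) = 0
  · have h2L : (2 : L) = 0 := by
      have := congrArg (algebraMap F L) h2
      rwa [map_ofNat, map_zero] at this
    exact ⟨fun _ => absurd h2L two_ne_zero_of_isSemireal,
      fun _ => absurd h2 two_ne_zero_of_isSemireal⟩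
  · rw [isSemireal_iff_not_isSumSq_neg_one, isSemireal_iff_not_isSumSq_neg_one,
      isSumSq_iff_exists, isSumSq_iff_exists, not_iff_not]
    exact exists_congr fun n => neg_one_sum_sq_iff h2 hodd n

/-- **the degree of a splitting field of a quaternion division algebra is even** -/
theorem even_finrank_of_split {F L : Type*} [Field F] [Field L] [Algebra F L]
    [FiniteDimensional F L] (h2 : (2 : F) ≠ 0) {a b : F} (ha : a ≠ 0) (hb : b ≠ 0)
    (hF : ¬ Nonempty (ℍ[F,a,b] ≃ₐ[F] Matrix (Fin 2) (Fin 2) F))
    (hL : Nonempty (ℍ[L,algebraMap F L a,algebraMap F L b] ≃ₐ[L] Matrix (Fin 2) (Fin 2) L)) :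
    Even (finrank F L) := by
  rw [← Nat.not_odd_iff_even]
  exact fun hodd => hF ((mat_odd_iff h2 hodd ha hb).mp hL)

end Fermat.Agent.Cor.PF
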