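import Mathlib

/-!
# Springer's theorem (1952)

Let `L / F` be a finite extension of odd degree. A diagonal form `∑ a i x i ^ 2` which is
anisotropic over `F` is anisotropic over `L`.
-/

set_option autoImplicit false

namespace Fermat.Agent.Cor.PF

open Polynomial Module

section Core

variable {E : Type*} [Field E] {n : ℕ}

/-- A polynomial of odd degree has an irreducible factor of odd degree. -/
lemma exists_irreducible_odd {h : E[X]} (h0 : h ≠ 0) (hodd : Odd h.natDegree) :
    ∃ q : E[X], Irreducible q ∧ Odd q.natDegree ∧ q ∣ h := by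
  induction h using UniqueFactorizationMonoid.induction_on_prime with
  | h₁ => exact absurd rfl h0
  | h₂ x hx =>
    rw [natDegree_eq_zero_of_isUnit hx] at hodd
    exact absurd hodd (by decide)
  | h₃ a p ha hp ih =>
    rw [natDegree_mul hp.ne_zero ha] at hodd
    by_cases h1 : Odd p.natDegree
    · exact ⟨p, hp.irreducible, h1, dvd_mul_right _ _⟩
    · have h2 : Odd a.natDegree := by
        rw [Nat.not_odd_iff_even] at h1
        rw [Nat.odd_add'] at hodd
        rcases Nat.even_or_odd a.natDegree with h3 | h3
        · exact absurd (h1.add h3) (by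
            rw [Nat.not_even_iff_odd, Nat.odd_add']
            exact hodd)
        · exact h3
      obtain ⟨q, hq1, hq2, hq3⟩ := ih ha h2
      exact ⟨q, hq1, hq2, hq3.mul_left _⟩

/-- the leading coefficient -/
lemma natDegree_sum_sq {b : Fin n → E} (hb : ∀ x : Fin n → E, ∑ i, b i * x i ^ 2 = 0 → x = 0)
    {g : Fin n → E[X]} {D : ℕ} (hD : ∀ i, (g i).natDegree ≤ D) (hg : ∃ i, (g i).coeff D ≠ 0) :
    (∑ i, C (b i) * g i ^ 2).natDegree = 2 * D := by
  have h1 : (∑ i, C (b i) * g i ^ 2).coeff (2 * D) = ∑ i, b i * (g i).coeff D ^ 2 := by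
    rw [finsetSum_coeff]
    refine Finset.sum_congr rfl fun i _ => ?_
    rw [coeff_C_mul, coeff_pow_of_natDegree_le (hD i)]
  have h2 : (∑ i, C (b i) * g i ^ 2).coeff (2 * D) ≠ 0 := by
    rw [h1]
    intro h3
    obtain ⟨i, hi⟩ := hg
    exact hi (congrFun (hb _ h3) i)
  refine le_antisymm ?_ (le_natDegree_of_ne_zero h2)
  refine natDegree_sum_le_of_forall_le _ _ fun i _ => ?_
  refine (natDegree_C_mul_le _ _).trans (natDegree_pow_le.trans ?_)
  exact Nat.mul_le_mul_left 2 (hD i)

/-- **The core of Springer's theorem**: an irreducible polynomial of odd degree which divides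
`∑ b i g i ^ 2` divides all the `g i`. -/
theorem dvd_of_dvd_sum {b : Fin n → E} (hb : ∀ x : Fin n → E, ∑ i, b i * x i ^ 2 = 0 → x = 0)
    (m : ℕ) (p : E[X]) (hm : p.natDegree = m) (hp : Irreducible p) (hodd : Odd m) (D : ℕ)
    (g : Fin n → E[X]) (hD : ∀ i, (g i).natDegree ≤ D) (h : p ∣ ∑ i, C (b i) * g i ^ 2) :
    ∀ i, p ∣ g i := by
  induction m using Nat.strong_induction_on generalizing p D g with
  | _ m ihm =>
  induction D using Nat.strong_induction_on generalizing g with
  | _ D ihD =>
  by_cases hDm : m ≤ D
  · -- reduction modulo `p`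
    have hm0 : 0 < m := hodd.pos
    have hdeg : ∀ i, (g i % p).natDegree ≤ m - 1 := by
      intro i
      have h1 : (g i % p).natDegree < p.natDegree := natDegree_mod_lt _ (by omega)
      omega
    have hmod : ∀ i, g i % p = g i - p * (g i / p) := fun i => by
      have := EuclideanDomain.div_add_mod (g i) p
      linear_combination this
    have h2 := ihD (m - 1) (by omega) (fun i => g i % p) hdeg (by
      have h3 : ∑ i, C (b i) * (g i % p) ^ 2 = ∑ i, C (b i) * g i ^ 2 +
          p * ∑ i, C (b i) * (p * (g i / p) ^ 2 - 2 * g i * (g i / p)) := by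
        rw [Finset.mul_sum, ← Finset.sum_add_distrib]
        refine Finset.sum_congr rfl fun i _ => ?_
        rw [hmod]
        ring
      rw [h3]
      exact dvd_add h (dvd_mul_right _ _))
    intro i
    have h4 := h2 i
    rw [hmod] at h4
    exact (dvd_sub_left (dvd_mul_right _ _)).mp h4
  · rw [not_le] at hDm
    by_cases hg0 : ∀ i, g i = 0
    · intro i
      rw [hg0 i]
      exact dvd_zero _
    · push Not at hg0
      obtain ⟨i₀, hi₀⟩ := hg0
      -- the maximal degree
      obtain ⟨j, -, hj⟩ := Finset.exists_max_image Finset.univ (fun i => (g i).natDegree)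
        ⟨i₀, Finset.mem_univ _⟩
      have hj' : ∀ i, (g i).natDegree ≤ (g j).natDegree := fun i => hj i (Finset.mem_univ _)
      have hlead : ∃ i, (g i).coeff (g j).natDegree ≠ 0 := by
        by_cases hgj : g j = 0
        · have h1 := hj' i₀
          rw [hgj, natDegree_zero] at h1
          refine ⟨i₀, ?_⟩
          rw [hgj, natDegree_zero]
          have h2 : (g i₀).natDegree = 0 := by omega
          rw [eq_C_of_natDegree_eq_zero h2] at hi₀
          intro h3
          apply hi₀
          rw [h3, C_0]
        · exact ⟨j, leadingCoeff_ne_zero.mpr hgj⟩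
      have hS := natDegree_sum_sq hb hj' hlead
      obtain ⟨k, hk⟩ := h
      have hS0 : ∑ i, C (b i) * g i ^ 2 ≠ 0 := by
        intro h0
        have h1 : (∑ i, C (b i) * g i ^ 2).coeff (2 * (g j).natDegree) = 0 := by
          rw [h0, coeff_zero]
        rw [finsetSum_coeff] at h1
        have h2 : ∑ i, b i * (g i).coeff (g j).natDegree ^ 2 = 0 := by
          rw [← h1]
          refine Finset.sum_congr rfl fun i _ => ?_
          rw [coeff_C_mul, coeff_pow_of_natDegree_le (hj' i)]
        obtain ⟨i, hi⟩ := hlead
        exact hi (congrFun (hb _ h2) i)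
      have hk0 : k ≠ 0 := by
        rintro rfl
        rw [mul_zero] at hk
        exact hS0 hk
      have hdk : 2 * (g j).natDegree = m + k.natDegree := by
        rw [← hS, hk, natDegree_mul hp.ne_zero hk0, hm]
      have hkodd : Odd k.natDegree := by
        rcases Nat.even_or_odd k.natDegree with h1 | h1
        · exfalso
          have h2 : Odd (m + k.natDegree) := hodd.add_even h1
          rw [← hdk] at h2
          exact (Nat.not_odd_iff_even.mpr (even_two_mul _)) h2
        · exact h1
      obtain ⟨q, hq, hqodd, hqk⟩ := exists_irreducible_odd hk0 hkodd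
      have hqle : q.natDegree ≤ k.natDegree := natDegree_le_of_dvd hqk hk0
      have hjD := hD j
      have hqm : q.natDegree < m := by omega
      have hqg := ihm q.natDegree hqm q rfl hq hqodd D g hD (hk ▸ hqk.mul_left p)
      choose g' hg' using hqg
      have hpq : ¬ p ∣ q := by
        intro h1
        have h2 := natDegree_le_of_dvd h1 hq.ne_zero
        omega
      have hp' : Prime p := hp.prime
      have h3 : p ∣ ∑ i, C (b i) * g' i ^ 2 := by
        have h4 : p ∣ q ^ 2 * ∑ i, C (b i) * g' i ^ 2 := by
          have h5 : q ^ 2 * ∑ i, C (b i) * g' i ^ 2 = ∑ i, C (b i) * g i ^ 2 := by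
            rw [Finset.mul_sum]
            refine Finset.sum_congr rfl fun i _ => ?_
            rw [hg' i]
            ring
          rw [h5, hk]
          exact dvd_mul_right _ _
        exact (hp'.dvd_or_dvd h4).resolve_left fun h6 => hpq (hp'.dvd_of_dvd_pow h6)
      have hqD : q.natDegree ≤ D := by
        have h1 : q ∣ g i₀ := ⟨g' i₀, hg' i₀⟩
        exact (natDegree_le_of_dvd h1 hi₀).trans (hD i₀)
      have hdeg : ∀ i, (g' i).natDegree ≤ D - q.natDegree := by
        intro i
        by_cases h1 : g' i = 0
        · rw [h1, natDegree_zero]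
          exact Nat.zero_le _
        · have h2 := hD i
          rw [hg' i, natDegree_mul hq.ne_zero h1] at h2
          omega
      have hq0 : 0 < q.natDegree := hqodd.pos
      have h6 := ihD (D - q.natDegree) (by omega) g' hdeg h3
      intro i
      rw [hg' i]
      exact (h6 i).mul_left q

end Core

section Extension

variable {n : ℕ}

open IntermediateField

/-- Springer's theorem for simple extensions. -/
theorem springer_simple {E L : Type*} [Field E] [Field L] [Algebra E L] [FiniteDimensional E L]
    {b : Fin n → E} (hb : ∀ x : Fin n → E, ∑ i, b i * x i ^ 2 = 0 → x = 0) (α : L)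
    (hodd : Odd (finrank E E⟮α⟯)) (x : Fin n → L) (hx : ∀ i, x i ∈ E⟮α⟯)
    (h : ∑ i, algebraMap E L (b i) * x i ^ 2 = 0) : x = 0 := by
  have hint : IsIntegral E α := Algebra.IsIntegral.isIntegral α
  rw [adjoin.finrank hint] at hodd
  have h1 : ∀ i, ∃ g : E[X], aeval α g = x i := by
    intro i
    have h2 : x i ∈ Algebra.adjoin E {α} := by
      rw [← adjoin_simple_toSubalgebra_of_isAlgebraic hint.isAlgebraic]
      exact hx i
    rw [Algebra.adjoin_singleton_eq_range_aeval] at h2
    exact h2
  choose g hg using h1
  have h3 : minpoly E α ∣ ∑ i, C (b i) * g i ^ 2 := by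
    rw [minpoly.dvd_iff, map_sum, ← h]
    refine Finset.sum_congr rfl fun i _ => ?_
    rw [map_mul, aeval_C, map_pow, hg]
  have h4 := dvd_of_dvd_sum hb _ (minpoly E α) rfl (minpoly.irreducible hint) hodd
    (Finset.univ.sup fun i => (g i).natDegree) g
    (fun i => Finset.le_sup (f := fun i => (g i).natDegree) (Finset.mem_univ i)) h3
  funext i
  rw [← hg i]
  exact (minpoly.dvd_iff.mp (h4 i))

/-- **Springer's theorem** (1952): a diagonal form which is anisotropic over `F` is anisotropic
over every finite extension of odd degree. -/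
theorem springer {F L : Type*} [Field F] [Field L] [Algebra F L] [FiniteDimensional F L]
    (hodd : Odd (finrank F L)) {a : Fin n → F}
    (ha : ∀ x : Fin n → F, ∑ i, a i * x i ^ 2 = 0 → x = 0) (x : Fin n → L)
    (hx : ∑ i, algebraMap F L (a i) * x i ^ 2 = 0) : x = 0 := by
  have key : ∀ (m : ℕ) (E : IntermediateField F L), finrank E L = m →
      (∀ x : Fin n → L, (∀ i, x i ∈ E) → ∑ i, algebraMap F L (a i) * x i ^ 2 = 0 → x = 0) →
      ∀ x : Fin n → L, ∑ i, algebraMap F L (a i) * x i ^ 2 = 0 → x = 0 := by
    intro m
    induction m using Nat.strong_induction_on with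
    | _ m ih =>
    intro E hE hPE
    by_cases htop : ∀ α : L, α ∈ E
    · exact fun x hx => hPE x (fun i => htop _) hx
    · push Not at htop
      obtain ⟨α, hα⟩ := htop
      have hoddE : Odd (finrank E L) := by
        have h1 := finrank_mul_finrank F E L
        rw [← h1, Nat.odd_mul] at hodd
        exact hodd.2
      have h2 := finrank_mul_finrank E E⟮α⟯ L
      have hoddα : Odd (finrank E E⟮α⟯) := by
        rw [← h2, Nat.odd_mul] at hoddE
        exact hoddE.1
      have hpos : 0 < finrank E⟮α⟯ L := finrank_pos
      have hne : finrank E E⟮α⟯ ≠ 1 := by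
        intro h3
        rw [IntermediateField.finrank_eq_one_iff] at h3
        have h4 : α ∈ (⊥ : IntermediateField E L) := h3 ▸ mem_adjoin_simple_self E α
        rw [IntermediateField.mem_bot] at h4
        obtain ⟨y, hy⟩ := h4
        exact hα (hy ▸ y.2)
      have hlt : finrank E⟮α⟯ L < m := by
        rw [← hE, ← h2]
        have h3 : 0 < finrank E E⟮α⟯ := finrank_pos
        have h4 : 2 ≤ finrank E E⟮α⟯ := by omega
        nlinarith
      refine ih _ hlt (E⟮α⟯.restrictScalars F) rfl fun x hxE hx => ?_
      refine springer_simple (E := E) (b := fun i => algebraMap F E (a i)) ?_ α hoddα x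
        (fun i => hxE i) ?_
      · intro y hy
        have h5 := hPE (fun i => (y i : L)) (fun i => (y i).2) (by
          have h6 := congrArg (algebraMap E L) hy
          rw [map_sum, map_zero] at h6
          rw [← h6]
          refine Finset.sum_congr rfl fun i _ => ?_
          rw [map_mul, map_pow, ← IsScalarTower.algebraMap_apply]
          rfl)
        funext i
        exact Subtype.ext (congrFun h5 i)
      · rw [← hx]
        refine Finset.sum_congr rfl fun i _ => ?_
        rw [← IsScalarTower.algebraMap_apply]
  refine key _ ⊥ rfl (fun y hy h => ?_) x hx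
  have h1 : ∀ i, ∃ z : F, algebraMap F L z = y i := fun i => by
    have := hy i
    rw [IntermediateField.mem_bot] at this
    exact this
  choose z hz using h1
  have h2 : z = 0 := ha z (by
    apply (algebraMap F L).injective
    rw [map_sum, map_zero, ← h]
    refine Finset.sum_congr rfl fun i _ => ?_
    rw [map_mul, map_pow, hz])
  funext i
  rw [← hz i, h2]
  exact map_zero _

end Extension

end Fermat.Agent.Cor.PF
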