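import Fermat.Agent.Corollaries.PF.Springer
import Fermat.Agent.Corollaries.HM.WeakHasse
import Fermat.Agent.Corollaries.HM.Hilb.Basic
import Fermat.Agent.Corollaries.QA.Basic

/-!
# Springer's theorem: consequences

`L / F` is a finite extension of odd degree.

* `anisotropic_baseChange_iff`: Springer's theorem for arbitrary quadratic forms;
* `exists_value_baseChange_odd_iff`: a form represents `c ∈ F` over `L` iff it does over `F`;
* `equivalent_baseChange_odd_iff`: regular forms which become equivalent over `L` are equivalent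
  (the map of Witt rings is injective);
* `sum_sq_iff`, `neg_one_sum_sq_iff`: sums of squares, the level;
* `hilb_odd`, `mat_odd_iff`: Hilbert symbols and quaternion algebras.
-/

set_option autoImplicit false

namespace Fermat.Agent.Cor.PF

open Module QuadraticMap TensorProduct Quaternion
open Fermat.Agent.Cor.HM Fermat.Agent.Cor.Hilb Fermat.Agent.Cor.QA

variable {F L : Type*} [Field F] [Field L] [Algebra F L] [FiniteDimensional F L]

/-- Springer's theorem: isotropy of diagonal forms. -/
theorem springer_iff (hodd : Odd (finrank F L)) {n : ℕ} (a : Fin n → F) :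
    (∃ x : Fin n → L, x ≠ 0 ∧ ∑ i, algebraMap F L (a i) * x i ^ 2 = 0) ↔
      ∃ x : Fin n → F, x ≠ 0 ∧ ∑ i, a i * x i ^ 2 = 0 := by
  constructor
  · rintro ⟨x, hx0, hx⟩
    by_contra! hcon
    exact hx0 (springer hodd (fun y hy => by_contra fun hy0 => hcon y hy0 hy) x hx)
  · rintro ⟨x, hx0, hx⟩
    refine ⟨fun i => algebraMap F L (x i), fun h => hx0 ?_, ?_⟩
    · funext i
      exact (map_eq_zero (algebraMap F L)).mp (congrFun h i)
    · have h1 := congrArg (algebraMap F L) hx
      rw [map_sum, map_zero] at h1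
      rw [← h1]
      exact Finset.sum_congr rfl fun i _ => by rw [map_mul, map_pow]

theorem diagLocalGlobal_of_odd (hodd : Odd (finrank F L)) :
    DiagLocalGlobal F (fun _ : Unit => L) :=
  fun _ a _ h => (springer_iff hodd a).mp (h ())

section Forms

variable [Invertible (2 : F)] {V W : Type*} [AddCommGroup V] [Module F V] [FiniteDimensional F V]
  [AddCommGroup W] [Module F W] [FiniteDimensional F W]

/-- **Springer's theorem for arbitrary quadratic forms.** -/
theorem anisotropic_baseChange_iff (hodd : Odd (finrank F L)) (Q : QuadraticForm F V) :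
    (Q.baseChange L).Anisotropic ↔ Q.Anisotropic := by
  rw [← not_iff_not]
  exact ⟨fun h => not_anisotropic_of_family (diagLocalGlobal_of_odd hodd) Q fun _ => h,
    not_anisotropic_baseChange Q⟩

/-- A quadratic form over `F` represents `c ∈ F` over `L` iff it represents `c` over `F`. -/
theorem exists_value_baseChange_odd_iff (hodd : Odd (finrank F L)) (Q : QuadraticForm F V)
    (c : F) : (∃ w : L ⊗[F] V, (Q.baseChange L) w = algebraMap F L c) ↔ ∃ w : V, Q w = c := by
  constructor
  · exact fun h => exists_value_of_family (diagLocalGlobal_of_odd hodd) Q c fun _ => h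
  · rintro ⟨w, hw⟩
    refine ⟨(1 : L) ⊗ₜ[F] w, ?_⟩
    rw [QuadraticForm.baseChange_tmul, hw, one_mul, Algebra.algebraMap_eq_smul_one]

/-- **Regular quadratic forms over `F` which become equivalent over an extension of odd degree are
equivalent.** -/
theorem equivalent_baseChange_odd_iff (hodd : Odd (finrank F L)) {Q : QuadraticForm F V}
    {Q' : QuadraticForm F W} (hQ : (associated (R := F) Q).SeparatingLeft)
    (hQ' : (associated (R := F) Q').SeparatingLeft) :
    (Q.baseChange L).Equivalent (Q'.baseChange L) ↔ Q.Equivalent Q' := by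
  rw [equivalent_of_family (diagLocalGlobal_of_odd hodd) hQ hQ']
  exact ⟨fun h _ => h, fun h => h ()⟩

end Forms

/-- an element of `F` is a sum of `n` squares in `L` iff it is one in `F` -/
theorem sum_sq_iff (h2 : (2 : F) ≠ 0) (hodd : Odd (finrank F L)) (n : ℕ) (c : F) :
    (∃ x : Fin n → L, ∑ i, x i ^ 2 = algebraMap F L c) ↔ ∃ x : Fin n → F, ∑ i, x i ^ 2 = c := by
  constructor
  · rintro ⟨x, hx⟩
    obtain ⟨y, hy⟩ := (diagLocalGlobal_of_odd hodd).exists_value h2 (fun _ : Fin n => (1 : F)) c
      fun _ => ⟨x, by simpa using hx⟩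
    exact ⟨y, by simpa using hy⟩
  · rintro ⟨x, rfl⟩
    exact ⟨fun i => algebraMap F L (x i), by rw [map_sum]; simp only [map_pow]⟩

/-- **The level does not change in extensions of odd degree.** -/
theorem neg_one_sum_sq_iff (h2 : (2 : F) ≠ 0) (hodd : Odd (finrank F L)) (n : ℕ) :
    (∃ x : Fin n → L, ∑ i, x i ^ 2 = -1) ↔ ∃ x : Fin n → F, ∑ i, x i ^ 2 = -1 := by
  rw [← sum_sq_iff h2 hodd n (-1), map_neg, map_one]

/-- The Hilbert symbol does not change in extensions of odd degree. -/
theorem hilb_odd (hodd : Odd (finrank F L)) (a b : F) :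
    hilb (algebraMap F L a) (algebraMap F L b) = hilb a b := by
  refine hilb_congr ⟨fun h => ?_, fun h => h.map (algebraMap F L)⟩
  obtain ⟨x, y, z, h0, h⟩ := h
  obtain ⟨w, hw0, hw⟩ := (springer_iff hodd ![a, b, -1]).mp ⟨![x, y, z], fun h' =>
    h0 ⟨congrFun h' 0, congrFun h' 1, congrFun h' 2⟩, by
      rw [Fin.sum_univ_three]
      simp only [Matrix.cons_val_zero, Matrix.cons_val_one, Matrix.cons_val, map_neg, map_one]
      linear_combination -h⟩
  rw [Fin.sum_univ_three] at hw
  simp only [Matrix.cons_val_zero, Matrix.cons_val_one, Matrix.cons_val] at hw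
  refine ⟨w 0, w 1, w 2, fun h' => hw0 ?_, by linear_combination -hw⟩
  funext i
  fin_cases i
  · exact h'.1
  · exact h'.2.1
  · exact h'.2.2

lemma sol_iff_hilb {E : Type*} [Field E] (a b : E) :
    (∃ x y z : E, ¬ (x = 0 ∧ y = 0 ∧ z = 0) ∧ a * x ^ 2 + b * y ^ 2 = z ^ 2) ↔ hilb a b = 1 := by
  rw [hilb_eq_one_iff, Sol]
  simp only [eq_comm]

/-- **A quaternion algebra over `F` which splits over an extension of odd degree is split.** -/
theorem mat_odd_iff (h2 : (2 : F) ≠ 0) (hodd : Odd (finrank F L)) {a b : F} (ha : a ≠ 0)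
    (hb : b ≠ 0) :
    Nonempty (ℍ[L,algebraMap F L a,algebraMap F L b] ≃ₐ[L] Matrix (Fin 2) (Fin 2) L) ↔
      Nonempty (ℍ[F,a,b] ≃ₐ[F] Matrix (Fin 2) (Fin 2) F) := by
  have hL : (2 : L) ≠ 0 := by
    rw [← map_ofNat (algebraMap F L) 2]
    exact (_root_.map_ne_zero _).mpr h2
  rw [mat_iff hL ((_root_.map_ne_zero _).mpr ha) ((_root_.map_ne_zero _).mpr hb),
    mat_iff h2 ha hb, sol_iff_hilb, sol_iff_hilb, hilb_odd hodd]

end Fermat.Agent.Cor.PF
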