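import Fermat.Agent.Corollaries.PF.CasselsMv

/-!
# Pfister's substitution principle

`q = ∑ a i x_i ^ 2` is a diagonal quadratic form over the field `F`, `2 ≠ 0`.

* `substitution`: if a polynomial `f ∈ F[X_1, …, X_m]` is a value of `q` over `F(X_1, …, X_m)`, then
  `f(c)` is a value of `q` over `F`, for all `c ∈ F ^ m`.
* `substitution_sum_sq`: if `f` is a sum of `n` squares of rational functions, then `f(c)` is a sum
  of `n` squares in `F`;
* `value_const_mv_iff`: `c ∈ F` is a value of `q` over `F(X_1, …, X_m)` iff it is a value over `F`.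
-/

set_option autoImplicit false

namespace Fermat.Agent.Cor.PF

variable {F : Type*} [Field F] {ι : Type*} [Fintype ι]

theorem two_ne_zero_mv (h2 : (2 : F) ≠ 0) (m : ℕ) : (2 : MvRat F m) ≠ 0 := by
  have h : (2 : MvRat F m) = algebraMap (MvPolynomial (Fin m) F) (MvRat F m)
      (MvPolynomial.C 2) := by
    rw [map_ofNat MvPolynomial.C 2, map_ofNat]
  rw [h, Ne, map_eq_zero_iff _ (IsFractionRing.injective (MvPolynomial (Fin m) F) (MvRat F m)),
    map_eq_zero_iff _ (MvPolynomial.C_injective (Fin m) F)]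
  exact h2

/-- **Pfister's substitution principle.** -/
theorem substitution (h2 : (2 : F) ≠ 0) (a : ι → F) (m : ℕ) (f : MvPolynomial (Fin m) F)
    (h : ∃ g : ι → FractionRing (MvPolynomial (Fin m) F),
      ∑ i, algebraMap _ _ (MvPolynomial.C (a i) : MvPolynomial (Fin m) F) * g i ^ 2 =
        algebraMap _ _ f) (c : Fin m → F) :
    ∃ x : ι → F, ∑ i, a i * x i ^ 2 = MvPolynomial.eval c f := by
  induction m with
  | zero =>
    obtain ⟨g, hg⟩ := h
    let e : MvRat F 0 →+* F := IsFractionRing.lift (g := ((MvPolynomial.isEmptyAlgEquiv F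
      (Fin 0)).toRingEquiv : MvPolynomial (Fin 0) F →+* F))
      (MvPolynomial.isEmptyAlgEquiv F (Fin 0)).injective
    have he : ∀ p : MvPolynomial (Fin 0) F, e (algebraMap _ _ p) = MvPolynomial.eval c p := by
      intro p
      have h1 : e (algebraMap _ _ p) = MvPolynomial.isEmptyAlgEquiv F (Fin 0) p :=
        IsFractionRing.lift_algebraMap _ _
      rw [h1]
      obtain ⟨r, rfl⟩ := MvPolynomial.C_surjective (R := F) (Fin 0) p
      rw [MvPolynomial.eval_C, ← MvPolynomial.isEmptyAlgEquiv_symm_apply,
        AlgEquiv.apply_symm_apply]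
    refine ⟨fun i => e (g i), ?_⟩
    have h1 := congrArg e hg
    rw [he, map_sum] at h1
    rw [← h1]
    exact Finset.sum_congr rfl fun i _ => by rw [map_mul, map_pow, he, MvPolynomial.eval_C]
  | succ m ih =>
    obtain ⟨g, hg⟩ := h
    have h2' := two_ne_zero_mv h2 m
    set φ : Polynomial (MvPolynomial (Fin m) F) →+* Polynomial (MvRat F m) :=
      Polynomial.mapRingHom (algebraMap (MvPolynomial (Fin m) F) (MvRat F m)) with hφ
    have hemb : ∀ p : MvPolynomial (Fin (m + 1)) F, mvEmbK F m (algebraMap _ _ p) =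
        algebraMap (Polynomial (MvRat F m)) (RatFunc (MvRat F m))
          (φ (MvPolynomial.finSuccEquiv F m p)) := fun p => mvEmbK_algebraMap F m p
    have hC : ∀ r : F, φ (MvPolynomial.finSuccEquiv F m (MvPolynomial.C r)) =
        Polynomial.C (algebraMap (MvPolynomial (Fin m) F) (MvRat F m) (MvPolynomial.C r)) := by
      intro r
      rw [MvPolynomial.finSuccEquiv_apply, MvPolynomial.eval₂Hom_C, RingHom.comp_apply, hφ,
        Polynomial.coe_mapRingHom, Polynomial.map_C]
    have h1 := congrArg (mvEmbK F m) hg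
    rw [map_sum, hemb] at h1
    obtain ⟨w, hw⟩ := (cassels_pfister (RatFunc (MvRat F m)) h2'
      (fun i => algebraMap _ _ (MvPolynomial.C (a i) : MvPolynomial (Fin m) F)) _).mp
      ⟨fun i => mvEmbK F m (g i), by
        rw [← h1]
        refine Finset.sum_congr rfl fun i _ => ?_
        rw [map_mul, map_pow, hemb, hC]⟩
    -- specialization of the first variable
    set f₁ : MvPolynomial (Fin m) F :=
      (MvPolynomial.finSuccEquiv F m f).eval (MvPolynomial.C (c 0)) with hf₁
    have h3 := congrArg (Polynomial.eval (algebraMap (MvPolynomial (Fin m) F) (MvRat F m)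
      (MvPolynomial.C (c 0)))) hw
    rw [Polynomial.eval_finsetSum, hφ, Polynomial.coe_mapRingHom, Polynomial.eval_map_apply,
      ← hf₁] at h3
    obtain ⟨x, hx⟩ := ih f₁ ⟨fun i => (w i).eval (algebraMap _ _ (MvPolynomial.C (c 0))), by
      rw [← h3]
      refine Finset.sum_congr rfl fun i _ => ?_
      rw [Polynomial.eval_mul, Polynomial.eval_pow, Polynomial.eval_C]⟩ (Fin.tail c)
    refine ⟨x, hx.trans ?_⟩
    rw [hf₁, ← Fin.cons_self_tail c, MvPolynomial.eval_eq_eval_mv_eval', Fin.cons_zero,
      Fin.tail_cons, ← Polynomial.eval_map_apply, MvPolynomial.eval_C]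

/-- A polynomial which is a sum of `n` squares of rational functions has values which are sums of
`n` squares. -/
theorem substitution_sum_sq (h2 : (2 : F) ≠ 0) (n m : ℕ) (f : MvPolynomial (Fin m) F)
    (h : ∃ g : Fin n → FractionRing (MvPolynomial (Fin m) F), ∑ i, g i ^ 2 = algebraMap _ _ f)
    (c : Fin m → F) : ∃ x : Fin n → F, ∑ i, x i ^ 2 = MvPolynomial.eval c f := by
  have h1 := substitution h2 (fun _ : Fin n => (1 : F)) m f
    (by simpa only [MvPolynomial.C_1, map_one, one_mul] using h) c
  simpa only [one_mul] using h1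

/-- Constants which are values over `F(X_1, …, X_m)` are values over `F`. -/
theorem value_const_mv_iff (h2 : (2 : F) ≠ 0) (a : ι → F) (m : ℕ) (c : F) :
    (∃ g : ι → FractionRing (MvPolynomial (Fin m) F),
      ∑ i, algebraMap _ _ (MvPolynomial.C (a i) : MvPolynomial (Fin m) F) * g i ^ 2 =
        algebraMap _ _ (MvPolynomial.C c : MvPolynomial (Fin m) F)) ↔
      ∃ x : ι → F, ∑ i, a i * x i ^ 2 = c := by
  constructor
  · intro h
    simpa only [MvPolynomial.eval_C] using substitution h2 a m _ h 0
  · rintro ⟨x, hx⟩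
    refine ⟨fun i => algebraMap _ _ (MvPolynomial.C (x i) : MvPolynomial (Fin m) F), ?_⟩
    rw [← hx, map_sum, map_sum]
    exact Finset.sum_congr rfl fun i _ => by rw [← map_pow, ← map_mul, ← map_pow, ← map_mul]

end Fermat.Agent.Cor.PF
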